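import Fermat.Agent.S37.Deg2

set_option autoImplicit false

/-!
# S37 : `DegProp` for the modular function field (L5)
-/

namespace Fermat.Agent.S37Lib

open AlgebraicCurve ModularCurve Polynomial IntermediateField
open Fermat.Agent.S24Lib (Kb FN)

/-- the shape of "residually constant" -/
def DegRC (A : ValuationSubring Kb) (N : ℕ) (h : FN N) : Prop :=
  ∃ (c : Kb) (Y Y' : LaurentSeries A) (y y' : FN N), c ≠ 0 ∧
    (y : LaurentSeries Kb) = coeffMap A.subtype Y ∧ (y' : LaurentSeries Kb) = coeffMap A.subtype Y' ∧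
    coeffMap (IsLocalRing.residue A) Y = coeffMap (IsLocalRing.residue A) Y' ∧
    coeffMap (IsLocalRing.residue A) Y ≠ 0 ∧ h = algebraMap Kb (FN N) c * (y / y')

/-- the shape of "Gauss scaling" -/
def DegScale (A : ValuationSubring Kb) (N : ℕ) : Prop :=
  ∀ h : FN N, h ≠ 0 → ∃ (c : Kb) (Y Y' : LaurentSeries A) (y y' : FN N), c ≠ 0 ∧
    (y : LaurentSeries Kb) = coeffMap A.subtype Y ∧ (y' : LaurentSeries Kb) = coeffMap A.subtype Y' ∧
    coeffMap (IsLocalRing.residue A) Y ≠ 0 ∧ coeffMap (IsLocalRing.residue A) Y' ≠ 0 ∧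
    h = algebraMap Kb (FN N) c * (y / y')

theorem deg_rc_of_const (A : ValuationSubring Kb) (N : ℕ) (c : Kb) (Y Y' : LaurentSeries A)
    (y y' : FN N) (hc : c ≠ 0) (hy : (y : LaurentSeries Kb) = coeffMap A.subtype Y)
    (hy' : (y' : LaurentSeries Kb) = coeffMap A.subtype Y')
    (hY : coeffMap (IsLocalRing.residue A) Y ≠ 0) (lam : IsLocalRing.ResidueField A)
    (hlam : coeffMap (IsLocalRing.residue A) Y =
      HahnSeries.C lam * coeffMap (IsLocalRing.residue A) Y') :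
    DegRC A N (algebraMap Kb (FN N) c * (y / y')) := by
  obtain ⟨a, rfl⟩ := IsLocalRing.residue_surjective lam
  have ha0 : (a : Kb) ≠ 0 := by
    intro h0
    apply hY
    have : a = 0 := Subtype.val_injective h0
    rw [hlam, this, map_zero, map_zero, zero_mul]
  refine ⟨c * (a : Kb), Y, HahnSeries.C a * Y', y, algebraMap Kb (FN N) (a : Kb) * y',
    mul_ne_zero hc ha0, hy, ?_, ?_, hY, ?_⟩
  · rw [map_mul, deg_coeffMap_C]
    show (algebraMap Kb (LaurentSeries Kb) (a : Kb)) * (y' : LaurentSeries Kb) = _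
    rw [hy', algebraMap_laurentSeries_eq_single]
    rfl
  · rw [map_mul, deg_coeffMap_C, hlam]
  · have h1 : algebraMap Kb (FN N) (a : Kb) ≠ 0 := by simpa using ha0
    rw [map_mul]
    by_cases hy0 : y' = 0
    · simp [hy0]
    · field_simp

theorem deg_prop (N : ℕ) [NeZero N] (A : ValuationSubring Kb) (RC : Subgroup (FN N)ˣ)
    (hRC : ∀ h : (FN N)ˣ, h ∈ RC ↔ DegRC A N (h : FN N)) (hscale : DegScale A N) :
    DegProp (K := Kb) RC := by
  intro f hf C
  obtain ⟨c1, Y, Y', y, y', hc1, hy, hy', hY, hY', hfe⟩ := hscale (f : FN N) f.ne_zero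
  have hnc : ∀ lam : IsLocalRing.ResidueField A, coeffMap (IsLocalRing.residue A) Y ≠
      HahnSeries.C lam * coeffMap (IsLocalRing.residue A) Y' := by
    intro lam hlam
    apply hf
    rw [hRC, hfe]
    exact deg_rc_of_const A N c1 Y Y' y y' hc1 hy hy' hY lam hlam
  refine ⟨C + 1, fun z Dz hD hz => ?_⟩
  rw [hRC] at hz
  obtain ⟨c2, Y2, Y2', y2, y2', hc2, hy2, hy2', h2, h20, hze⟩ := hz
  have hz' : (z : FN N) = algebraMap Kb (FN N) (c1 ^ (C + 1) * c2) *
      ((y / y') ^ (C + 1) * (y2 / y2')) := by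
    have h1 : (z : FN N) = (f : FN N) ^ (C + 1) * ((z / f ^ (C + 1) : (FN N)ˣ) : FN N) := by
      rw [Units.val_div_eq_div_val, Units.val_pow_eq_pow_val]
      have : (f : FN N) ^ (C + 1) ≠ 0 := pow_ne_zero _ f.ne_zero
      field_simp
    rw [h1, hze, hfe, map_mul, map_pow]
    ring
  exact Nat.lt_of_succ_le (deg_le_nrm A Y Y' Y2 Y2' y y' y2 y2' hy hy' hy2 hy2' hY' h2 h20 hnc
    (C + 1) (Nat.succ_pos C) _ (mul_ne_zero (pow_ne_zero _ hc1) hc2) z hz' Dz hD)

end Fermat.Agent.S37Lib
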