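import Mathlib
import Fermat.Prelude.Def_AlgebraicCurve_DivisorClassGroup

set_option autoImplicit false

/-!
# S37 : the boundedness argument (abstract form)

`RC` is a subgroup of `Fˣ` ("residually constant functions").  A divisor `E` is `Bdd` if every
multiple `k • E` is, up to the divisor of an `RC` function, a divisor of bounded `ℓ¹`-norm.
-/

namespace Fermat.Agent.S37Lib

open AlgebraicCurve

variable {K F : Type*} [Field K] [Field F] [Algebra K F]

/-- the `ℓ¹`-norm of a divisor -/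
noncomputable def nrm (D : Divisor K F) : ℕ := D.sum fun _ n => n.natAbs

theorem nrm_zero : nrm (0 : Divisor K F) = 0 := by simp [nrm]

theorem nrm_eq_sum (D : Divisor K F) (s : Finset (Place K F)) (hs : D.support ⊆ s) :
    nrm D = ∑ v ∈ s, (D v).natAbs :=
  Finsupp.sum_of_support_subset D hs _ (fun _ _ => rfl)

theorem nrm_add_le (D E : Divisor K F) : nrm (D + E) ≤ nrm D + nrm E := by
  classical
  rw [nrm_eq_sum (D + E) (D.support ∪ E.support) Finsupp.support_add,
    nrm_eq_sum D (D.support ∪ E.support) Finset.subset_union_left,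
    nrm_eq_sum E (D.support ∪ E.support) Finset.subset_union_right, ← Finset.sum_add_distrib]
  exact Finset.sum_le_sum fun v _ => Int.natAbs_add_le _ _

theorem nrm_neg (D : Divisor K F) : nrm (-D) = nrm D := by
  rw [nrm_eq_sum (-D) D.support (by rw [Finsupp.support_neg]), nrm_eq_sum D D.support subset_rfl]
  exact Finset.sum_congr rfl fun v _ => by simp

theorem nrm_sub_le (D E : Divisor K F) : nrm (D - E) ≤ nrm D + nrm E := by
  rw [sub_eq_add_neg, ← nrm_neg E]
  exact nrm_add_le _ _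

theorem nrm_nsmul (m : ℕ) (D : Divisor K F) : nrm (m • D) = m * nrm D := by
  rw [nrm_eq_sum (m • D) D.support Finsupp.support_smul, nrm_eq_sum D D.support subset_rfl,
    Finset.mul_sum]
  exact Finset.sum_congr rfl fun v _ => by
    rw [Finsupp.smul_apply, nsmul_eq_mul, Int.natAbs_mul, Int.natAbs_natCast]

theorem nrm_single (v : Place K F) (n : ℤ) : nrm (Finsupp.single v n) = n.natAbs := by
  rw [nrm, Finsupp.sum_single_index (by simp)]

/-- `D` is the divisor of the function `h` -/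
def Dv (D : Divisor K F) (h : Fˣ) : Prop := ∀ v : Place K F, D v = v.ord (h : F)

theorem Dv.one : Dv (0 : Divisor K F) 1 := fun v => by simp

theorem Dv.mul {D E : Divisor K F} {g h : Fˣ} (hD : Dv D g) (hE : Dv E h) : Dv (D + E) (g * h) :=
  fun v => by
    rw [Finsupp.add_apply, hD v, hE v, Units.val_mul, Place.ord_mul v g.ne_zero h.ne_zero]

theorem Dv.inv {D : Divisor K F} {g : Fˣ} (hD : Dv D g) : Dv (-D) g⁻¹ := fun v => by
  rw [Finsupp.neg_apply, hD v, Units.val_inv_eq_inv_val, Place.ord_inv]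

theorem Dv.div {D E : Divisor K F} {g h : Fˣ} (hD : Dv D g) (hE : Dv E h) : Dv (D - E) (g / h) := by
  rw [sub_eq_add_neg, div_eq_mul_inv]
  exact hD.mul hE.inv

theorem Dv.pow {D : Divisor K F} {g : Fˣ} (hD : Dv D g) (n : ℕ) : Dv (n • D) (g ^ n) := by
  induction n with
  | zero => simpa using Dv.one
  | succ n ih => rw [succ_nsmul, pow_succ]; exact ih.mul hD

variable (RC : Subgroup Fˣ)

/-- all multiples of `E` are bounded modulo divisors of `RC`-functions -/
def Bdd (E : Divisor K F) : Prop :=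
  ∃ C : ℕ, ∀ k : ℕ, ∃ (B : Divisor K F) (u : Fˣ), u ∈ RC ∧ Dv (k • E - B) u ∧ nrm B ≤ C

theorem Bdd.zero : Bdd RC (0 : Divisor K F) :=
  ⟨0, fun k => ⟨0, 1, RC.one_mem, by simpa using Dv.one, by simp [nrm_zero]⟩⟩

variable {RC}

theorem Bdd.add {E E' : Divisor K F} (h : Bdd RC E) (h' : Bdd RC E') : Bdd RC (E + E') := by
  obtain ⟨C, hC⟩ := h
  obtain ⟨C', hC'⟩ := h'
  refine ⟨C + C', fun k => ?_⟩
  obtain ⟨B, u, hu, hd, hB⟩ := hC k
  obtain ⟨B', u', hu', hd', hB'⟩ := hC' k
  refine ⟨B + B', u * u', RC.mul_mem hu hu', ?_, (nrm_add_le _ _).trans (add_le_add hB hB')⟩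
  have : k • (E + E') - (B + B') = (k • E - B) + (k • E' - B') := by
    rw [smul_add]; abel
  rw [this]
  exact hd.mul hd'

theorem Bdd.neg {E : Divisor K F} (h : Bdd RC E) : Bdd RC (-E) := by
  obtain ⟨C, hC⟩ := h
  refine ⟨C, fun k => ?_⟩
  obtain ⟨B, u, hu, hd, hB⟩ := hC k
  refine ⟨-B, u⁻¹, RC.inv_mem hu, ?_, by rwa [nrm_neg]⟩
  have : k • (-E) - (-B) = -(k • E - B) := by
    rw [smul_neg]; abel
  rw [this]
  exact hd.inv

variable (RC)

/-- an additive operator on divisors which is bounded and maps principal divisors to divisors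
of `RC`-functions -/
structure GoodOp (Λ : Divisor K F →+ Divisor K F) : Prop where
  bdd : ∃ c : ℕ, ∀ D, nrm (Λ D) ≤ c * nrm D
  rc : ∀ (D : Divisor K F) (h : Fˣ), Dv D h → ∃ u ∈ RC, Dv (Λ D) u

/-- bounded representatives in degree zero (a consequence of Riemann's inequality) -/
def HasBddRep (K F : Type*) [Field K] [Field F] [Algebra K F] : Prop :=
  ∃ C0 : ℕ, ∀ D : Divisor K F, Divisor.degree D = 0 →
    ∃ (B : Divisor K F) (h : Fˣ), Dv (D - B) h ∧ nrm B ≤ C0

variable {RC}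

theorem GoodOp.bdd_apply {Λ : Divisor K F →+ Divisor K F} (hΛ : GoodOp RC Λ)
    (hRR : HasBddRep K F) {D : Divisor K F} (hD : Divisor.degree D = 0) : Bdd RC (Λ D) := by
  obtain ⟨c, hc⟩ := hΛ.bdd
  obtain ⟨C0, hC0⟩ := hRR
  refine ⟨c * C0, fun k => ?_⟩
  obtain ⟨B, h, hd, hB⟩ := hC0 (k • D) (by rw [map_nsmul, hD, smul_zero])
  obtain ⟨u, hu, hdu⟩ := hΛ.rc _ h hd
  refine ⟨Λ B, u, hu, ?_, (hc B).trans (Nat.mul_le_mul_left c hB)⟩
  rwa [map_sub, map_nsmul] at hdu

/-- the degree property: powers of a function which is not `RC` cannot be made of bounded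
degree by `RC`-functions -/
def DegProp (RC : Subgroup Fˣ) : Prop :=
  ∀ f : Fˣ, f ∉ RC → ∀ C : ℕ, ∃ k : ℕ, ∀ (z : Fˣ) (Dz : Divisor K F), Dv Dz z →
    z / f ^ k ∈ RC → C < nrm Dz

/-- **The boundedness argument.** -/
theorem Bdd.mem_RC (hDEG : DegProp (K := K) RC) {E : Divisor K F} (hE : Bdd RC E) (m : ℕ) (f : Fˣ)
    (hf : Dv (m • E) f) : f ∈ RC := by
  by_contra hfRC
  obtain ⟨C, hC⟩ := hE
  obtain ⟨k, hk⟩ := hDEG f hfRC (m * C)
  obtain ⟨B, u, hu, hd, hB⟩ := hC k
  have h1 : Dv (m • B) (f ^ k / u ^ m) := by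
    have h2 := (hf.pow k).div (hd.pow m)
    have : k • m • E - m • (k • E - B) = m • B := by
      rw [smul_sub, smul_comm k m E]; abel
    rwa [this] at h2
  have h3 : f ^ k / u ^ m / f ^ k ∈ RC := by
    have : f ^ k / u ^ m / f ^ k = (u ^ m)⁻¹ := by
      rw [div_div, mul_comm, ← div_div, div_self', one_div]
    rw [this]
    exact RC.inv_mem (RC.pow_mem hu m)
  have h4 := hk _ _ h1 h3
  rw [nrm_nsmul] at h4
  exact absurd (Nat.mul_le_mul_left m hB) (not_le.2 h4)

end Fermat.Agent.S37Lib
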