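import Mathlib
import Fermat.Prelude.Def_HeckeGalois_EichlerShimura

/-!
# S37: the formal reduction

`J' := J / W`, `W = Σ_{s ∈ I} (s - 1) J + Θ J`, `Θ = φ² - T_ℓ φ + ℓ`.
Everything in `SpecializationExists` is formal except `W ∩ J[p^∞] = 0`.
-/

set_option autoImplicit false
set_option linter.unusedSectionVars false

namespace Fermat.Agent.S37Lib

open ModularCurve

section Inertia

variable {K L : Type*} [Field K] [Field L] [Algebra K L]

theorem fm_mem_inertiaIn_iff (A : ValuationSubring L) (s : L ≃ₐ[K] L) :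
    s ∈ A.inertiaSubgroupIn K ↔ ∃ hs : s ∈ A.decompositionSubgroup K,
      ∀ x : IsLocalRing.ResidueField A, (⟨s, hs⟩ : A.decompositionSubgroup K) • x = x := by
  unfold ValuationSubring.inertiaSubgroupIn
  rw [Subgroup.mem_map]
  constructor
  · rintro ⟨t, ht, rfl⟩
    refine ⟨t.2, fun x => ?_⟩
    have h1 : MulSemiringAction.toRingAut (A.decompositionSubgroup K)
        (IsLocalRing.ResidueField A) t = 1 := ht
    have h2 := congrArg (fun f : RingAut (IsLocalRing.ResidueField A) => f x) h1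
    exact h2
  · rintro ⟨hs, h⟩
    refine ⟨⟨s, hs⟩, ?_, rfl⟩
    show MulSemiringAction.toRingAut (A.decompositionSubgroup K)
        (IsLocalRing.ResidueField A) ⟨s, hs⟩ = 1
    ext x
    exact h x

/-- inertia is normalised by the decomposition group -/
theorem fm_conj_mem (A : ValuationSubring L) {φ s : L ≃ₐ[K] L}
    (hφ : φ ∈ A.decompositionSubgroup K) (hs : s ∈ A.inertiaSubgroupIn K) :
    φ * s * φ⁻¹ ∈ A.inertiaSubgroupIn K := by
  rw [fm_mem_inertiaIn_iff] at hs ⊢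
  obtain ⟨hs, h⟩ := hs
  refine ⟨mul_mem (mul_mem hφ hs) (inv_mem hφ), fun x => ?_⟩
  have e : (⟨φ * s * φ⁻¹, mul_mem (mul_mem hφ hs) (inv_mem hφ)⟩ : A.decompositionSubgroup K)
      = (⟨φ, hφ⟩ : A.decompositionSubgroup K) * ⟨s, hs⟩ * (⟨φ, hφ⟩ : A.decompositionSubgroup K)⁻¹ :=
    rfl
  rw [e, mul_smul, mul_smul, h, smul_inv_smul]

/-- two Frobenius elements differ by inertia -/
theorem fm_frob_mul_inv_mem (A : ValuationSubring L) {φ φ' : L ≃ₐ[K] L} {q : ℕ}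
    (hφ : A.IsFrobeniusAt φ q) (hφ' : A.IsFrobeniusAt φ' q) :
    φ' * φ⁻¹ ∈ A.inertiaSubgroupIn K := by
  rw [fm_mem_inertiaIn_iff]
  obtain ⟨h1, h1'⟩ := hφ
  obtain ⟨h2, h2'⟩ := hφ'
  refine ⟨mul_mem h2 (inv_mem h1), fun x => ?_⟩
  have e : (⟨φ' * φ⁻¹, mul_mem h2 (inv_mem h1)⟩ : A.decompositionSubgroup K)
      = (⟨φ', h2⟩ : A.decompositionSubgroup K) * (⟨φ, h1⟩ : A.decompositionSubgroup K)⁻¹ := rfl
  rw [e, mul_smul, h2', ← h1', smul_inv_smul]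

end Inertia

section Formal

variable {K L : Type*} [Field K] [Field L] [Algebra K L]
variable (J : Type) [AddCommGroup J] [Module HeckeAlg J]
  [DistribMulAction (L ≃ₐ[K] L) J] [SMulCommClass (L ≃ₐ[K] L) HeckeAlg J]

/-- `Θ x = φ² x - T_ℓ φ x + ℓ x`. -/
noncomputable def fmTheta {ℓ : ℕ} (hℓ : ℓ.Prime) (φ : L ≃ₐ[K] L) (x : J) : J :=
  φ • φ • x - heckeGen ⟨ℓ, hℓ⟩ • (φ • x) + ℓ • x

/-- the generators of `W` -/
def fmGen (A : ValuationSubring L) {ℓ : ℕ} (hℓ : ℓ.Prime) (φ : L ≃ₐ[K] L) : Set J :=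
  {y | ∃ s ∈ A.inertiaSubgroupIn K, ∃ x : J, y = s • x - x} ∪ Set.range (fmTheta J hℓ φ)

/-- `W = Σ_{s ∈ I} (s - 1) J + Θ J`. -/
noncomputable def fmW (A : ValuationSubring L) {ℓ : ℕ} (hℓ : ℓ.Prime) (φ : L ≃ₐ[K] L) : Submodule HeckeAlg J :=
  Submodule.span HeckeAlg (fmGen J A hℓ φ)

variable {J}

theorem fmTheta_add {ℓ : ℕ} (hℓ : ℓ.Prime) (φ : L ≃ₐ[K] L) (x y : J) :
    fmTheta J hℓ φ (x + y) = fmTheta J hℓ φ x + fmTheta J hℓ φ y := by
  unfold fmTheta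
  simp only [smul_add]
  abel

theorem fmTheta_zero {ℓ : ℕ} (hℓ : ℓ.Prime) (φ : L ≃ₐ[K] L) :
    fmTheta J hℓ φ (0 : J) = 0 := by
  unfold fmTheta
  simp

theorem fmTheta_hecke {ℓ : ℕ} (hℓ : ℓ.Prime) (φ : L ≃ₐ[K] L) (T : HeckeAlg) (x : J) :
    fmTheta J hℓ φ (T • x) = T • fmTheta J hℓ φ x := by
  unfold fmTheta
  rw [smul_add, smul_sub, smul_comm φ T x, smul_comm φ T (φ • x),
    smul_comm (heckeGen ⟨ℓ, hℓ⟩) T (φ • x), smul_comm ℓ T x]

theorem fmTheta_gal {ℓ : ℕ} (hℓ : ℓ.Prime) (φ : L ≃ₐ[K] L) (x : J) :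
    fmTheta J hℓ φ (φ • x) = φ • fmTheta J hℓ φ x := by
  unfold fmTheta
  rw [smul_add, smul_sub, smul_comm φ (heckeGen ⟨ℓ, hℓ⟩) (φ • x), smul_comm φ ℓ x]

/-- explicit form of the elements of `W` -/
theorem fmW_explicit (A : ValuationSubring L) {ℓ : ℕ} (hℓ : ℓ.Prime) (φ : L ≃ₐ[K] L)
    {w : J} (hw : w ∈ fmW J A hℓ φ) :
    ∃ (ι : Type) (_ : Fintype ι) (s : ι → (L ≃ₐ[K] L)) (x : ι → J) (y : J),
      (∀ i, s i ∈ A.inertiaSubgroupIn K) ∧
      w = ∑ i, (s i • x i - x i) + fmTheta J hℓ φ y := by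
  unfold fmW at hw
  induction hw using Submodule.span_induction with
  | mem w hw =>
    rcases hw with ⟨s, hs, x, rfl⟩ | ⟨y, rfl⟩
    · exact ⟨Unit, inferInstance, fun _ => s, fun _ => x, 0, fun _ => hs, by
        simp [fmTheta_zero]⟩
    · exact ⟨Empty, inferInstance, fun e => e.elim, fun e => e.elim, y, fun e => e.elim, by simp⟩
  | zero =>
    exact ⟨Empty, inferInstance, fun e => e.elim, fun e => e.elim, 0, fun e => e.elim, by
      simp [fmTheta_zero]⟩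
  | add w w' _ _ ih ih' =>
    obtain ⟨ι, _, s, x, y, hs, rfl⟩ := ih
    obtain ⟨ι', _, s', x', y', hs', rfl⟩ := ih'
    refine ⟨ι ⊕ ι', inferInstance, Sum.elim s s', Sum.elim x x', y + y', ?_, ?_⟩
    · rintro (i | i)
      · exact hs i
      · exact hs' i
    · rw [Fintype.sum_sum_type, fmTheta_add]
      simp only [Sum.elim_inl, Sum.elim_inr]
      abel
  | smul T w _ ih =>
    obtain ⟨ι, _, s, x, y, hs, rfl⟩ := ih
    refine ⟨ι, inferInstance, s, fun i => T • x i, T • y, hs, ?_⟩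
    rw [smul_add, Finset.smul_sum, fmTheta_hecke]
    congr 1
    refine Finset.sum_congr rfl fun i _ => ?_
    rw [smul_sub, smul_comm (s i) T (x i)]

theorem fm_inertia_sub_mem (A : ValuationSubring L) {ℓ : ℕ} (hℓ : ℓ.Prime) (φ : L ≃ₐ[K] L)
    {s : L ≃ₐ[K] L} (hs : s ∈ A.inertiaSubgroupIn K) (x : J) :
    s • x - x ∈ fmW J A hℓ φ :=
  Submodule.subset_span (Or.inl ⟨s, hs, x, rfl⟩)

theorem fm_theta_mem (A : ValuationSubring L) {ℓ : ℕ} (hℓ : ℓ.Prime) (φ : L ≃ₐ[K] L) (x : J) :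
    fmTheta J hℓ φ x ∈ fmW J A hℓ φ :=
  Submodule.subset_span (Or.inr ⟨x, rfl⟩)

theorem fmW_le_comap (A : ValuationSubring L) {ℓ : ℕ} (hℓ : ℓ.Prime) {φ : L ≃ₐ[K] L}
    (hφ : φ ∈ A.decompositionSubgroup K) :
    fmW J A hℓ φ ≤ (fmW J A hℓ φ).comap (DistribSMul.toLinearMap HeckeAlg J φ) := by
  have key : fmGen J A hℓ φ ⊆
      ((fmW J A hℓ φ).comap (DistribSMul.toLinearMap HeckeAlg J φ) : Set J) := by
    rintro w (⟨s, hs, x, rfl⟩ | ⟨y, rfl⟩)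
    · show φ • (s • x - x) ∈ fmW J A hℓ φ
      have e : φ • (s • x - x) = (φ * s * φ⁻¹) • (φ • x) - φ • x := by
        rw [smul_sub, mul_smul, mul_smul, inv_smul_smul]
      rw [e]
      exact fm_inertia_sub_mem A hℓ φ (fm_conj_mem A hφ hs) _
    · show φ • fmTheta J hℓ φ y ∈ fmW J A hℓ φ
      rw [← fmTheta_gal]
      exact fm_theta_mem A hℓ φ _
  exact Submodule.span_le.mpr key

/-- **The formal reduction.**  If `W ∩ J[p^∞] = 0` then the specialisation datum exists. -/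
theorem fm_main (p : ℕ) (A : ValuationSubring L) {ℓ : ℕ} (hℓ : ℓ.Prime) {φ : L ≃ₐ[K] L}
    (hφ : A.IsFrobeniusAt φ ℓ)
    (hcontent : ∀ (ι : Type) (_ : Fintype ι) (s : ι → (L ≃ₐ[K] L)) (x : ι → J) (y : J),
      (∀ i, s i ∈ A.inertiaSubgroupIn K) →
      (∃ n : ℕ, p ^ n • (∑ i, (s i • x i - x i) + fmTheta J hℓ φ y) = 0) →
      ∑ i, (s i • x i - x i) + fmTheta J hℓ φ y = 0) :
    ∃ (J' : Type) (_ : AddCommGroup J') (_ : Module HeckeAlg J') (sp : J →+ J')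
      (F : J' →+ J'),
      IsSpecialization (K := K) p J J' A ℓ sp F ∧ SpecialFibreRelation J' ℓ hℓ F := by
  have hφD : φ ∈ A.decompositionSubgroup K := hφ.mem_decompositionSubgroup
  let W := fmW J A hℓ φ
  let Fl : (J ⧸ W) →ₗ[HeckeAlg] (J ⧸ W) :=
    W.mapQ W (DistribSMul.toLinearMap HeckeAlg J φ) (fmW_le_comap A hℓ hφD)
  have hF : ∀ x : J, Fl (W.mkQ x) = W.mkQ (φ • x) := fun x => rfl
  refine ⟨J ⧸ W, inferInstance, inferInstance, W.mkQ.toAddMonoidHom, Fl.toAddMonoidHom,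
    ⟨?_, ?_, ?_, ?_⟩, ?_⟩
  · intro T x
    exact map_smul W.mkQ T x
  · intro σ hσ x
    show W.mkQ (σ • x) = W.mkQ x
    rw [← sub_eq_zero, ← map_sub, Submodule.mkQ_apply, Submodule.Quotient.mk_eq_zero]
    exact fm_inertia_sub_mem A hℓ φ hσ x
  · intro σ hσ x
    show W.mkQ (σ • x) = Fl (W.mkQ x)
    rw [hF, ← sub_eq_zero, ← map_sub, Submodule.mkQ_apply, Submodule.Quotient.mk_eq_zero]
    have e : σ • x - φ • x = (σ * φ⁻¹) • (φ • x) - φ • x := by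
      rw [mul_smul, inv_smul_smul]
    rw [e]
    exact fm_inertia_sub_mem A hℓ φ (fm_frob_mul_inv_mem A hφ hσ) _
  · intro x hx h0
    have hxW : x ∈ W := by
      have : W.mkQ x = 0 := h0
      rwa [Submodule.mkQ_apply, Submodule.Quotient.mk_eq_zero] at this
    obtain ⟨ι, _, s, x', y, hs, rfl⟩ := fmW_explicit A hℓ φ hxW
    exact hcontent ι _ s x' y hs hx
  · intro y
    obtain ⟨x, rfl⟩ := W.mkQ_surjective y
    show Fl (Fl (W.mkQ x)) - heckeGen ⟨ℓ, hℓ⟩ • Fl (W.mkQ x) + ℓ • W.mkQ x = 0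
    rw [hF, hF, ← map_smul, ← map_nsmul, ← map_sub, ← map_add, Submodule.mkQ_apply,
      Submodule.Quotient.mk_eq_zero]
    exact fm_theta_mem A hℓ φ x

end Formal

end Fermat.Agent.S37Lib
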