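import Mathlib
import Fermat.Agent.S24.Defs
import Fermat.Agent.S37.Formal
import Fermat.Agent.S37.Count
import Fermat.Prelude.Def_ModularCurve_ArithmeticGalois
import Fermat.Prelude.Def_EllipticCurve_FrobeniusTrace

/-!
# S37, leaf L7: the Galois action on `FN N`, its divisors, and on coefficients
-/

set_option autoImplicit false
set_option linter.unusedSectionVars false

namespace Fermat.Agent.S37Lib

open ModularCurve AlgebraicCurve Fermat.Agent.S24Lib
open scoped Pointwise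

/-- the Galois action on the function field (coefficientwise). -/
noncomputable def galF (N : ℕ) (σ : Kb ≃ₐ[ℚ] Kb) : FN N ≃+* FN N :=
  arithmeticRingAut (modularFunctionFieldFull N) σ

theorem gal_coe (N : ℕ) (σ : Kb ≃ₐ[ℚ] Kb) (x : FN N) :
    (galF N σ x : LaurentSeries Kb) = coeffMap (σ : Kb →+* Kb) (x : LaurentSeries Kb) := rfl

theorem gal_algebraMap (N : ℕ) (σ : Kb ≃ₐ[ℚ] Kb) (a : Kb) :
    galF N σ (algebraMap Kb (FN N) a) = algebraMap Kb (FN N) (σ a) :=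
  arithmeticRingAut_algebraMap _ σ a

theorem gal_smul_eq (N : ℕ) (σ : Kb ≃ₐ[ℚ] Kb) (x : FN N) :
    arithmeticGalois (modularFunctionFieldFull N) σ • x = galF N σ x := rfl

theorem gal_mul (N : ℕ) (σ τ : Kb ≃ₐ[ℚ] Kb) (x : FN N) :
    galF N (σ * τ) x = galF N σ (galF N τ x) := by
  rw [← gal_smul_eq, ← gal_smul_eq, ← gal_smul_eq, map_mul, mul_smul]

/-- the Galois action on divisors. -/
noncomputable def galD (N : ℕ) (σ : Kb ≃ₐ[ℚ] Kb) : Divisor Kb (FN N) →+ Divisor Kb (FN N) :=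
  DistribSMul.toAddMonoidHom (Divisor Kb (FN N)) (arithmeticGalois (modularFunctionFieldFull N) σ)

/-- the Galois action on places. -/
noncomputable def galP (N : ℕ) (σ : Kb ≃ₐ[ℚ] Kb) (v : Place Kb (FN N)) : Place Kb (FN N) :=
  arithmeticGalois (modularFunctionFieldFull N) σ • v

theorem gal_ord (N : ℕ) (σ : Kb ≃ₐ[ℚ] Kb) (v : Place Kb (FN N)) (f : FN N) :
    (galP N σ v).ord (galF N σ f) = v.ord f :=
  SemilinearAut.ord_smul _ v f

theorem galP_injective (N : ℕ) (σ : Kb ≃ₐ[ℚ] Kb) : Function.Injective (galP N σ) :=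
  MulAction.injective _

theorem galP_surjective (N : ℕ) (σ : Kb ≃ₐ[ℚ] Kb) : Function.Surjective (galP N σ) :=
  MulAction.surjective _

theorem galD_single (N : ℕ) (σ : Kb ≃ₐ[ℚ] Kb) (v : Place Kb (FN N)) (n : ℤ) :
    galD N σ (Finsupp.single v n) = Finsupp.single (galP N σ v) n :=
  SemilinearAut.smul_single _ v n

theorem galD_apply (N : ℕ) (σ : Kb ≃ₐ[ℚ] Kb) (D : Divisor Kb (FN N)) (v : Place Kb (FN N)) :
    galD N σ D (galP N σ v) = D v :=
  SemilinearAut.divisor_smul_apply_smul _ D v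

theorem galD_degree (N : ℕ) (σ : Kb ≃ₐ[ℚ] Kb) (D : Divisor Kb (FN N)) :
    Divisor.degree (galD N σ D) = Divisor.degree D :=
  SemilinearAut.degree_smul _ D

/-- `σ (div h) = div (σ h)`. -/
theorem galD_div (N : ℕ) (σ : Kb ≃ₐ[ℚ] Kb) (D : Divisor Kb (FN N)) (h : FN N)
    (hD : ∀ v, D v = v.ord h) : ∀ v, galD N σ D v = v.ord (galF N σ h) := by
  intro v
  obtain ⟨w, rfl⟩ := galP_surjective N σ v
  rw [galD_apply, gal_ord, hD]

/-- effectivity is preserved. -/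
theorem galD_nonneg (N : ℕ) (σ : Kb ≃ₐ[ℚ] Kb) (D : Divisor Kb (FN N))
    (hD : ∀ v, 0 ≤ D v) : ∀ v, 0 ≤ galD N σ D v := by
  intro v
  obtain ⟨w, rfl⟩ := galP_surjective N σ v
  rw [galD_apply]
  exact hD w

/-- the action on `Pic0` is induced by the action on divisors. -/
theorem gal_smul_mk (N : ℕ) (σ : Kb ≃ₐ[ℚ] Kb)
    (D : Divisor.degZero (K := Kb) (F := FN N)) :
    σ • (Pic0.mk D : JZero N) = Pic0.mk ⟨galD N σ D, by
      rw [Divisor.mem_degZero, galD_degree]; exact Divisor.mem_degZero.mp D.2⟩ := rfl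

/-- the Galois action on units of the function field -/
noncomputable def galU (N : ℕ) (σ : Kb ≃ₐ[ℚ] Kb) : (FN N)ˣ →* (FN N)ˣ :=
  Units.map (galF N σ : FN N →* FN N)

theorem galU_coe (N : ℕ) (σ : Kb ≃ₐ[ℚ] Kb) (h : (FN N)ˣ) :
    ((galU N σ h : (FN N)ˣ) : FN N) = galF N σ (h : FN N) := rfl

theorem gal_nrm (N : ℕ) (σ : Kb ≃ₐ[ℚ] Kb) (D : Divisor Kb (FN N)) :
    nrm (galD N σ D) = nrm D := by
  show (Finsupp.mapDomain (galP N σ) D).sum (fun _ n => n.natAbs) = _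
  rw [Finsupp.sum_mapDomain_index_inj (galP_injective N σ)]
  rfl

theorem gal_Dv (N : ℕ) (σ : Kb ≃ₐ[ℚ] Kb) {D : Divisor Kb (FN N)} {h : (FN N)ˣ}
    (hD : Dv D h) : Dv (galD N σ D) (galU N σ h) :=
  galD_div N σ D h hD

theorem galD_mul (N : ℕ) (σ τ : Kb ≃ₐ[ℚ] Kb) (D : Divisor Kb (FN N)) :
    galD N (σ * τ) D = galD N σ (galD N τ D) := by
  show arithmeticGalois (modularFunctionFieldFull N) (σ * τ) • D = _
  rw [map_mul, mul_smul]
  rfl

/-- `σ - 1` is a good operator as soon as `σ h / h ∈ RC` for all `h`. -/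
theorem gal_goodOp (N : ℕ) (σ : Kb ≃ₐ[ℚ] Kb) (RC : Subgroup (FN N)ˣ)
    (hF1 : ∀ h : (FN N)ˣ, galU N σ h / h ∈ RC) :
    GoodOp RC (galD N σ - AddMonoidHom.id _) where
  bdd := ⟨2, fun D => by
    show nrm (galD N σ D - D) ≤ 2 * nrm D
    have h2 := nrm_sub_le (galD N σ D) D
    rw [gal_nrm] at h2
    omega⟩
  rc := fun D h hD => ⟨galU N σ h / h, hF1 h, (gal_Dv N σ hD).div hD⟩

section Coeff

variable (A : ValuationSubring Kb)

theorem gal_mem {σ : Kb ≃ₐ[ℚ] Kb} (hσ : σ ∈ A.decompositionSubgroup ℚ) (a : A) :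
    σ (a : Kb) ∈ A := by
  have h1 : σ • A = A := hσ
  have h2 : σ • (a : Kb) ∈ σ • A := ValuationSubring.smul_mem_pointwise_smul σ _ A a.2
  rw [h1] at h2
  exact h2

/-- an element of the decomposition group acts on `A`. -/
noncomputable def galA {σ : Kb ≃ₐ[ℚ] Kb} (hσ : σ ∈ A.decompositionSubgroup ℚ) : A →+* A where
  toFun a := ⟨σ (a : Kb), gal_mem A hσ a⟩
  map_one' := Subtype.ext (map_one σ)
  map_mul' _ _ := Subtype.ext (map_mul σ _ _)
  map_zero' := Subtype.ext (map_zero σ)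
  map_add' _ _ := Subtype.ext (map_add σ _ _)

theorem galA_coe {σ : Kb ≃ₐ[ℚ] Kb} (hσ : σ ∈ A.decompositionSubgroup ℚ) (a : A) :
    (galA A hσ a : Kb) = σ (a : Kb) := rfl

theorem gal_coeffMap {σ : Kb ≃ₐ[ℚ] Kb} (hσ : σ ∈ A.decompositionSubgroup ℚ)
    (Y : LaurentSeries A) :
    coeffMap (σ : Kb →+* Kb) (coeffMap A.subtype Y) = coeffMap A.subtype (coeffMap (galA A hσ) Y) := by
  ext n
  simp only [coeffMap_coeff]
  rfl

theorem gal_residue_smul {σ : Kb ≃ₐ[ℚ] Kb} (hσ : σ ∈ A.decompositionSubgroup ℚ) (a : A) :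
    IsLocalRing.residue A (galA A hσ a)
      = (⟨σ, hσ⟩ : A.decompositionSubgroup ℚ) • IsLocalRing.residue A a := rfl

theorem gal_mem_decomp {σ : Kb ≃ₐ[ℚ] Kb} (hσ : σ ∈ A.inertiaSubgroupIn ℚ) :
    σ ∈ A.decompositionSubgroup ℚ :=
  ((fm_mem_inertiaIn_iff A σ).mp hσ).1

/-- inertia acts trivially on residues of coefficients -/
theorem gal_res_inertia {σ : Kb ≃ₐ[ℚ] Kb} (hσ : σ ∈ A.inertiaSubgroupIn ℚ)
    (Y : LaurentSeries A) :
    coeffMap (IsLocalRing.residue A) (coeffMap (galA A (gal_mem_decomp A hσ)) Y)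
      = coeffMap (IsLocalRing.residue A) Y := by
  obtain ⟨hs, h⟩ := (fm_mem_inertiaIn_iff A σ).mp hσ
  ext n
  simp only [coeffMap_coeff]
  rw [gal_residue_smul]
  exact h _

/-- Frobenius acts as `x ↦ x ^ ℓ` on residues of coefficients -/
theorem gal_res_frob {φ : Kb ≃ₐ[ℚ] Kb} {ℓ : ℕ} (hφ : A.IsFrobeniusAt φ ℓ)
    (Y : LaurentSeries A) (n : ℤ) :
    (coeffMap (IsLocalRing.residue A)
        (coeffMap (galA A hφ.mem_decompositionSubgroup) Y)).coeff n
      = ((coeffMap (IsLocalRing.residue A) Y).coeff n) ^ ℓ := by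
  simp only [coeffMap_coeff]
  rw [gal_residue_smul]
  exact hφ.smul_residue_eq _

/-- the residue of `σ Y` vanishes iff that of `Y` does (any `σ` in the decomposition group) -/
theorem gal_res_ne_zero {σ : Kb ≃ₐ[ℚ] Kb} (hσ : σ ∈ A.decompositionSubgroup ℚ)
    (Y : LaurentSeries A) (hY : coeffMap (IsLocalRing.residue A) Y ≠ 0) :
    coeffMap (IsLocalRing.residue A) (coeffMap (galA A hσ) Y) ≠ 0 := by
  intro h0
  apply hY
  ext n
  have h1 := congrArg (fun z => z.coeff n) h0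
  simp only [coeffMap_coeff, HahnSeries.coeff_zero] at h1 ⊢
  rw [gal_residue_smul] at h1
  have h2 := congrArg (fun z => (⟨σ, hσ⟩ : A.decompositionSubgroup ℚ)⁻¹ • z) h1
  simpa using h2

/-- **(F1)**: for `σ` in the inertia group, `σ h / h` is residually constant
(`h = c * (y / y')` with `y, y'` integral with non-zero residues). -/
theorem gal_F1 (N : ℕ) {σ : Kb ≃ₐ[ℚ] Kb} (hσ : σ ∈ A.inertiaSubgroupIn ℚ)
    (c : Kb) (hc : c ≠ 0) (Y Y' : LaurentSeries A) (y y' : FN N)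
    (hy : (y : LaurentSeries Kb) = coeffMap A.subtype Y)
    (hy' : (y' : LaurentSeries Kb) = coeffMap A.subtype Y')
    (hY : coeffMap (IsLocalRing.residue A) Y ≠ 0)
    (hY' : coeffMap (IsLocalRing.residue A) Y' ≠ 0) :
    ∃ (c₁ : Kb) (Y₁ Y₁' : LaurentSeries A) (y₁ y₁' : FN N), c₁ ≠ 0 ∧
      (y₁ : LaurentSeries Kb) = coeffMap A.subtype Y₁ ∧
      (y₁' : LaurentSeries Kb) = coeffMap A.subtype Y₁' ∧
      coeffMap (IsLocalRing.residue A) Y₁ = coeffMap (IsLocalRing.residue A) Y₁' ∧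
      coeffMap (IsLocalRing.residue A) Y₁ ≠ 0 ∧
      galF N σ (algebraMap Kb (FN N) c * (y / y')) / (algebraMap Kb (FN N) c * (y / y'))
        = algebraMap Kb (FN N) c₁ * (y₁ / y₁') := by
  have hd := gal_mem_decomp A hσ
  have hy0 : y ≠ 0 := by
    rintro rfl
    apply hY
    have h0 : coeffMap A.subtype Y = 0 := hy.symm
    ext n
    have h1 := congrArg (fun z => z.coeff n) h0
    simp only [coeffMap_coeff, HahnSeries.coeff_zero] at h1 ⊢
    have h2 : Y.coeff n = 0 := Subtype.ext h1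
    rw [h2, map_zero]
  have hy'0 : y' ≠ 0 := by
    rintro rfl
    apply hY'
    have h0 : coeffMap A.subtype Y' = 0 := hy'.symm
    ext n
    have h1 := congrArg (fun z => z.coeff n) h0
    simp only [coeffMap_coeff, HahnSeries.coeff_zero] at h1 ⊢
    have h2 : Y'.coeff n = 0 := Subtype.ext h1
    rw [h2, map_zero]
  have hsy0 : galF N σ y ≠ 0 := (map_ne_zero_iff _ (galF N σ).injective).mpr hy0
  have hsy'0 : galF N σ y' ≠ 0 := (map_ne_zero_iff _ (galF N σ).injective).mpr hy'0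
  have hc1 : algebraMap Kb (FN N) c ≠ 0 :=
    (map_ne_zero_iff _ (algebraMap Kb (FN N)).injective).mpr hc
  have hsc : σ c ≠ 0 := (map_ne_zero_iff _ σ.injective).mpr hc
  have hc2 : algebraMap Kb (FN N) (σ c) ≠ 0 :=
    (map_ne_zero_iff _ (algebraMap Kb (FN N)).injective).mpr hsc
  refine ⟨σ c / c, coeffMap (galA A hd) Y * Y', coeffMap (galA A hd) Y' * Y,
    galF N σ y * y', galF N σ y' * y, div_ne_zero hsc hc, ?_, ?_, ?_, ?_, ?_⟩
  · show (galF N σ y : LaurentSeries Kb) * (y' : LaurentSeries Kb) = _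
    rw [gal_coe, hy, hy', gal_coeffMap A hd, map_mul]
  · show (galF N σ y' : LaurentSeries Kb) * (y : LaurentSeries Kb) = _
    rw [gal_coe, hy, hy', gal_coeffMap A hd, map_mul]
  · rw [map_mul, map_mul, gal_res_inertia A hσ, gal_res_inertia A hσ, mul_comm]
  · rw [map_mul, gal_res_inertia A hσ]
    exact mul_ne_zero hY hY'
  · rw [map_mul, map_div₀, gal_algebraMap, map_div₀]
    field_simp

end Coeff

end Fermat.Agent.S37Lib
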