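import Fermat.Agent.S37.HeckeIn
import Fermat.Agent.S37.Count
import Fermat.Prelude.Def_ModularCurve_HeckeModule

set_option autoImplicit false
set_option linter.style.haveILetI false

/-!
# S37 [L9] : the Hecke operator `T_ℓ` on divisors
-/

open AlgebraicCurve IntermediateField IsDedekindDomain

namespace Fermat.Agent.S37Lib

open Fermat.Agent.S24Lib

section Abs

variable {K F F' : Type*} [Field K] [Field F] [Field F'] [Algebra K F] [Algebra K F']

/-- an additive map which is bounded on the single divisors is bounded -/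
theorem hd_nrm_le_of_single (Λ : Divisor K F →+ Divisor K F') (c : ℕ)
    (h : ∀ (v : Place K F) (n : ℤ), nrm (Λ (Finsupp.single v n)) ≤ c * n.natAbs)
    (D : Divisor K F) : nrm (Λ D) ≤ c * nrm D := by
  classical
  have h1 : ∀ s : Finset (Place K F),
      nrm (Λ (∑ v ∈ s, Finsupp.single v (D v))) ≤ c * ∑ v ∈ s, (D v).natAbs := by
    intro s
    induction s using Finset.induction_on with
    | empty => simp [nrm_zero]
    | insert a s ha ih =>
      rw [Finset.sum_insert ha, Finset.sum_insert ha, map_add, mul_add]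
      exact (nrm_add_le _ _).trans (add_le_add (h _ _) ih)
  have h2 : ∑ v ∈ D.support, Finsupp.single v (D v) = D := D.sum_single
  have h3 := h1 D.support
  rw [h2] at h3
  rwa [nrm_eq_sum D D.support subset_rfl]

theorem hd_nrm_sum_le {ι : Type*} (s : Finset ι) (f : ι → Divisor K F) :
    nrm (∑ i ∈ s, f i) ≤ ∑ i ∈ s, nrm (f i) := by
  classical
  induction s using Finset.induction_on with
  | empty => simp [nrm_zero]
  | insert a s ha ih =>
    rw [Finset.sum_insert ha, Finset.sum_insert ha]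
    exact (nrm_add_le _ _).trans (add_le_add le_rfl ih)

variable [IsAlgClosed K]

theorem hd_nrm_pushforwardAlong_le (hFF : IsFF K F) (hFF' : IsFF K F') (φ : F →ₐ[K] F')
    (hφ : φ.toRingHom.IsIntegral) (D : Divisor K F') :
    nrm (Divisor.pushforwardAlong φ hφ D) ≤ 1 * nrm D := by
  refine hd_nrm_le_of_single _ 1 (fun w n => ?_) D
  letI := algebraAlong φ
  haveI := isScalarTower_along φ
  haveI := isIntegral_along φ hφ
  show nrm (Divisor.pushforward F (Finsupp.single w n)) ≤ _
  rw [Divisor.pushforward_single, nrm_single]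
  have h := w.deg_restrict_mul_inertiaDeg (F := F)
  rw [deg_eq_one hFF, deg_eq_one hFF', one_mul] at h
  rw [h]
  simp

theorem hd_nrm_pullbackAlong_le (hFF : IsFF K F) (hFF' : IsFF K F') (φ : F →ₐ[K] F')
    (hφ : φ.toRingHom.IsIntegral) [HasPrincipalDivisors K F']
    (hFI : FundamentalIdentityAlong K φ hφ) (D : Divisor K F) :
    nrm (Divisor.pullbackAlong φ hφ D) ≤ finrankAlong K φ * nrm D := by
  refine hd_nrm_le_of_single _ _ (fun v n => ?_) D
  letI := algebraAlong φ
  haveI := isScalarTower_along φ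
  haveI := isIntegral_along φ hφ
  haveI : FundamentalIdentity K F F' := hFI
  show nrm (Divisor.pullback F' (Finsupp.single v n)) ≤ Module.finrank F F' * _
  rw [Divisor.pullback_single]
  refine (hd_nrm_sum_le _ _).trans ?_
  have h := FundamentalIdentity.sum_ramificationIndex_mul_deg (K := K) (F := F) (F' := F') v
  rw [deg_eq_one hFF v] at h
  have h' : ∑ w ∈ v.fiber F', (w.ramificationIndex F) = Module.finrank F F' := by
    have : ((∑ w ∈ v.fiber F', (w.ramificationIndex F) : ℕ) : ℤ) = (Module.finrank F F' : ℤ) := by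
      rw [Nat.cast_sum, ← mul_one (Module.finrank F F' : ℤ)]
      rw [← Nat.cast_one (R := ℤ), ← h]
      refine Finset.sum_congr rfl fun w _ => ?_
      rw [deg_eq_one hFF' w]
      simp
    exact_mod_cast this
  rw [← h', Finset.sum_mul]
  refine Finset.sum_le_sum fun w _ => ?_
  rw [nrm_single, Int.natAbs_mul, Int.natAbs_natCast, mul_comm]

theorem hd_nrm_correspondence_le (hFF : IsFF K F) (hFF' : IsFF K F') (φ ψ : F →ₐ[K] F')
    (hφ : φ.toRingHom.IsIntegral) (hψ : ψ.toRingHom.IsIntegral) [HasPrincipalDivisors K F']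
    (hFI : FundamentalIdentityAlong K φ hφ) (D : Divisor K F) :
    nrm (Divisor.correspondence φ ψ hφ hψ D) ≤ finrankAlong K φ * nrm D := by
  rw [Divisor.correspondence_apply]
  refine (hd_nrm_pushforwardAlong_le hFF hFF' ψ hψ _).trans ?_
  rw [one_mul]
  exact hd_nrm_pullbackAlong_le hFF hFF' φ hφ hFI D

omit [IsAlgClosed K] in
/-- the norm along `ψ` -/
noncomputable def hdNormAlong (ψ : F →ₐ[K] F') (x : F') : F :=
  letI := algebraAlong ψ
  Algebra.norm F x

omit [IsAlgClosed K] in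
theorem hd_correspondence_ord (φ ψ : F →ₐ[K] F')
    (hφ : φ.toRingHom.IsIntegral) (hψ : ψ.toRingHom.IsIntegral) [HasPrincipalDivisors K F']
    (hfin : FiniteAlong K ψ) (hN : NormFormulaAlong K ψ hfin) {D : Divisor K F} {h : F}
    (hh : h ≠ 0) (hD : ∀ v : Place K F, D v = v.ord h) (v : Place K F) :
    Divisor.correspondence φ ψ hφ hψ D v = v.ord (hdNormAlong ψ (φ h)) := by
  rw [Divisor.correspondence_apply]
  have h1 : ∀ w : Place K F', Divisor.pullbackAlong φ hφ D w = w.ord (φ h) := by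
    intro w
    letI := algebraAlong φ
    haveI := isScalarTower_along φ
    haveI := isIntegral_along φ hφ
    exact Divisor.pullback_apply_eq_ord hD w
  have h2 : φ h ≠ 0 := by simpa using hh
  letI := algebraAlong ψ
  haveI := isScalarTower_along ψ
  haveI := isIntegral_along ψ hψ
  haveI : Module.Finite F F' := hfin
  exact hN (φ h) h2 _ h1 v

omit [IsAlgClosed K] in
theorem hdNormAlong_ne_zero (ψ : F →ₐ[K] F') (hfin : FiniteAlong K ψ) {x : F'} (hx : x ≠ 0) :
    hdNormAlong ψ x ≠ 0 := by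
  letI := algebraAlong ψ
  haveI : Module.Finite F F' := hfin
  exact Algebra.norm_ne_zero_iff.mpr hx

end Abs

open ModularCurve

variable (N ℓ : ℕ) [NeZero N] [NeZero ℓ]

/-- `T_ℓ` on divisors -/
noncomputable def hdT : Divisor Kb (FN N) →+ Divisor Kb (FN N) :=
  heckeDivBar (hin_alpha_integral N ℓ) (hin_beta_integral N ℓ)

/-- `N_α (β z)` -/
noncomputable def hdNm (z : FN N) : FN N :=
  hdNormAlong (heckeAlphaBar Kb N ℓ) (heckeBetaBar Kb N ℓ z)

theorem hdNm_ne_zero {z : FN N} (hz : z ≠ 0) : hdNm N ℓ z ≠ 0 :=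
  hdNormAlong_ne_zero _ (hin_alpha_finite N ℓ) (by simpa using hz)

/-- `N_α (β z)` as a unit -/
noncomputable def hdNmU (z : (FN N)ˣ) : (FN N)ˣ :=
  Units.mk0 (hdNm N ℓ z) (hdNm_ne_zero N ℓ z.ne_zero)

theorem hdNmU_val (z : (FN N)ˣ) : ((hdNmU N ℓ z : (FN N)ˣ) : FN N) = hdNm N ℓ z := rfl

theorem hdT_nrm_le : ∃ c : ℕ, ∀ D : Divisor Kb (FN N), nrm (hdT N ℓ D) ≤ c * nrm D :=
  ⟨_, fun D => hd_nrm_correspondence_le (isFF N) (isFF (N * ℓ)) _ _ _ _ (hin_beta_FI N ℓ) D⟩

theorem hdT_Dv {D : Divisor Kb (FN N)} {h : (FN N)ˣ} (hD : Dv D h) :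
    Dv (hdT N ℓ D) (hdNmU N ℓ h) := fun v =>
  hd_correspondence_ord _ _ _ _ (hin_alpha_finite N ℓ) (hin_alpha_norm N ℓ) h.ne_zero hD v

theorem hdT_degree (D : Divisor Kb (FN N)) (hD : Divisor.degree D = 0) :
    Divisor.degree (hdT N ℓ D) = 0 := by
  have := Divisor.correspondence_mem_degZero (heckeBetaBar Kb N ℓ) (heckeAlphaBar Kb N ℓ)
    (hin_beta_integral N ℓ) (hin_alpha_integral N ℓ) (hin_beta_FI N ℓ)
    (D := D) (Divisor.mem_degZero.mpr hD)
  exact Divisor.mem_degZero.mp this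

/-- the Hecke module structure on `J₀(N)` is induced by `hdT` -/
theorem hdT_smul (hcomm : HeckeOperatorsCommuteBar N) {p : ℕ} (hp : p.Prime)
    (D : Divisor.degZero (K := Kb) (F := FN N)) :
    haveI : NeZero p := ⟨hp.ne_zero⟩
    (letI := heckeModuleBar N; heckeGen ⟨p, hp⟩ • (Pic0.mk D : JZero N)) =
      Pic0.mk ⟨hdT N p D, Divisor.mem_degZero.mpr
        (hdT_degree N p D (Divisor.mem_degZero.mp D.2))⟩ := by
  haveI : NeZero p := ⟨hp.ne_zero⟩
  refine (heckeModuleBar_heckeGen_smul hcomm ⟨p, hp⟩ (Pic0.mk D)).trans ?_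
  refine (heckeOperatorBar_apply N ⟨p, hp⟩ (Pic0.mk D)).trans ?_
  show heckeOperatorAlong Kb N p (Pic0.mk D) = _
  rw [hin_heckeOperatorAlong_eq]
  rfl

end Fermat.Agent.S37Lib
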