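import Fermat.Agent.S18.Top

/-!
# S37 [L4, L6] : residually constant functions
-/

set_option autoImplicit false

open ModularCurve AlgebraicCurve IsLocalRing

namespace Fermat.Agent.S37Lib

open Fermat.Agent.S24Lib (Kb FN)
open Fermat.Agent.S18Lib

/-- `y ∈ FN N` has the `A`-integral expansion `Y` -/
def IsExp (A : ValuationSubring Kb) {N : ℕ} (y : FN N) (Y : LaurentSeries A) : Prop :=
  (y : LaurentSeries Kb) = coeffMap A.subtype Y

/-- reduction of the coefficients -/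
noncomputable abbrev rcRes (A : ValuationSubring Kb) :
    LaurentSeries A →+* LaurentSeries (ResidueField A) := coeffMap (residue A)

theorem IsExp.mul {A : ValuationSubring Kb} {N : ℕ} {y z : FN N} {Y Z : LaurentSeries A}
    (hy : IsExp A y Y) (hz : IsExp A z Z) : IsExp A (y * z) (Y * Z) := by
  unfold IsExp at *
  rw [map_mul, ← hy, ← hz]
  rfl

theorem IsExp.one {A : ValuationSubring Kb} {N : ℕ} : IsExp A (1 : FN N) 1 := by
  unfold IsExp
  rw [map_one]
  rfl

theorem IsExp.pow {A : ValuationSubring Kb} {N : ℕ} {y : FN N} {Y : LaurentSeries A}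
    (hy : IsExp A y Y) (n : ℕ) : IsExp A (y ^ n) (Y ^ n) := by
  induction n with
  | zero => simpa using IsExp.one
  | succ n ih => rw [pow_succ, pow_succ]; exact ih.mul hy

theorem IsExp.const {A : ValuationSubring Kb} {N : ℕ} (a : A) :
    IsExp A (algebraMap Kb (FN N) (a : Kb)) (HahnSeries.C a) := by
  unfold IsExp
  rw [HahnSeries.C_apply, coeffMap_single]
  exact algebraMap_laurentSeries_eq_single Kb (a : Kb)

theorem IsExp.ne_zero {A : ValuationSubring Kb} {N : ℕ} {y : FN N} {Y : LaurentSeries A}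
    (hy : IsExp A y Y) (h : rcRes A Y ≠ 0) : y ≠ 0 := by
  rintro rfl
  exact fin_ne_zero A Y h hy.symm

/-- `h = c * y / y'` with `Ȳ = Ȳ' ≠ 0` -/
def RC (A : ValuationSubring Kb) {N : ℕ} (h : FN N) : Prop :=
  ∃ (c : Kb) (Y Y' : LaurentSeries A) (y y' : FN N), c ≠ 0 ∧ IsExp A y Y ∧ IsExp A y' Y' ∧
    rcRes A Y = rcRes A Y' ∧ rcRes A Y ≠ 0 ∧ h = algebraMap Kb (FN N) c * (y / y')

variable {A : ValuationSubring Kb} {N : ℕ}

theorem RC.ne_zero {h : FN N} (hh : RC A h) : h ≠ 0 := by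
  obtain ⟨c, Y, Y', y, y', hc, hy, hy', hres, hne, rfl⟩ := hh
  refine mul_ne_zero ?_ (div_ne_zero (hy.ne_zero hne) (hy'.ne_zero (hres ▸ hne)))
  rwa [Ne, map_eq_zero]

theorem rc_one : RC A (1 : FN N) :=
  ⟨1, 1, 1, 1, 1, one_ne_zero, IsExp.one, IsExp.one, rfl, by rw [map_one]; exact one_ne_zero,
    by simp⟩

theorem rc_const {c : Kb} (hc : c ≠ 0) : RC A (algebraMap Kb (FN N) c) :=
  ⟨c, 1, 1, 1, 1, hc, IsExp.one, IsExp.one, rfl, by rw [map_one]; exact one_ne_zero, by simp⟩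

theorem RC.mul {h₁ h₂ : FN N} (H₁ : RC A h₁) (H₂ : RC A h₂) : RC A (h₁ * h₂) := by
  obtain ⟨c, Y, Y', y, y', hc, hy, hy', hres, hne, rfl⟩ := H₁
  obtain ⟨d, Z, Z', z, z', hd, hz, hz', hres2, hne2, rfl⟩ := H₂
  refine ⟨c * d, Y * Z, Y' * Z', y * z, y' * z', mul_ne_zero hc hd, hy.mul hz, hy'.mul hz', ?_, ?_,
    ?_⟩
  · rw [map_mul, map_mul, hres, hres2]
  · rw [map_mul]; exact mul_ne_zero hne hne2
  · rw [map_mul]
    ring

theorem RC.inv {h : FN N} (H : RC A h) : RC A h⁻¹ := by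
  obtain ⟨c, Y, Y', y, y', hc, hy, hy', hres, hne, rfl⟩ := H
  refine ⟨c⁻¹, Y', Y, y', y, inv_ne_zero hc, hy', hy, hres.symm, hres ▸ hne, ?_⟩
  rw [map_inv₀, mul_inv, inv_div]

theorem RC.div {h₁ h₂ : FN N} (H₁ : RC A h₁) (H₂ : RC A h₂) : RC A (h₁ / h₂) := by
  rw [div_eq_mul_inv]
  exact H₁.mul H₂.inv

theorem RC.pow {h : FN N} (H : RC A h) (n : ℕ) : RC A (h ^ n) := by
  induction n with
  | zero => simpa using rc_one
  | succ n ih => rw [pow_succ]; exact ih.mul H

theorem rc_prod {ι : Type*} (s : Finset ι) (h : ι → FN N) (H : ∀ i ∈ s, RC A (h i)) :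
    RC A (∏ i ∈ s, h i) := by
  classical
  induction s using Finset.induction_on with
  | empty => simpa using rc_one
  | insert a s ha ih =>
    rw [Finset.prod_insert ha]
    exact (H a (Finset.mem_insert_self _ _)).mul
      (ih fun i hi => H i (Finset.mem_insert_of_mem hi))

/-- if the two reductions are proportional, the quotient is residually constant -/
theorem rc_of_smul {c : Kb} (hc : c ≠ 0) {Y Y' : LaurentSeries A} {y y' : FN N}
    (hy : IsExp A y Y) (hy' : IsExp A y' Y') (hne : rcRes A Y ≠ 0) (lam : ResidueField A)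
    (hlam : rcRes A Y = HahnSeries.C lam * rcRes A Y') :
    RC A (algebraMap Kb (FN N) c * (y / y')) := by
  obtain ⟨a, rfl⟩ := residue_surjective lam
  have ha0 : (a : Kb) ≠ 0 := by
    intro h0
    have : a = 0 := Subtype.ext h0
    apply hne
    rw [hlam, this, map_zero, map_zero, zero_mul]
  refine ⟨c * (a : Kb), Y, HahnSeries.C a * Y', y, algebraMap Kb (FN N) (a : Kb) * y',
    mul_ne_zero hc ha0, hy, (IsExp.const a).mul hy', ?_, hne, ?_⟩
  · rw [hlam, map_mul]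
    congr 1
    rw [HahnSeries.C_apply, HahnSeries.C_apply, coeffMap_single]
  · have h1 : algebraMap Kb (FN N) (a : Kb) ≠ 0 := by rwa [Ne, map_eq_zero]
    rw [map_mul]
    field_simp

/-- **(L4)** Gauss scaling: every non zero function is a constant times a quotient of integral
functions with non zero reductions -/
theorem rc_scale [NeZero N] {ℓ : ℕ} (hℓ : ℓ.Prime) (hA : A.LiesOverPrime ℓ) (h : FN N)
    (h0 : h ≠ 0) :
    ∃ (c : Kb) (Y Y' : LaurentSeries A) (y y' : FN N), c ≠ 0 ∧ IsExp A y Y ∧ IsExp A y' Y' ∧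
      rcRes A Y ≠ 0 ∧ rcRes A Y' ≠ 0 ∧ h = algebraMap Kb (FN N) c * (y / y') := by
  classical
  obtain ⟨K0, hfin, -, hT⟩ := desc_exists_K0 N {h} ∅
  obtain ⟨g, hg⟩ := hT h (by simp)
  have : IsDiscreteValuationRing (descA0 A K0) := descA0_isDVR A hℓ.ne_zero hA K0
  have := descA0Incl_isLocalHom A K0
  obtain ⟨π, hπ⟩ := IsDiscreteValuationRing.exists_irreducible (descA0 A K0)
  have hg0 : g ≠ 0 := by
    rintro rfl
    exact h0 (by rw [← hg, map_zero])
  obtain ⟨a, b, hb, hbF, hab⟩ := geFrac_full (descA0 A K0) K0 N (g : LaurentSeries K0) g.2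
  have hιb : geI (descA0 A K0) K0 b ≠ 0 := fun h =>
    hb (geI_injective (descA0 A K0) K0 (by rw [h, map_zero]))
  have ha0 : a ≠ 0 := by
    rintro rfl
    rw [map_zero] at hab
    rcases mul_eq_zero.mp hab with h1 | h1
    · exact hg0 (Subtype.ext h1)
    · exact hιb h1
  have haF : geI (descA0 A K0) K0 a ∈ modularFunctionFieldFullC K0 N := by
    rw [← hab]
    exact mul_mem g.2 hbF
  obtain ⟨i, a', ha, ha'⟩ := ge_exists_prim hπ a ha0
  obtain ⟨j, b', hb1, hb'⟩ := ge_exists_prim hπ b hb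
  have ha'F : geI (descA0 A K0) K0 a' ∈ modularFunctionFieldFullC K0 N :=
    ge_mem_of_C_pow_mul hπ.ne_zero i a' (ha ▸ haF)
  have hb'F : geI (descA0 A K0) K0 b' ∈ modularFunctionFieldFullC K0 N :=
    ge_mem_of_C_pow_mul hπ.ne_zero j b' (hb1 ▸ hbF)
  set ya : modularFunctionFieldFullC K0 N := ⟨_, ha'F⟩ with hya
  set yb : modularFunctionFieldFullC K0 N := ⟨_, hb'F⟩ with hyb
  set ϖ : K0 := algebraMap (descA0 A K0) K0 π with hϖ
  have hϖ0 : ϖ ≠ 0 := by
    intro h
    exact hπ.ne_zero ((map_eq_zero_iff _ (IsFractionRing.injective (descA0 A K0) K0)).mp h)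
  have e0 : g * (algebraMap K0 (modularFunctionFieldFullC K0 N) ϖ ^ j * yb) =
      algebraMap K0 (modularFunctionFieldFullC K0 N) ϖ ^ i * ya := by
    apply Subtype.ext
    have h1 : (g : LaurentSeries K0) * (algebraMap K0 (LaurentSeries K0) ϖ ^ j *
        geI (descA0 A K0) K0 b') = algebraMap K0 (LaurentSeries K0) ϖ ^ i *
        geI (descA0 A K0) K0 a' := by
      have e2 : geI (descA0 A K0) K0 b = algebraMap K0 (LaurentSeries K0) ϖ ^ j *
          geI (descA0 A K0) K0 b' := by rw [hb1, map_mul, map_pow, geI_C]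
      have e3 : geI (descA0 A K0) K0 a = algebraMap K0 (LaurentSeries K0) ϖ ^ i *
          geI (descA0 A K0) K0 a' := by rw [ha, map_mul, map_pow, geI_C]
      rw [← e2, ← e3]
      exact hab
    exact h1
  have e1 := congrArg (descBar K0 N) e0
  rw [map_mul, map_mul, map_mul, map_pow, map_pow, descBar_algebraMap, hg] at e1
  have hexp : ∀ (z : LaurentSeries (descA0 A K0))
      (hz : geI (descA0 A K0) K0 z ∈ modularFunctionFieldFullC K0 N),
      IsExp A (descBar K0 N ⟨_, hz⟩) (coeffMap (descA0Incl A K0) z) := by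
    intro z hz
    unfold IsExp
    rw [descBar_coe, coeffMap_coeffMap, coeffMap_coeffMap]
    rfl
  have hres : ∀ z : LaurentSeries (descA0 A K0), geR (descA0 A K0) z ≠ 0 →
      rcRes A (coeffMap (descA0Incl A K0) z) ≠ 0 := by
    intro z hz h
    apply hz
    rw [rcRes, finf_res_comp] at h
    exact finf_coeffMap_injective _ (ResidueField.map (descA0Incl A K0)).injective
      (by rw [h, map_zero])
  have hϖb : ((ϖ : K0) : Kb) ≠ 0 := by
    intro h
    exact hϖ0 (by exact_mod_cast h)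
  refine ⟨((ϖ : K0) : Kb) ^ i / ((ϖ : K0) : Kb) ^ j, _, _, descBar K0 N ya, descBar K0 N yb,
    div_ne_zero (pow_ne_zero _ hϖb) (pow_ne_zero _ hϖb), hexp a' ha'F, hexp b' hb'F, hres a' ha',
    hres b' hb', ?_⟩
  have hyb0 : descBar K0 N yb ≠ 0 := (hexp b' hb'F).ne_zero (hres b' hb')
  have hc0 : algebraMap Kb (FN N) ((ϖ : K0) : Kb) ≠ 0 := by rwa [Ne, map_eq_zero]
  rw [map_div₀, map_pow, map_pow]
  field_simp
  rw [← e1]
  ring

/-- **(L6)** a residually constant function all of whose orders are divisible by `m` (prime to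
`ℓ`) is an `m`-th power -/
theorem rc_pow_of_ord [NeZero N] {ℓ : ℕ} [Fact ℓ.Prime] (hℓN : ¬ ℓ ∣ N) (hA : A.LiesOverPrime ℓ)
    (m : ℕ) (hm : ¬ ℓ ∣ m) (f : FN N) (hf : RC A f)
    (hord : ∀ P : Place Kb (FN N), (m : ℤ) ∣ P.ord f) : ∃ s : FN N, f = s ^ m := by
  have hℓ : ℓ.Prime := Fact.out
  have hm0 : 0 < m := Nat.pos_of_ne_zero (by rintro rfl; exact hm (dvd_zero _))
  obtain ⟨c, Y, Y', y, y', hc, hy, hy', hres, hne, rfl⟩ := hf
  have hy0 := hy.ne_zero hne
  have hy'0 := hy'.ne_zero (hres ▸ hne)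
  have hcF : algebraMap Kb (FN N) c ≠ 0 := by rwa [Ne, map_eq_zero]
  have hord' : ∀ P : Place Kb (FN N), (m : ℤ) ∣ P.ord (y / y') := by
    intro P
    have h1 := hord P
    rwa [Place.ord_mul P hcF (div_ne_zero hy0 hy'0), Fermat.Agent.S24Lib.ord_algebraMap,
      zero_add] at h1
  have hdvd := lvl_dvd_auxLevel ℓ N
  have hordM := lvl_ord_dvd hdvd m (y / y') hord'
  rw [map_div₀] at hordM
  obtain ⟨s, hs⟩ := fin_main (auxLevel ℓ N) hℓ A hA m hm
    (fun K0 hK0 => fin_H (auxLevel ℓ N) hℓ (lvl_not_dvd_auxLevel hℓ hℓN) (lvl_auxM0_dvd ℓ N) A hA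
      K0 hK0)
    Y Y' (lvl_incl hdvd y) (lvl_incl hdvd y') ((lvl_incl_coe hdvd y).trans hy)
    ((lvl_incl_coe hdvd y').trans hy') hres hne hordM
  obtain ⟨t, ht⟩ := lvl_descend hℓ hm (y / y') s (by rw [map_div₀, hs])
  obtain ⟨d, hd⟩ := IsAlgClosed.exists_pow_nat_eq c hm0
  exact ⟨algebraMap Kb (FN N) d * t, by rw [mul_pow, ← map_pow, hd, ht]⟩

end Fermat.Agent.S37Lib
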