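import Fermat.Agent.S37.RR
import Fermat.Agent.S37.Count

set_option autoImplicit false

/-!
# S37 [L3] : bounded representatives (`HasBddRep`) from Riemann's inequality
-/

namespace Fermat.Agent.S37Lib

open AlgebraicCurve IntermediateField Fermat.Agent.S24Lib

variable {K F : Type*} [Field K] [IsAlgClosed K] [CharZero K] [Field F] [Algebra K F]

theorem rr_exists_place (hFF : IsFF K F) : Nonempty (Place K F) := by
  obtain ⟨s, hs, hfin⟩ := id hFF
  obtain ⟨T, hT, hsum⟩ := exists_zeros_finset hFF hs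
  have hpos : 0 < Module.finrank K⟮s⟯ F := Module.finrank_pos
  by_contra h
  rw [not_nonempty_iff] at h
  have : T = ∅ := Finset.eq_empty_of_isEmpty T
  rw [this] at hsum
  simp at hsum
  omega

omit [CharZero K] in
theorem rr_nrm_of_nonneg (hFF : IsFF K F) {E : Divisor K F} (hE : 0 ≤ E) :
    (nrm E : ℤ) = Divisor.degree E := by
  have hdeg : Divisor.degree E = E.sum (fun v n => n * (v.deg : ℤ)) := by
    simp [Divisor.degree, Finsupp.liftAddHom_apply]
  rw [hdeg, nrm, Finsupp.sum, Finsupp.sum]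
  push_cast
  apply Finset.sum_congr rfl
  intro v _
  rw [deg_eq_one hFF v]
  have : 0 ≤ E v := hE v
  simp [abs_of_nonneg this]

/-- **L3** in the shape consumed by `Count.lean`. -/
theorem rr_hasBddRep (hFF : IsFF K F) : HasBddRep K F := by
  obtain ⟨P0⟩ := rr_exists_place hFF
  obtain ⟨g, hg⟩ := rr_bounded hFF P0
  refine ⟨2 * g, fun D hD => ?_⟩
  obtain ⟨E, h, h0, hE0, hEdeg, hDE⟩ := hg D hD
  refine ⟨E - Finsupp.single P0 (g : ℤ), (Units.mk0 h h0)⁻¹, ?_, ?_⟩
  · intro v
    rw [Units.val_inv_eq_inv_val, Units.val_mk0, v.ord_inv, Finsupp.sub_apply, Finsupp.sub_apply,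
      hDE v]
    ring
  · have h1 := nrm_sub_le E (Finsupp.single P0 (g : ℤ))
    rw [nrm_single] at h1
    have h2 := rr_nrm_of_nonneg hFF hE0
    rw [hEdeg] at h2
    have h3 : nrm E = g := by exact_mod_cast h2
    simp only [Int.natAbs_natCast] at h1
    omega

end Fermat.Agent.S37Lib
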