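import Mathlib

set_option autoImplicit false

/-!
# S37 : the norm as a product over an explicit complete family of embeddings (abstract)
-/

namespace Fermat.Agent.S37Lib

/-- the norm is the product over any family of `[L : E]` distinct embeddings into a field `S`. -/
theorem pf_abs {E L S ι : Type*} [Field E] [Field L] [Field S] [Algebra E L]
    [FiniteDimensional E L] [Algebra.IsSeparable E L] [Fintype ι]
    (i0 : E →+* S) (σ : ι → L →+* S) (hσ : ∀ i e, σ i (algebraMap E L e) = i0 e)
    (hinj : Function.Injective σ) (hcard : Fintype.card ι = Module.finrank E L) (y : L) :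
    i0 (Algebra.norm E y) = ∏ i, σ i y := by
  let Ω := AlgebraicClosure S
  letI : Algebra E Ω := ((algebraMap S Ω).comp i0).toAlgebra
  let σ' : ι → (L →ₐ[E] Ω) := fun i =>
    { toRingHom := (algebraMap S Ω).comp (σ i)
      commutes' := fun e => by
        show algebraMap S Ω (σ i (algebraMap E L e)) = algebraMap S Ω (i0 e)
        rw [hσ] }
  have hσ'inj : Function.Injective σ' := by
    intro i j hij
    apply hinj
    ext x
    have := congrArg (fun f : L →ₐ[E] Ω => f x) hij
    exact (algebraMap S Ω).injective this
  have hbij : Function.Bijective σ' := by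
    rw [Fintype.bijective_iff_injective_and_card]
    refine ⟨hσ'inj, ?_⟩
    rw [hcard, AlgHom.card]
  have h1 := Algebra.norm_eq_prod_embeddings E Ω y
  rw [← hbij.prod_comp (fun f : L →ₐ[E] Ω => f y)] at h1
  apply (algebraMap S Ω).injective
  rw [map_prod]
  exact h1

/-- the degree of an inclusion of intermediate fields -/
theorem pf_finrank_inclusion {K L : Type*} [Field K] [Field L] [Algebra K L]
    (A B : IntermediateField K L) (h : A ≤ B) :
    letI := (IntermediateField.inclusion h).toRingHom.toAlgebra
    Module.finrank A B = IntermediateField.relfinrank A B := by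
  letI := (IntermediateField.inclusion h).toRingHom.toAlgebra
  rw [IntermediateField.relfinrank_eq_finrank_of_le h]
  let e : B ≃ₗ[A] IntermediateField.extendScalars h :=
    { toFun := fun x => ⟨x.1, x.2⟩
      invFun := fun x => ⟨x.1, x.2⟩
      map_add' := fun _ _ => rfl
      map_smul' := fun _ _ => rfl
      left_inv := fun _ => rfl
      right_inv := fun _ => rfl }
  exact e.finrank_eq

end Fermat.Agent.S37Lib
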