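import Mathlib
import Fermat.Prelude.Def_ModularCurve_LaurentCoeff
import Fermat.Prelude.Def_ModularCurve_X0

set_option autoImplicit false

/-!
# S37 : the substitution `u ↦ c u` on Laurent series
-/

open ModularCurve

namespace Fermat.Agent.S37Lib

variable {R : Type*} [CommRing R]

/-- underlying function of `rot` -/
def rotFun (c : Rˣ) (x : LaurentSeries R) : LaurentSeries R where
  coeff n := ((c ^ n : Rˣ) : R) * x.coeff n
  isPWO_support' := x.isPWO_support.mono (by
    intro n hn
    simp only [Function.mem_support, ne_eq] at hn ⊢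
    intro h0
    exact hn (by rw [h0, mul_zero]))

theorem rotFun_coeff (c : Rˣ) (x : LaurentSeries R) (n : ℤ) :
    (rotFun c x).coeff n = ((c ^ n : Rˣ) : R) * x.coeff n := rfl

theorem rotFun_support (c : Rˣ) (x : LaurentSeries R) : (rotFun c x).support = x.support := by
  ext n
  simp only [HahnSeries.mem_support, rotFun_coeff, ne_eq]
  rw [Units.mul_right_eq_zero]

/-- the substitution `u ↦ c u` : the `n`-th coefficient is multiplied by `c ^ n`. -/
def rot (c : Rˣ) : LaurentSeries R →+* LaurentSeries R where
  toFun := rotFun c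
  map_zero' := by
    ext n
    simp [rotFun_coeff]
  map_one' := by
    ext n
    rw [rotFun_coeff, HahnSeries.coeff_one]
    split_ifs with h
    · subst h; simp
    · simp
  map_add' x y := by
    ext n
    simp [rotFun_coeff, mul_add]
  map_mul' x y := by
    ext n
    rw [rotFun_coeff, HahnSeries.coeff_mul, HahnSeries.coeff_mul, Finset.mul_sum]
    have hset : Finset.antidiagonal (rotFun c x).isPWO_support (rotFun c y).isPWO_support n =
        Finset.antidiagonal x.isPWO_support y.isPWO_support n := by
      ext ij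
      simp only [Finset.mem_antidiagonal, rotFun_support]
    rw [hset]
    refine Finset.sum_congr rfl fun ij hij => ?_
    have h := (Finset.mem_antidiagonal.1 hij).2.2
    rw [rotFun_coeff, rotFun_coeff, ← h, zpow_add, Units.val_mul]
    ring

@[simp] theorem rot_coeff (c : Rˣ) (x : LaurentSeries R) (n : ℤ) :
    (rot c x).coeff n = ((c ^ n : Rˣ) : R) * x.coeff n := rfl

theorem coeffMap_rot {S : Type*} [CommRing S] (f : R →+* S) (c : Rˣ) (x : LaurentSeries R) :
    coeffMap f (rot c x) = rot (Units.map (f : R →* S) c) (coeffMap f x) := by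
  ext n
  rw [coeffMap_coeff, rot_coeff, rot_coeff, coeffMap_coeff, map_mul, ← map_zpow]
  rfl

/-- `rot c` fixes the series in `u ^ ℓ` when `c ^ ℓ = 1` -/
theorem rot_qExpand (c : Rˣ) (ℓ : ℕ) [NeZero ℓ] (hc : c ^ ℓ = 1) (x : LaurentSeries R) :
    rot c (qExpand R ℓ x) = qExpand R ℓ x := by
  ext n
  rw [rot_coeff]
  by_cases hn : (ℓ : ℤ) ∣ n
  · obtain ⟨m, rfl⟩ := hn
    rw [zpow_mul, zpow_natCast, hc, one_zpow, Units.val_one, one_mul]
  · rw [qExpand_coeff_of_not_dvd ℓ x hn, mul_zero]

theorem rot_algebraMap {K : Type*} [Field K] (c : Kˣ) (a : K) :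
    rot c (algebraMap K (LaurentSeries K) a) = algebraMap K (LaurentSeries K) a := by
  rw [algebraMap_laurentSeries_eq_single]
  ext n
  rw [rot_coeff, HahnSeries.coeff_single]
  split_ifs with h
  · subst h; simp
  · simp

end Fermat.Agent.S37Lib
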