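import Fermat.Agent.S37.AL
import Fermat.Agent.S37.Rot
import Fermat.Agent.S37.PFAbs
import Fermat.Agent.S18.Level
import Fermat.Prelude.Def_AlgebraicCurve_Correspondence

set_option autoImplicit false

/-!
# S37 : the product formula for `N_α (β z)`
-/

open AlgebraicCurve IntermediateField ModularCurve

namespace Fermat.Agent.S37Lib

open Fermat.Agent.S20Lib Fermat.Agent.S24Lib Fermat.Agent.S18Lib

section

variable (N ℓ : ℕ) [NeZero N] [NeZero ℓ]

theorem pf_relfinrank (hℓ : ℓ.Prime) (hℓN : ¬ ℓ ∣ N) :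
    relfinrank (modularFunctionFieldBar N) (modularFunctionFieldBar (N * ℓ)) = ℓ + 1 := by
  have key := lvl_card_mul_relfinrank (N := N) (M := N * ℓ) (Dvd.intro _ rfl)
  have hcop : N.Coprime ℓ := ((Nat.Prime.coprime_iff_not_dvd hℓ).2 hℓN).symm
  rw [card_X0_mul hcop, lvl_card_X0_prime hℓ] at key
  exact Nat.eq_of_mul_eq_mul_left (lvl_card_X0_pos N) key

theorem pf_finrank (hℓ : ℓ.Prime) (hℓN : ¬ ℓ ∣ N) :
    letI := algebraAlong (heckeAlphaBar Kb N ℓ)
    Module.finrank (FN N) (FN (N * ℓ)) = ℓ + 1 := by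
  rw [← pf_relfinrank N ℓ hℓ hℓN]
  exact pf_finrank_inclusion _ _ (lvl_le (Dvd.intro _ rfl))

theorem pf_coeff_jj : ((jj N : FN N) : LaurentSeries Kb).coeff (-1) = 1 := by
  show (coeffEmb Kb (qExpand ℚ 1 jq)).coeff (-1) = 1
  rw [qExpand_one_apply, coeffEmb_coeff, coeff_jq_neg_one, map_one]

/-- the base embedding `g ↦ g (u ^ ℓ)` -/
noncomputable def pfBase (M : ℕ) : FN M →+* LaurentSeries Kb :=
  (qExpand Kb ℓ).comp (modularFunctionFieldBar M).val.toRingHom

theorem pfBase_apply (M : ℕ) (g : FN M) : pfBase ℓ M g = qExpand Kb ℓ (g : LaurentSeries Kb) := rfl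

/-- the twisted embeddings `rot c ∘ w` -/
noncomputable def pfTw (w : FN (N * ℓ) →+* FN (N * ℓ)) (c : Kbˣ) :
    FN (N * ℓ) →+* LaurentSeries Kb :=
  (rot c).comp ((modularFunctionFieldBar (N * ℓ)).val.toRingHom.comp w)

theorem pfTw_apply (w : FN (N * ℓ) →+* FN (N * ℓ)) (c : Kbˣ) (y : FN (N * ℓ)) :
    pfTw N ℓ w c y = rot c ((w y : FN (N * ℓ)) : LaurentSeries Kb) := rfl

/-- the family of the `ℓ + 1` embeddings -/
noncomputable def pfFam (w : FN (N * ℓ) →+* FN (N * ℓ)) (ζ : Kbˣ) :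
    Option (Fin ℓ) → FN (N * ℓ) →+* LaurentSeries Kb
  | none => pfBase ℓ (N * ℓ)
  | some b => pfTw N ℓ w (ζ ^ (b : ℕ))

theorem pf_main (hℓ : ℓ.Prime) (hℓN : ¬ ℓ ∣ N) (ζ : Kbˣ) (hζ : IsPrimitiveRoot ζ ℓ) (z : FN N) :
    letI := algebraAlong (heckeAlphaBar Kb N ℓ)
    qExpand Kb ℓ ((Algebra.norm (FN N) (heckeBetaBar Kb N ℓ z) : FN N) : LaurentSeries Kb) =
      qExpand Kb ℓ (qExpand Kb ℓ (z : LaurentSeries Kb)) *
        ∏ b ∈ Finset.range ℓ, rot (ζ ^ b) (z : LaurentSeries Kb) := by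
  letI := algebraAlong (heckeAlphaBar Kb N ℓ)
  obtain ⟨w, hwα, hwβ, -⟩ := al_exists_w N ℓ hℓ hℓN
  have hfr := pf_finrank N ℓ hℓ hℓN
  haveI : FiniteDimensional (FN N) (FN (N * ℓ)) :=
    Module.finite_of_finrank_pos (by rw [hfr]; exact Nat.succ_pos _)
  haveI : CharZero (FN N) := charZero_of_injective_algebraMap (algebraMap Kb (FN N)).injective
  haveI : Algebra.IsSeparable (FN N) (FN (N * ℓ)) := inferInstance
  have hα : ∀ e : FN N, algebraMap (FN N) (FN (N * ℓ)) e = heckeAlphaBar Kb N ℓ e := fun _ => rfl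
  have hσ : ∀ (i : Option (Fin ℓ)) (e : FN N),
      pfFam N ℓ w ζ i (algebraMap (FN N) (FN (N * ℓ)) e) = pfBase ℓ N e := by
    intro i e
    rw [hα]
    cases i with
    | none =>
      show pfBase ℓ (N * ℓ) _ = _
      rw [pfBase_apply, pfBase_apply, coe_heckeAlphaBar]
    | some b =>
      show pfTw N ℓ w _ _ = _
      rw [pfTw_apply, hwα, coe_heckeBetaBar, pfBase_apply]
      apply rot_qExpand
      rw [← pow_mul, mul_comm, pow_mul, hζ.pow_eq_one, one_pow]
  have hval : ∀ (i : Option (Fin ℓ)) (x : FN N), pfFam N ℓ w ζ i (heckeBetaBar Kb N ℓ x) =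
      match i with
      | none => qExpand Kb ℓ (qExpand Kb ℓ (x : LaurentSeries Kb))
      | some b => rot (ζ ^ (b : ℕ)) (x : LaurentSeries Kb) := by
    intro i x
    cases i with
    | none =>
      show pfBase ℓ (N * ℓ) _ = _
      rw [pfBase_apply, coe_heckeBetaBar]
    | some b =>
      show pfTw N ℓ w _ _ = _
      rw [pfTw_apply, hwβ, coe_heckeAlphaBar]
  have hnd : ¬ (ℓ : ℤ) ∣ -1 := by
    intro h
    have h1 : (ℓ : ℤ) ∣ 1 := (dvd_neg.1 h)
    have h2 : ℓ ∣ 1 := by exact_mod_cast h1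
    exact hℓ.one_lt.ne' (Nat.dvd_one.1 h2)
  have hinj : Function.Injective (pfFam N ℓ w ζ) := by
    intro i i' hii
    have h1 := congrArg (fun f : FN (N * ℓ) →+* LaurentSeries Kb =>
      (f (heckeBetaBar Kb N ℓ (jj N))).coeff (-1)) hii
    simp only [hval] at h1
    cases i with
    | none =>
      cases i' with
      | none => rfl
      | some b' =>
        exfalso
        simp only [rot_coeff, pf_coeff_jj, mul_one] at h1
        rw [qExpand_coeff_of_not_dvd ℓ _ hnd] at h1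
        exact (Units.ne_zero _) h1.symm
    | some b =>
      cases i' with
      | none =>
        exfalso
        simp only [rot_coeff, pf_coeff_jj, mul_one] at h1
        rw [qExpand_coeff_of_not_dvd ℓ _ hnd] at h1
        exact (Units.ne_zero _) h1
      | some b' =>
        simp only [rot_coeff, pf_coeff_jj, mul_one] at h1
        have h2 : (ζ ^ (b : ℕ)) ^ (-1 : ℤ) = (ζ ^ (b' : ℕ)) ^ (-1 : ℤ) := Units.ext h1
        rw [zpow_neg_one, zpow_neg_one, inv_inj] at h2
        have h3 := hζ.pow_inj b.2 b'.2 h2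
        exact congrArg some (Fin.ext h3)
  have hcard : Fintype.card (Option (Fin ℓ)) = Module.finrank (FN N) (FN (N * ℓ)) := by
    rw [hfr, Fintype.card_option, Fintype.card_fin]
  have key := pf_abs (pfBase ℓ N) (pfFam N ℓ w ζ) hσ hinj hcard (heckeBetaBar Kb N ℓ z)
  rw [pfBase_apply, Fintype.prod_option] at key
  rw [key]
  simp only [hval]
  congr 1
  exact Fin.prod_univ_eq_prod_range (fun b => rot (ζ ^ b) (z : LaurentSeries Kb)) ℓ

end

end Fermat.Agent.S37Lib
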