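import Fermat.Agent.S37.RedF2
import Fermat.Agent.S37.PF
import Fermat.Agent.S37.HeckeDiv
import Fermat.Agent.S37.Gal

set_option autoImplicit false
set_option linter.unusedSectionVars false
set_option linter.style.haveILetI false

/-!
# S37 : (F2) for the modular function field
-/

open ModularCurve AlgebraicCurve IsLocalRing Fermat.Agent.S24Lib

namespace Fermat.Agent.S37Lib

theorem red_hdNm_mul (N ℓ : ℕ) [NeZero N] [NeZero ℓ] (a b : FN N) :
    hdNm N ℓ (a * b) = hdNm N ℓ a * hdNm N ℓ b := by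
  unfold hdNm hdNormAlong
  rw [map_mul, map_mul]

theorem red_exists_root (ℓ : ℕ) [NeZero ℓ] : ∃ ζ : Kbˣ, IsPrimitiveRoot ζ ℓ := by
  obtain ⟨ζ, hζ⟩ := HasEnoughRootsOfUnity.exists_primitiveRoot Kb ℓ
  exact ⟨hζ.isUnit (NeZero.ne ℓ) |>.unit, by
    rw [← IsPrimitiveRoot.coe_units_iff]
    simpa using hζ⟩

/-- **(F2)** : `φ² h · h ^ ℓ / N_α(β(φ h))` is residually constant, for `h = c · y / y'` with
`y, y'` integral with non zero residues. -/
theorem red_F2 (N ℓ : ℕ) [NeZero N] [NeZero ℓ] (hℓ : ℓ.Prime) (hℓN : ¬ ℓ ∣ N)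
    (A : ValuationSubring Kb) (hA : A.LiesOverPrime ℓ) {φ : Kb ≃ₐ[ℚ] Kb}
    (hφ : A.IsFrobeniusAt φ ℓ)
    (c : Kb) (hc : c ≠ 0) (Y Y' : LaurentSeries A) (y y' : FN N)
    (hy : (y : LaurentSeries Kb) = coeffMap A.subtype Y)
    (hy' : (y' : LaurentSeries Kb) = coeffMap A.subtype Y')
    (hY : coeffMap (residue A) Y ≠ 0) (hY' : coeffMap (residue A) Y' ≠ 0) :
    ∃ (c₁ : Kb) (Y₁ Y₁' : LaurentSeries A) (y₁ y₁' : FN N), c₁ ≠ 0 ∧
      (y₁ : LaurentSeries Kb) = coeffMap A.subtype Y₁ ∧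
      (y₁' : LaurentSeries Kb) = coeffMap A.subtype Y₁' ∧
      coeffMap (residue A) Y₁ = coeffMap (residue A) Y₁' ∧
      coeffMap (residue A) Y₁ ≠ 0 ∧
      galF N φ (galF N φ (algebraMap Kb (FN N) c * (y / y'))) *
          (algebraMap Kb (FN N) c * (y / y')) ^ ℓ /
          hdNm N ℓ (galF N φ (algebraMap Kb (FN N) c * (y / y')))
        = algebraMap Kb (FN N) c₁ * (y₁ / y₁') := by
  obtain ⟨ζ, hζ⟩ := red_exists_root ℓ
  exact red_F2_abs A hℓ hA hφ (modularFunctionFieldBar N) (galF N φ : FN N →+* FN N)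
    (fun x => gal_coe N φ x) (hdNm N ℓ) (red_hdNm_mul N ℓ) ζ hζ.pow_eq_one
    (fun z => pf_main N ℓ hℓ hℓN ζ hζ z) c hc Y Y' y y' hy hy' hY hY'

end Fermat.Agent.S37Lib
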