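import Fermat.Agent.S37.Top
import Fermat.Agent.S37.RedTop
import Fermat.Agent.S37.Deg3
import Fermat.Agent.S37.RRB
import Fermat.Agent.S37.RC
import Fermat.Agent.S37.Gal
import Fermat.Agent.S37.HeckeDiv

set_option autoImplicit false

/-!
# S37 : final assembly of the leaves
-/

namespace Fermat.Agent.S37Lib

open AlgebraicCurve ModularCurve
open Fermat.Agent.S24Lib (Kb FN isFF)

/-- the residually constant functions, as a subgroup of the units -/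
def fnRC (A : ValuationSubring Kb) (N : ℕ) : Subgroup (FN N)ˣ where
  carrier := {h | RC A (h : FN N)}
  mul_mem' := fun {a b} ha hb => by
    show RC A ((a * b : (FN N)ˣ) : FN N)
    rw [Units.val_mul]
    exact RC.mul ha hb
  one_mem' := by
    show RC A ((1 : (FN N)ˣ) : FN N)
    rw [Units.val_one]
    exact rc_one
  inv_mem' := fun {a} ha => by
    show RC A ((a⁻¹ : (FN N)ˣ) : FN N)
    rw [Units.val_inv_eq_inv_val]
    exact RC.inv ha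

theorem fn_mem (A : ValuationSubring Kb) (N : ℕ) (h : (FN N)ˣ) :
    h ∈ fnRC A N ↔ RC A (h : FN N) := Iff.rfl

theorem fn_deg (N : ℕ) [NeZero N] {ℓ : ℕ} (hℓ : ℓ.Prime) (A : ValuationSubring Kb)
    (hA : A.LiesOverPrime ℓ) : DegProp (K := Kb) (fnRC A N) :=
  deg_prop N A (fnRC A N) (fun _ => Iff.rfl) (fun h h0 => rc_scale hℓ hA h h0)

theorem fn_pow (N : ℕ) [NeZero N] {ℓ : ℕ} (hℓ : ℓ.Prime) (hℓN : ¬ ℓ ∣ N)
    (A : ValuationSubring Kb) (hA : A.LiesOverPrime ℓ) (m : ℕ) (hm : ¬ ℓ ∣ m) (f : (FN N)ˣ)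
    (hf : f ∈ fnRC A N) (hord : ∀ v : Place Kb (FN N), (m : ℤ) ∣ v.ord (f : FN N)) :
    ∃ s : (FN N)ˣ, f = s ^ m := by
  haveI : Fact ℓ.Prime := ⟨hℓ⟩
  obtain ⟨s, hs⟩ := rc_pow_of_ord hℓN hA m hm (f : FN N) hf hord
  have hm0 : m ≠ 0 := fun h => hm (h ▸ dvd_zero ℓ)
  have hs0 : s ≠ 0 := by
    rintro rfl
    rw [zero_pow hm0] at hs
    exact f.ne_zero hs
  exact ⟨Units.mk0 s hs0, Units.ext (by rw [Units.val_pow_eq_pow_val]; exact hs)⟩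

theorem fn_inertia (N : ℕ) [NeZero N] {ℓ : ℕ} (hℓ : ℓ.Prime)
    (A : ValuationSubring Kb) (hA : A.LiesOverPrime ℓ) (σ : Kb ≃ₐ[ℚ] Kb)
    (hσ : σ ∈ A.inertiaSubgroupIn ℚ) : GoodOp (fnRC A N) (galD N σ - AddMonoidHom.id _) := by
  refine gal_goodOp N σ _ fun h => ?_
  obtain ⟨c, Y, Y', y, y', hc, hy, hy', hY, hY', hh⟩ := rc_scale hℓ hA (h : FN N) h.ne_zero
  show RC A ((galU N σ h / h : (FN N)ˣ) : FN N)
  rw [Units.val_div_eq_div_val, galU_coe, hh]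
  exact gal_F1 A N hσ c hc Y Y' y y' hy hy' hY hY'

theorem fn_theta (N : ℕ) [NeZero N] (ℓ : ℕ) [NeZero ℓ] (hℓ : ℓ.Prime) (hℓN : ¬ ℓ ∣ N)
    (A : ValuationSubring Kb) (hA : A.LiesOverPrime ℓ) (φ : Kb ≃ₐ[ℚ] Kb)
    (hφ : A.IsFrobeniusAt φ ℓ) :
    GoodOp (fnRC A N)
      ((galD N φ).comp (galD N φ) - (hdT N ℓ).comp (galD N φ) + ℓ • AddMonoidHom.id _) where
  bdd := by
    obtain ⟨c, hc⟩ := hdT_nrm_le N ℓ
    refine ⟨1 + c + ℓ, fun D => ?_⟩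
    show nrm (galD N φ (galD N φ D) - hdT N ℓ (galD N φ D) + ℓ • D) ≤ _
    have h1 := nrm_add_le (galD N φ (galD N φ D) - hdT N ℓ (galD N φ D)) (ℓ • D)
    have h2 := nrm_sub_le (galD N φ (galD N φ D)) (hdT N ℓ (galD N φ D))
    have h3 := hc (galD N φ D)
    rw [gal_nrm] at h3
    rw [gal_nrm, gal_nrm] at h2
    rw [nrm_nsmul] at h1
    nlinarith
  rc := fun D h hD => by
    refine ⟨galU N φ (galU N φ h) * h ^ ℓ / hdNmU N ℓ (galU N φ h), ?_, ?_⟩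
    · obtain ⟨c, Y, Y', y, y', hc, hy, hy', hY, hY', hh⟩ := rc_scale hℓ hA (h : FN N) h.ne_zero
      show RC A ((galU N φ (galU N φ h) * h ^ ℓ / hdNmU N ℓ (galU N φ h) : (FN N)ˣ) : FN N)
      rw [Units.val_div_eq_div_val, Units.val_mul, Units.val_pow_eq_pow_val, hdNmU_val, galU_coe,
        galU_coe, hh]
      exact red_F2 N ℓ hℓ hℓN A hA hφ c hc Y Y' y y' hy hy' hY hY'
    · show Dv (galD N φ (galD N φ D) - hdT N ℓ (galD N φ D) + ℓ • D) _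
      have h1 := gal_Dv N φ (gal_Dv N φ hD)
      have h2 := hdT_Dv N ℓ (gal_Dv N φ hD)
      have h3 := hD.pow ℓ
      have h4 := (h1.mul h3).div h2
      have e : galD N φ (galD N φ D) - hdT N ℓ (galD N φ D) + ℓ • D
          = galD N φ (galD N φ D) + ℓ • D - hdT N ℓ (galD N φ D) := by abel
      rw [e]
      exact h4

theorem fn_inputs (N : ℕ) [NeZero N] (hcomm : HeckeOperatorsCommuteBar N) (ℓ : ℕ) [NeZero ℓ]
    (hℓ : ℓ.Prime) (hℓN : ¬ ℓ ∣ N)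
    (A : ValuationSubring Kb) (hA : A.LiesOverPrime ℓ) (φ : Kb ≃ₐ[ℚ] Kb)
    (hφ : A.IsFrobeniusAt φ ℓ) : TopInputs N hℓ A φ (fnRC A N) (hdT N ℓ) where
  deg := fn_deg N hℓ A hA
  pow := fn_pow N hℓ hℓN A hA
  inertia := fn_inertia N hℓ A hA
  theta := fn_theta N ℓ hℓ hℓN A hA φ hφ
  hecke := fun D => ⟨_, (heckeModuleBar_heckeGen_smul hcomm ⟨ℓ, hℓ⟩ _).symm.trans
    (hdT_smul N hcomm hℓ D)⟩

/-- **S37** -/
theorem fn_main (N p : ℕ) [NeZero N] (hcomm : HeckeOperatorsCommuteBar N) :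
    letI := heckeModuleBar N
    ∀ (_ : SMulCommClass (Kb ≃ₐ[ℚ] Kb) HeckeAlg (JZero N)),
      SpecializationExists (K := ℚ) (L := Kb) N p (JZero N) :=
  tp_main N p hcomm (rr_hasBddRep (isFF N)) fun ℓ hℓ hℓN A hA φ hφ =>
    haveI : NeZero ℓ := ⟨hℓ.ne_zero⟩
    ⟨fnRC A N, hdT N ℓ, fn_inputs N hcomm ℓ hℓ hℓN A hA φ hφ⟩

end Fermat.Agent.S37Lib
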