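import Fermat.Agent.S24.Embed
import Fermat.Prelude.Def_ModularCurve_HeckeOperator
import Fermat.Prelude.Thm_ModularCurve_coeffMap_qExpand

set_option autoImplicit false

/-!
# S37 : the Atkin–Lehner involution `w_ℓ` of the function field of `X₀(Nℓ)`, `ℓ ∤ N`
-/

open UpperHalfPlane hiding I
open Filter Topology ModularForm AlgebraicCurve IntermediateField CongruenceSubgroup ModularCurve
open scoped MatrixGroups Manifold

namespace Fermat.Agent.S37Lib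

open Fermat.Agent.S20Lib Fermat.Agent.S24Lib

/-- `j (d ℓ τ)` -/
theorem al_jD_mul (d ℓ : ℕ) (hd : d ≠ 0) (hℓ : ℓ ≠ 0) (τ : ℍ) :
    jD d (heckeDiagMatrix ℓ • τ) = jD (d * ℓ) τ := by
  unfold jD
  congr 1
  ext1
  rw [coe_heckeDiagMatrix_smul hd, coe_heckeDiagMatrix_smul hℓ,
    coe_heckeDiagMatrix_smul (mul_ne_zero hd hℓ)]
  push_cast
  ring

/-- the matrix `[[a, b], [N, ℓ]]` -/
def alGamma (N ℓ : ℕ) (a b : ℤ) (h : a * ℓ - b * N = 1) : SL(2, ℤ) :=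
  ⟨!![a, b; (N : ℤ), (ℓ : ℤ)], by rw [Matrix.det_fin_two_of]; exact h⟩

theorem alGamma_mem (N ℓ : ℕ) (a b : ℤ) (h : a * ℓ - b * N = 1) :
    alGamma N ℓ a b h ∈ Gamma0 N := by
  rw [Gamma0_mem]
  simp [alGamma]

/-- the matrix `[[a ℓ, d b], [N / d, 1]]` -/
def alGamma' (ℓ : ℕ) (a b d e : ℤ) (h : a * ℓ - d * b * e = 1) : SL(2, ℤ) :=
  ⟨!![a * ℓ, d * b; e, 1], by rw [Matrix.det_fin_two_of]; linarith⟩

theorem al_smul_eq (N ℓ d e : ℕ) (hN : N = d * e) (hd : d ≠ 0) (hℓ : ℓ ≠ 0) (a b : ℤ)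
    (h : a * ℓ - b * N = 1) (τ : ℍ) :
    heckeDiagMatrix (d * ℓ) • (alGamma N ℓ a b h • (heckeDiagMatrix ℓ • τ)) =
      alGamma' ℓ a b d e (by rw [← h, hN]; push_cast; ring) • (heckeDiagMatrix d • τ) := by
  ext1
  rw [coe_heckeDiagMatrix_smul (mul_ne_zero hd hℓ), UpperHalfPlane.coe_specialLinearGroup_apply,
    UpperHalfPlane.coe_specialLinearGroup_apply, coe_heckeDiagMatrix_smul hℓ,
    coe_heckeDiagMatrix_smul hd]
  simp only [alGamma, alGamma']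
  have hden : ((d : ℂ) * (e : ℂ)) * (τ : ℂ) + 1 ≠ 0 := by
    have := UpperHalfPlane.linear_ne_zero (cd := ![(d : ℝ) * (e : ℝ), 1]) τ (by
      intro h0
      have := congrFun h0 1
      simp at this)
    simpa using this
  have hℓ' : (ℓ : ℂ) ≠ 0 := by exact_mod_cast hℓ
  have hden2 : ((d : ℂ) * (e : ℂ)) * ((ℓ : ℂ) * (τ : ℂ)) + (ℓ : ℂ) ≠ 0 := by
    have : ((d : ℂ) * (e : ℂ)) * ((ℓ : ℂ) * (τ : ℂ)) + (ℓ : ℂ) =
        (ℓ : ℂ) * (((d : ℂ) * (e : ℂ)) * (τ : ℂ) + 1) := by ring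
    rw [this]
    exact mul_ne_zero hℓ' hden
  have hden3 : (e : ℂ) * ((d : ℂ) * (τ : ℂ)) + 1 ≠ 0 := by
    have : (e : ℂ) * ((d : ℂ) * (τ : ℂ)) + 1 = ((d : ℂ) * (e : ℂ)) * (τ : ℂ) + 1 := by ring
    rw [this]
    exact hden
  subst hN
  simp only [Matrix.of_apply, Matrix.cons_val', Matrix.cons_val_zero, Matrix.cons_val_one,
    Matrix.cons_val_fin_one, algebraMap_int_eq, Int.coe_castRingHom]
  push_cast
  rw [mul_div_assoc', div_eq_div_iff hden2 hden3]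
  ring

section Swap

variable (N ℓ : ℕ) [NeZero N] [NeZero ℓ]

theorem al_mem_div {d : ℕ} (hd : d ∈ (N * ℓ).divisors) (h : ℓ ∣ d) :
    d / ℓ ∈ (N * ℓ).divisors := by
  rw [Nat.mem_divisors] at hd ⊢
  exact ⟨(Nat.div_dvd_of_dvd h).trans hd.1, hd.2⟩

theorem al_dvd_of_not_dvd (hℓ : ℓ.Prime) {d : ℕ} (hd : d ∈ (N * ℓ).divisors) (h : ¬ ℓ ∣ d) :
    d ∣ N := by
  rw [Nat.mem_divisors] at hd
  exact (Nat.Coprime.dvd_mul_right ((Nat.Prime.coprime_iff_not_dvd hℓ).2 h).symm).1 hd.1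

theorem al_mem_mul (hℓ : ℓ.Prime) {d : ℕ} (hd : d ∈ (N * ℓ).divisors) (h : ¬ ℓ ∣ d) :
    d * ℓ ∈ (N * ℓ).divisors := by
  rw [Nat.mem_divisors]
  exact ⟨Nat.mul_dvd_mul_right (al_dvd_of_not_dvd N ℓ hℓ hd h) ℓ, (Nat.mem_divisors.1 hd).2⟩

open Classical in
/-- the swap `d ↔ d ℓ` on the divisors of `N ℓ` -/
noncomputable def alSwap (hℓ : ℓ.Prime) (d : {d : ℕ // d ∈ (N * ℓ).divisors}) :
    {d : ℕ // d ∈ (N * ℓ).divisors} :=
  if h : ℓ ∣ d.1 then ⟨d.1 / ℓ, al_mem_div N ℓ d.2 h⟩ else ⟨d.1 * ℓ, al_mem_mul N ℓ hℓ d.2 h⟩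

theorem alSwap_of_dvd (hℓ : ℓ.Prime) (d : {d : ℕ // d ∈ (N * ℓ).divisors}) (h : ℓ ∣ d.1) :
    (alSwap N ℓ hℓ d).1 = d.1 / ℓ := by
  unfold alSwap
  rw [dif_pos h]

theorem alSwap_of_not_dvd (hℓ : ℓ.Prime) (d : {d : ℕ // d ∈ (N * ℓ).divisors}) (h : ¬ ℓ ∣ d.1) :
    (alSwap N ℓ hℓ d).1 = d.1 * ℓ := by
  unfold alSwap
  rw [dif_neg h]

theorem al_not_dvd_div (hℓ : ℓ.Prime) (hℓN : ¬ ℓ ∣ N) {d : ℕ} (hd : d ∈ (N * ℓ).divisors)
    (h : ℓ ∣ d) : ¬ ℓ ∣ d / ℓ := by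
  intro h2
  obtain ⟨c, rfl⟩ := h
  rw [Nat.mul_div_cancel_left _ hℓ.pos] at h2
  obtain ⟨c', rfl⟩ := h2
  rw [Nat.mem_divisors] at hd
  apply hℓN
  have h3 : ℓ * (ℓ * c') ∣ ℓ * N := by rw [mul_comm ℓ N]; exact hd.1
  have h4 := Nat.dvd_of_mul_dvd_mul_left hℓ.pos h3
  exact (Dvd.intro _ rfl).trans h4

theorem alSwap_alSwap (hℓ : ℓ.Prime) (hℓN : ¬ ℓ ∣ N) (d : {d : ℕ // d ∈ (N * ℓ).divisors}) :
    alSwap N ℓ hℓ (alSwap N ℓ hℓ d) = d := by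
  apply Subtype.ext
  by_cases h : ℓ ∣ d.1
  · have h1 := alSwap_of_dvd N ℓ hℓ d h
    have h2 : ¬ ℓ ∣ (alSwap N ℓ hℓ d).1 := by
      rw [h1]; exact al_not_dvd_div N ℓ hℓ hℓN d.2 h
    rw [alSwap_of_not_dvd N ℓ hℓ _ h2, h1, Nat.div_mul_cancel h]
  · have h1 := alSwap_of_not_dvd N ℓ hℓ d h
    have h2 : ℓ ∣ (alSwap N ℓ hℓ d).1 := by
      rw [h1]; exact Dvd.intro_left _ rfl
    rw [alSwap_of_dvd N ℓ hℓ _ h2, h1, Nat.mul_div_cancel _ hℓ.pos]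

/-- the analytic identity behind `w_ℓ` -/
theorem al_exists_point (hℓ : ℓ.Prime) (hℓN : ¬ ℓ ∣ N) (τ : ℍ) :
    ∃ τ' : ℍ, ∀ d : {d : ℕ // d ∈ (N * ℓ).divisors}, jD (alSwap N ℓ hℓ d).1 τ = jD d.1 τ' := by
  have hcop : IsCoprime (ℓ : ℤ) (N : ℤ) :=
    Nat.isCoprime_iff_coprime.2 ((Nat.Prime.coprime_iff_not_dvd hℓ).2 hℓN)
  obtain ⟨a, b', hab⟩ := hcop
  have h : a * ℓ - (-b') * N = 1 := by linarith
  refine ⟨alGamma N ℓ a (-b') h • (heckeDiagMatrix ℓ • τ), fun d => ?_⟩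
  by_cases hd : ℓ ∣ d.1
  · rw [alSwap_of_dvd N ℓ hℓ d hd]
    obtain ⟨c, hc⟩ := hd
    have hcN : c ∣ N := by
      have := (Nat.mem_divisors.1 d.2).1
      rw [hc, mul_comm N ℓ] at this
      exact Nat.dvd_of_mul_dvd_mul_left hℓ.pos this
    obtain ⟨e, he⟩ := hcN
    have hc0 : c ≠ 0 := by
      rintro rfl
      exact NeZero.ne N (by rw [he, zero_mul])
    rw [hc, Nat.mul_div_cancel_left _ hℓ.pos, mul_comm ℓ c]
    unfold jD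
    rw [al_smul_eq N ℓ c e he hc0 hℓ.ne_zero a (-b') h τ, jF_smul]
  · rw [alSwap_of_not_dvd N ℓ hℓ d hd]
    have hdN := al_dvd_of_not_dvd N ℓ hℓ d.2 hd
    have hd0 : d.1 ≠ 0 := (Nat.pos_of_mem_divisors d.2).ne'
    rw [jD_smul_of_dvd hdN _ (alGamma_mem N ℓ a (-b') h), al_jD_mul d.1 ℓ hd0 hℓ.ne_zero]

theorem al_evan_rename (hℓ : ℓ.Prime) (hℓN : ¬ ℓ ∣ N) (P : AN (N * ℓ))
    (h : evan (N * ℓ) P = 0) : evan (N * ℓ) (MvPolynomial.rename (alSwap N ℓ hℓ) P) = 0 := by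
  funext τ
  obtain ⟨τ', hτ'⟩ := al_exists_point N ℓ hℓ hℓN τ
  have h1 := congrFun h τ'
  rw [ker_evan_apply] at h1 ⊢
  rw [MvPolynomial.map_rename, MvPolynomial.eval_rename]
  have : ((fun i : {d : ℕ // d ∈ (N * ℓ).divisors} => jD i.1 τ) ∘ alSwap N ℓ hℓ) =
      fun i : {d : ℕ // d ∈ (N * ℓ).divisors} => jD i.1 τ' := by
    funext d
    exact hτ' d
  rw [this, h1]
  rfl

theorem al_evq_rename_iff (hℓ : ℓ.Prime) (hℓN : ¬ ℓ ∣ N) (P : AN (N * ℓ)) :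
    evq (N * ℓ) (MvPolynomial.rename (alSwap N ℓ hℓ) P) = 0 ↔ evq (N * ℓ) P = 0 := by
  constructor
  · intro h
    rw [evq_eq_zero_iff] at h
    have h2 := al_evan_rename N ℓ hℓ hℓN _ h
    rw [MvPolynomial.rename_rename] at h2
    have : (alSwap N ℓ hℓ ∘ alSwap N ℓ hℓ) = id := by
      funext d
      exact alSwap_alSwap N ℓ hℓ hℓN d
    rw [this, MvPolynomial.rename_id_apply] at h2
    rwa [evq_eq_zero_iff]
  · intro h
    rw [evq_eq_zero_iff] at h ⊢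
    exact al_evan_rename N ℓ hℓ hℓN _ h

/-- the Atkin–Lehner involution on polynomials in the generators -/
theorem al_exists_w0 (hℓ : ℓ.Prime) (hℓN : ¬ ℓ ∣ N) :
    ∃ w : FN (N * ℓ) →+* FN (N * ℓ), ∀ P : AN (N * ℓ),
      w (evq (N * ℓ) P) = evq (N * ℓ) (MvPolynomial.rename (alSwap N ℓ hℓ) P) :=
  exists_lift (N * ℓ)
    (((evq (N * ℓ)).toRingHom).comp (MvPolynomial.rename (alSwap N ℓ hℓ)).toRingHom)
    (fun P => al_evq_rename_iff N ℓ hℓ hℓN P)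

/-- `d ↦ d` from the divisors of `N` to those of `N ℓ` -/
def alIncl (d : {d : ℕ // d ∈ N.divisors}) : {d : ℕ // d ∈ (N * ℓ).divisors} :=
  ⟨d.1, Nat.mem_divisors.2 ⟨(Nat.dvd_of_mem_divisors d.2).trans (Dvd.intro _ rfl),
    mul_ne_zero (NeZero.ne N) (NeZero.ne ℓ)⟩⟩

/-- `d ↦ d ℓ` from the divisors of `N` to those of `N ℓ` -/
def alMul (d : {d : ℕ // d ∈ N.divisors}) : {d : ℕ // d ∈ (N * ℓ).divisors} :=
  ⟨d.1 * ℓ, Nat.mem_divisors.2 ⟨Nat.mul_dvd_mul_right (Nat.dvd_of_mem_divisors d.2) ℓ,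
    mul_ne_zero (NeZero.ne N) (NeZero.ne ℓ)⟩⟩

theorem al_not_dvd (hℓN : ¬ ℓ ∣ N) (d : {d : ℕ // d ∈ N.divisors}) : ¬ ℓ ∣ d.1 :=
  fun h => hℓN (h.trans (Nat.dvd_of_mem_divisors d.2))

theorem alSwap_alIncl (hℓ : ℓ.Prime) (hℓN : ¬ ℓ ∣ N) (d : {d : ℕ // d ∈ N.divisors}) :
    alSwap N ℓ hℓ (alIncl N ℓ d) = alMul N ℓ d :=
  Subtype.ext (alSwap_of_not_dvd N ℓ hℓ (alIncl N ℓ d) (al_not_dvd N ℓ hℓN d))

theorem alSwap_alMul (hℓ : ℓ.Prime) (hℓN : ¬ ℓ ∣ N) (d : {d : ℕ // d ∈ N.divisors}) :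
    alSwap N ℓ hℓ (alMul N ℓ d) = alIncl N ℓ d := by
  rw [← alSwap_alIncl N ℓ hℓ hℓN, alSwap_alSwap N ℓ hℓ hℓN]

theorem al_alpha_gen (d : {d : ℕ // d ∈ N.divisors}) :
    heckeAlphaBar Kb N ℓ (gen N d) = gen (N * ℓ) (alIncl N ℓ d) := by
  apply Subtype.ext
  rw [coe_heckeAlphaBar, coe_gen, coe_gen]
  rfl

theorem al_beta_gen (d : {d : ℕ // d ∈ N.divisors}) :
    heckeBetaBar Kb N ℓ (gen N d) = gen (N * ℓ) (alMul N ℓ d) := by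
  apply Subtype.ext
  rw [coe_heckeBetaBar, coe_gen, coe_gen, coeffEmb, ← ModularCurve.coeffMap_qExpand, qExpand_qExpand]
  congr 1
  exact qExpand_congr (mul_comm _ _) _

theorem al_alpha_evq (P : AN N) :
    heckeAlphaBar Kb N ℓ (evq N P) = evq (N * ℓ) (MvPolynomial.rename (alIncl N ℓ) P) := by
  have : (heckeAlphaBar Kb N ℓ).comp (evq N) =
      (evq (N * ℓ)).comp (MvPolynomial.rename (alIncl N ℓ)) := by
    apply MvPolynomial.algHom_ext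
    intro d
    simp only [AlgHom.comp_apply, evq_X, MvPolynomial.rename_X]
    exact al_alpha_gen N ℓ d
  exact congrArg (fun f => f P) this

theorem al_beta_evq (P : AN N) :
    heckeBetaBar Kb N ℓ (evq N P) = evq (N * ℓ) (MvPolynomial.rename (alMul N ℓ) P) := by
  have : (heckeBetaBar Kb N ℓ).comp (evq N) =
      (evq (N * ℓ)).comp (MvPolynomial.rename (alMul N ℓ)) := by
    apply MvPolynomial.algHom_ext
    intro d
    simp only [AlgHom.comp_apply, evq_X, MvPolynomial.rename_X]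
    exact al_beta_gen N ℓ d
  exact congrArg (fun f => f P) this

/-- **Atkin–Lehner** : there is an endomorphism `w` of `F_{Nℓ}` exchanging `α` and `β`. -/
theorem al_exists_w (hℓ : ℓ.Prime) (hℓN : ¬ ℓ ∣ N) :
    ∃ w : FN (N * ℓ) →+* FN (N * ℓ),
      (∀ g : FN N, w (heckeAlphaBar Kb N ℓ g) = heckeBetaBar Kb N ℓ g) ∧
      (∀ g : FN N, w (heckeBetaBar Kb N ℓ g) = heckeAlphaBar Kb N ℓ g) ∧
      (∀ c : Kb, w (algebraMap Kb (FN (N * ℓ)) c) = algebraMap Kb (FN (N * ℓ)) c) := by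
  obtain ⟨w, hw⟩ := al_exists_w0 N ℓ hℓ hℓN
  refine ⟨w, ?_, ?_, ?_⟩
  · intro g
    obtain ⟨P, Q, rfl⟩ := exists_evq_div' N g
    rw [map_div₀, map_div₀, map_div₀, al_alpha_evq, al_alpha_evq, hw, hw, al_beta_evq,
      al_beta_evq, MvPolynomial.rename_rename, MvPolynomial.rename_rename]
    have : (alSwap N ℓ hℓ ∘ alIncl N ℓ) = alMul N ℓ := by
      funext d
      exact alSwap_alIncl N ℓ hℓ hℓN d
    rw [this]
  · intro g
    obtain ⟨P, Q, rfl⟩ := exists_evq_div' N g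
    rw [map_div₀, map_div₀, map_div₀, al_alpha_evq, al_alpha_evq, al_beta_evq,
      al_beta_evq, hw, hw, MvPolynomial.rename_rename, MvPolynomial.rename_rename]
    have : (alSwap N ℓ hℓ ∘ alMul N ℓ) = alIncl N ℓ := by
      funext d
      exact alSwap_alMul N ℓ hℓ hℓN d
    rw [this]
  · intro c
    have h1 : algebraMap Kb (FN (N * ℓ)) c = evq (N * ℓ) (MvPolynomial.C c) := by
      rw [← MvPolynomial.algebraMap_eq, AlgHom.commutes]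
    rw [h1, hw, MvPolynomial.rename_C]

end Swap

end Fermat.Agent.S37Lib
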