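import Fermat.Agent.S37.RC
import Fermat.Agent.S37.Gal
import Fermat.Agent.S37.HeckeDiv
import Fermat.Agent.S37.RRB
import Fermat.Agent.S37.Deg3

set_option autoImplicit false

/-!
# S37 : the content `W ∩ J[m] = 0`
-/

namespace Fermat.Agent.S37Lib

open AlgebraicCurve ModularCurve
open Fermat.Agent.S24Lib (Kb FN)

/-- the group of residually constant functions -/
def rcSub (A : ValuationSubring Kb) (N : ℕ) : Subgroup (FN N)ˣ where
  carrier := {h | RC A (h : FN N)}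
  mul_mem' := fun {a b} ha hb => by
    show RC A ((a * b : (FN N)ˣ) : FN N)
    rw [Units.val_mul]
    exact RC.mul ha hb
  one_mem' := rc_one
  inv_mem' := fun {a} ha => by
    show RC A ((a⁻¹ : (FN N)ˣ) : FN N)
    rw [Units.val_inv_eq_inv_val]
    exact RC.inv ha

theorem mem_rcSub (A : ValuationSubring Kb) (N : ℕ) (h : (FN N)ˣ) :
    h ∈ rcSub A N ↔ RC A (h : FN N) := Iff.rfl

theorem cnt_degProp (N : ℕ) [NeZero N] (A : ValuationSubring Kb) {ℓ : ℕ} (hℓ : ℓ.Prime)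
    (hA : A.LiesOverPrime ℓ) : DegProp (K := Kb) (rcSub A N) :=
  deg_prop N A (rcSub A N) (fun _ => Iff.rfl) (fun h h0 => rc_scale hℓ hA h h0)

theorem cnt_goodOp_inertia (N : ℕ) [NeZero N] (A : ValuationSubring Kb) {ℓ : ℕ} (hℓ : ℓ.Prime)
    (hA : A.LiesOverPrime ℓ) {σ : Kb ≃ₐ[ℚ] Kb} (hσ : σ ∈ A.inertiaSubgroupIn ℚ) :
    GoodOp (rcSub A N) (galD N σ - AddMonoidHom.id _) := by
  apply gal_goodOp
  intro h
  obtain ⟨c, Y, Y', y, y', hc, hy, hy', hY, hY', he⟩ := rc_scale hℓ hA (h : FN N) h.ne_zero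
  have := gal_F1 A N hσ c hc Y Y' y y' hy hy' hY hY'
  rw [← he] at this
  show RC A ((galU N σ h / h : (FN N)ˣ) : FN N)
  rw [Units.val_div_eq_div_val, galU_coe]
  exact this

/-- the operator `Θ = φ² - T_ℓ φ + ℓ` on divisors -/
noncomputable def cntTheta (N ℓ : ℕ) [NeZero N] [NeZero ℓ] (φ : Kb ≃ₐ[ℚ] Kb) :
    Divisor Kb (FN N) →+ Divisor Kb (FN N) :=
  (galD N φ).comp (galD N φ) - (hdT N ℓ).comp (galD N φ) + ℓ • AddMonoidHom.id _

theorem cntTheta_apply (N ℓ : ℕ) [NeZero N] [NeZero ℓ] (φ : Kb ≃ₐ[ℚ] Kb) (D : Divisor Kb (FN N)) :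
    cntTheta N ℓ φ D = galD N φ (galD N φ D) - hdT N ℓ (galD N φ D) + ℓ • D := rfl

theorem cnt_goodOp_theta (N ℓ : ℕ) [NeZero N] [NeZero ℓ] (A : ValuationSubring Kb)
    (φ : Kb ≃ₐ[ℚ] Kb)
    (hF2 : ∀ h : (FN N)ˣ, RC A (galF N φ (galF N φ (h : FN N)) / hdNm N ℓ (galF N φ (h : FN N)) *
      (h : FN N) ^ ℓ)) :
    GoodOp (rcSub A N) (cntTheta N ℓ φ) where
  bdd := by
    obtain ⟨c, hc⟩ := hdT_nrm_le N ℓ
    refine ⟨1 + c + ℓ, fun D => ?_⟩
    rw [cntTheta_apply]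
    have h1 := nrm_add_le (galD N φ (galD N φ D) - hdT N ℓ (galD N φ D)) (ℓ • D)
    have h2 := nrm_sub_le (galD N φ (galD N φ D)) (hdT N ℓ (galD N φ D))
    have h3 := hc (galD N φ D)
    rw [gal_nrm] at h3
    rw [gal_nrm, gal_nrm] at h2
    rw [nrm_nsmul] at h1
    nlinarith
  rc := fun D h hD => by
    refine ⟨galU N φ (galU N φ h) / hdNmU N ℓ (galU N φ h) * h ^ ℓ, ?_, ?_⟩
    · show RC A ((galU N φ (galU N φ h) / hdNmU N ℓ (galU N φ h) * h ^ ℓ : (FN N)ˣ) : FN N)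
      rw [Units.val_mul, Units.val_div_eq_div_val, Units.val_pow_eq_pow_val, hdNmU_val, galU_coe,
        galU_coe]
      exact hF2 h
    · rw [cntTheta_apply]
      exact ((gal_Dv N φ (gal_Dv N φ hD)).div (hdT_Dv N ℓ (gal_Dv N φ hD))).mul (hD.pow ℓ)

theorem cnt_bdd_sum {K F : Type*} [Field K] [Field F] [Algebra K F] {RC : Subgroup Fˣ}
    {ι : Type*} (s : Finset ι) (E : ι → Divisor K F) (h : ∀ i ∈ s, Bdd RC (E i)) :
    Bdd RC (∑ i ∈ s, E i) := by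
  classical
  induction s using Finset.induction_on with
  | empty => simpa using Bdd.zero RC
  | insert a s ha ih =>
    rw [Finset.sum_insert ha]
    exact (h a (Finset.mem_insert_self a s)).add
      (ih fun i hi => h i (Finset.mem_insert_of_mem hi))

/-- a bounded divisor of degree zero whose class is killed by `m` prime to `ℓ` is principal -/
theorem cnt_principal (N : ℕ) [NeZero N] {ℓ : ℕ} (hℓ : ℓ.Prime) (hℓN : ¬ ℓ ∣ N)
    (A : ValuationSubring Kb) (hA : A.LiesOverPrime ℓ) (E : Divisor Kb (FN N))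
    (hE : Bdd (rcSub A N) E) (m : ℕ) (hm : ¬ ℓ ∣ m)
    (hmE : (m • E) ∈ Divisor.principal (K := Kb) (F := FN N)) :
    E ∈ Divisor.principal (K := Kb) (F := FN N) := by
  have : Fact ℓ.Prime := ⟨hℓ⟩
  have hm0 : m ≠ 0 := by
    rintro rfl
    exact hm (dvd_zero _)
  obtain ⟨f, hf0, hf⟩ := hmE
  have hDv : Dv (m • E) (Units.mk0 f hf0) := hf
  have hRC : RC A f := Bdd.mem_RC (cnt_degProp N A hℓ hA) hE m (Units.mk0 f hf0) hDv
  obtain ⟨s, hs⟩ := rc_pow_of_ord hℓN hA m hm f hRC (fun P => by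
    rw [← hf P, Finsupp.smul_apply, nsmul_eq_mul]
    exact dvd_mul_right _ _)
  have hs0 : s ≠ 0 := by
    rintro rfl
    rw [zero_pow hm0] at hs
    exact hf0 hs
  refine ⟨s, hs0, fun v => ?_⟩
  have h1 := hf v
  rw [hs, Finsupp.smul_apply, nsmul_eq_mul, ← zpow_natCast, Place.ord_zpow] at h1
  exact mul_left_cancel₀ (by exact_mod_cast hm0) h1

/-- the operator `σ - 1` on divisors -/
noncomputable def cntIn (N : ℕ) (σ : Kb ≃ₐ[ℚ] Kb) : Divisor Kb (FN N) →+ Divisor Kb (FN N) :=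
  galD N σ - AddMonoidHom.id _

theorem cntIn_apply (N : ℕ) (σ : Kb ≃ₐ[ℚ] Kb) (D : Divisor Kb (FN N)) :
    cntIn N σ D = galD N σ D - D := rfl

/-- **The content of S37.** -/
theorem cnt_main (N : ℕ) [NeZero N] {ℓ : ℕ} [NeZero ℓ] (hℓ : ℓ.Prime) (hℓN : ¬ ℓ ∣ N)
    (A : ValuationSubring Kb) (hA : A.LiesOverPrime ℓ) (hcomm : HeckeOperatorsCommuteBar N)
    (φ : Kb ≃ₐ[ℚ] Kb)
    (hF2 : ∀ h : (FN N)ˣ, RC A (galF N φ (galF N φ (h : FN N)) / hdNm N ℓ (galF N φ (h : FN N)) *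
      (h : FN N) ^ ℓ))
    (m : ℕ) (hm : ¬ ℓ ∣ m)
    (ι : Type) [Fintype ι] (s : ι → (Kb ≃ₐ[ℚ] Kb)) (x : ι → JZero N) (y : JZero N)
    (hs : ∀ i, s i ∈ A.inertiaSubgroupIn ℚ)
    (hn : m • (∑ i, (s i • x i - x i) + (φ • φ • y -
      (letI := heckeModuleBar N; heckeGen ⟨ℓ, hℓ⟩ • (φ • y)) + ℓ • y)) = 0) :
    ∑ i, (s i • x i - x i) + (φ • φ • y -
      (letI := heckeModuleBar N; heckeGen ⟨ℓ, hℓ⟩ • (φ • y)) + ℓ • y) = 0 := by
  classical
  have hRR : HasBddRep Kb (FN N) := rr_hasBddRep (Fermat.Agent.S24Lib.isFF N)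
  have hsurj : ∀ z : JZero N, ∃ D : Divisor.degZero (K := Kb) (F := FN N), Pic0.mk D = z :=
    Pic0.mk_surjective
  choose Dx hDx using fun i => hsurj (x i)
  obtain ⟨Dy, hDy⟩ := hsurj y
  have hdeg : ∀ D : Divisor.degZero (K := Kb) (F := FN N), Divisor.degree (D : Divisor Kb (FN N)) = 0 :=
    fun D => Divisor.mem_degZero.mp D.2
  -- the Galois translates as elements of `degZero`
  let gz : (Kb ≃ₐ[ℚ] Kb) → Divisor.degZero (K := Kb) (F := FN N) →
      Divisor.degZero (K := Kb) (F := FN N) := fun σ D =>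
    ⟨galD N σ D, by rw [Divisor.mem_degZero, galD_degree]; exact hdeg D⟩
  let tz : Divisor.degZero (K := Kb) (F := FN N) → Divisor.degZero (K := Kb) (F := FN N) :=
    fun D => ⟨hdT N ℓ D, Divisor.mem_degZero.mpr (hdT_degree N ℓ D (hdeg D))⟩
  let mkH : Divisor.degZero (K := Kb) (F := FN N) →+ JZero N := QuotientAddGroup.mk' _
  have hmk : ∀ D, Pic0.mk D = mkH D := fun _ => rfl
  have hg : ∀ σ D, σ • mkH D = mkH (gz σ D) := fun σ D => gal_smul_mk N σ D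
  have ht : ∀ D, (letI := heckeModuleBar N; heckeGen ⟨ℓ, hℓ⟩ • (mkH D : JZero N)) = mkH (tz D) :=
    fun D => hdT_smul N hcomm hℓ D
  let E' : Divisor.degZero (K := Kb) (F := FN N) :=
    ∑ i, (gz (s i) (Dx i) - Dx i) + (gz φ (gz φ Dy) - tz (gz φ Dy) + ℓ • Dy)
  have hE' : mkH E' = ∑ i, (s i • x i - x i) + (φ • φ • y -
      (letI := heckeModuleBar N; heckeGen ⟨ℓ, hℓ⟩ • (φ • y)) + ℓ • y) := by
    simp only [E', map_add, map_sub, map_sum, map_nsmul]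
    rw [← hDy, hmk, hg, hg, ht]
    congr 1
    refine Finset.sum_congr rfl fun i _ => ?_
    rw [← hDx i, hmk, hg]
  rw [← hE'] at hn ⊢
  have hcoe : (E' : Divisor Kb (FN N)) =
      ∑ i, cntIn N (s i) (Dx i : Divisor Kb (FN N)) +
        cntTheta N ℓ φ (Dy : Divisor Kb (FN N)) := by
    simp only [E', AddSubgroup.coe_add, AddSubgroup.coe_sub, AddSubgroup.val_finsetSum,
      AddSubgroup.coe_nsmul, cntTheta_apply, cntIn_apply]
    rfl
  have hBdd : Bdd (rcSub A N) (E' : Divisor Kb (FN N)) := by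
    rw [hcoe]
    refine (cnt_bdd_sum _ _ fun i _ => ?_).add ?_
    · exact (cnt_goodOp_inertia N A hℓ hA (hs i)).bdd_apply hRR (hdeg _)
    · exact (cnt_goodOp_theta N ℓ A φ hF2).bdd_apply hRR (hdeg _)
  rw [← map_nsmul] at hn
  have h1 : (m • E' : Divisor.degZero (K := Kb) (F := FN N)) ∈
      (Divisor.principal (K := Kb) (F := FN N)).addSubgroupOf (Divisor.degZero (K := Kb) (F := FN N)) :=
    (QuotientAddGroup.eq_zero_iff _).1 hn
  have h2 : m • (E' : Divisor Kb (FN N)) ∈ Divisor.principal (K := Kb) (F := FN N) := by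
    have := AddSubgroup.mem_addSubgroupOf.1 h1
    rwa [AddSubgroup.coe_nsmul] at this
  have h3 := cnt_principal N hℓ hℓN A hA _ hBdd m hm h2
  exact (QuotientAddGroup.eq_zero_iff _).2 (AddSubgroup.mem_addSubgroupOf.2 h3)

end Fermat.Agent.S37Lib
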