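import Fermat.Agent.S37.Count
import Fermat.Agent.S24.Degree
import Fermat.Agent.S24.Principal

set_option autoImplicit false

/-!
# S37 : the degree inequality (L5)
-/

namespace Fermat.Agent.S37Lib

open AlgebraicCurve ModularCurve Polynomial IntermediateField
open Fermat.Agent.S24Lib (Kb FN)

/-- the residue field of a valuation ring of `ℚ̄` is algebraically closed -/
theorem deg_isAlgClosed (A : ValuationSubring Kb) :
    IsAlgClosed (IsLocalRing.ResidueField A) := by
  apply IsAlgClosed.of_exists_root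
  intro p hp hirr
  obtain ⟨q, hq, hdeg, hmonic⟩ := Polynomial.lifts_and_natDegree_eq_and_monic
    ((Polynomial.mem_lifts p).mpr (Polynomial.map_surjective _ IsLocalRing.residue_surjective p)) hp
  have hpos : 0 < p.natDegree := hirr.natDegree_pos
  have hdeg' : (q.map A.subtype).degree ≠ 0 := by
    rw [Polynomial.degree_eq_natDegree (hmonic.map A.subtype).ne_zero, hmonic.natDegree_map, hdeg]
    exact_mod_cast hpos.ne'
  obtain ⟨α, hα⟩ := IsAlgClosed.exists_root (q.map A.subtype) hdeg'
  have hint : IsIntegral A α := ⟨q, hmonic, by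
    rw [← Polynomial.eval_map]; exact hα⟩
  obtain ⟨a, ha⟩ := (IsIntegrallyClosed.isIntegral_iff (R := A) (K := Kb)).mp hint
  refine ⟨IsLocalRing.residue A a, ?_⟩
  have hqa : q.eval a = 0 := by
    apply Subtype.val_injective
    have h1 : (q.map A.subtype).eval (A.subtype a) = A.subtype (q.eval a) :=
      Polynomial.eval_map_apply _ _
    have h2 : A.subtype a = α := ha
    rw [h2] at h1
    rw [hα] at h1
    exact h1.symm
  rw [← hq, Polynomial.eval_map_apply, hqa, map_zero]

theorem deg_coeffMap_C {R S : Type*} [CommRing R] [CommRing S] (f : R →+* S) (r : R) :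
    coeffMap f (HahnSeries.C r) = HahnSeries.C (f r) :=
  coeffMap_single f 0 r

theorem deg_coeffMap_injective {R S : Type*} [CommRing R] [CommRing S] (f : R →+* S)
    (hf : Function.Injective f) : Function.Injective (coeffMap f) := by
  intro x y h
  ext n
  apply hf
  rw [← coeffMap_coeff, ← coeffMap_coeff, h]

/-- a nontrivial `ℚ̄`-linear relation between integral series reduces to a nontrivial relation -/
theorem deg_reduce_rel (A : ValuationSubring Kb) {I : Type*} (s : Finset I) (p : I → Kb)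
    (r : I → LaurentSeries A) (hp : ∃ e ∈ s, p e ≠ 0)
    (h : ∑ e ∈ s, HahnSeries.C (p e) * coeffMap A.subtype (r e) = 0) :
    ∃ pb : I → IsLocalRing.ResidueField A, (∃ e ∈ s, pb e ≠ 0) ∧
      ∑ e ∈ s, HahnSeries.C (pb e) * coeffMap (IsLocalRing.residue A) (r e) = 0 := by
  classical
  obtain ⟨e1, he1, hpe1⟩ := hp
  obtain ⟨e0, he0, hmax⟩ := Finset.exists_max_image s (fun e => A.valuation (p e)) ⟨e1, he1⟩
  have hp0 : p e0 ≠ 0 := by
    intro h0
    have := hmax e1 he1
    rw [h0, map_zero] at this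
    exact hpe1 ((map_eq_zero _).1 (le_antisymm this zero_le))
  have hmem : ∀ e ∈ s, p e / p e0 ∈ A := by
    intro e he
    rw [← A.valuation_le_one_iff, map_div₀]
    exact div_le_one_of_le₀ (hmax e he) zero_le
  let a : I → A := fun e => if he : e ∈ s then ⟨p e / p e0, hmem e he⟩ else 0
  have ha : ∀ e ∈ s, (a e : Kb) = p e / p e0 := by
    intro e he
    simp only [a, dif_pos he]
  have hsum : ∑ e ∈ s, HahnSeries.C (a e) * r e = 0 := by
    apply deg_coeffMap_injective A.subtype Subtype.val_injective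
    rw [map_zero, map_sum]
    have : ∑ e ∈ s, coeffMap A.subtype (HahnSeries.C (a e) * r e)
        = HahnSeries.C (p e0)⁻¹ * ∑ e ∈ s, HahnSeries.C (p e) * coeffMap A.subtype (r e) := by
      rw [Finset.mul_sum]
      refine Finset.sum_congr rfl fun e he => ?_
      rw [map_mul, deg_coeffMap_C, ← mul_assoc, ← map_mul]
      congr 2
      show (a e : Kb) = _
      rw [ha e he, div_eq_mul_inv, mul_comm]
    rw [this, h, mul_zero]
  refine ⟨fun e => IsLocalRing.residue A (a e), ⟨e0, he0, ?_⟩, ?_⟩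
  · have : a e0 = 1 := by
      apply Subtype.val_injective
      rw [ha e0 he0, div_self hp0]
      rfl
    simp only [this, map_one]
    exact one_ne_zero
  · have := congrArg (coeffMap (IsLocalRing.residue A)) hsum
    rw [map_zero, map_sum] at this
    rw [← this]
    refine Finset.sum_congr rfl fun e _ => ?_
    rw [map_mul, deg_coeffMap_C]

/-- a homogeneous relation over an algebraically closed field forces proportionality -/
theorem deg_prop_of_rel {kk : Type*} [Field kk] [IsAlgClosed kk] (t1 t2 U : LaurentSeries kk)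
    (ht2 : t2 ≠ 0) (hU : U ≠ 0) (k d : ℕ) (pb : ℕ × ℕ → kk)
    (hpb : ∃ e ∈ Finset.range k ×ˢ Finset.range (d + 1), pb e ≠ 0)
    (h : ∑ e ∈ Finset.range k ×ˢ Finset.range (d + 1), HahnSeries.C (pb e) *
      ((t1 ^ k * U) ^ e.2 * (t2 ^ k * U) ^ (d - e.2) * t1 ^ e.1 * t2 ^ (k - 1 - e.1)) = 0) :
    ∃ lam : kk, t1 = HahnSeries.C lam * t2 := by
  classical
  set s := Finset.range k ×ˢ Finset.range (d + 1) with hs
  let P : kk[X] := ∑ e ∈ s, C (pb e) * X ^ (k * e.2 + e.1)
  have hP0 : P ≠ 0 := by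
    obtain ⟨e0, he0, hpe0⟩ := hpb
    intro hP
    have hc : P.coeff (k * e0.2 + e0.1) = pb e0 := by
      simp only [P, Polynomial.finsetSum_coeff, Polynomial.coeff_C_mul, Polynomial.coeff_X_pow]
      rw [Finset.sum_eq_single e0]
      · simp
      · intro e he hne
        rw [if_neg, mul_zero]
        intro heq
        apply hne
        rw [hs, Finset.mem_product, Finset.mem_range, Finset.mem_range] at he he0
        have h1 : (k * e0.2 + e0.1) % k = (k * e.2 + e.1) % k := by rw [heq]
        rw [Nat.mul_add_mod, Nat.mul_add_mod, Nat.mod_eq_of_lt he.1, Nat.mod_eq_of_lt he0.1] at h1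
        have h2 : k * e0.2 = k * e.2 := by omega
        have hk : 0 < k := by omega
        have h3 := Nat.eq_of_mul_eq_mul_left hk h2
        exact Prod.ext h1.symm h3.symm
      · intro hne
        exact absurd he0 hne
    rw [hP, Polynomial.coeff_zero] at hc
    exact hpe0 hc.symm
  have hroot : aeval (t1 / t2) P = 0 := by
    have hM : (t2 ^ (k * d + (k - 1)) * U ^ d) * aeval (t1 / t2) P = 0 := by
      rw [← h]
      simp only [P, map_sum, Finset.mul_sum]
      refine Finset.sum_congr rfl fun e he => ?_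
      rw [hs, Finset.mem_product, Finset.mem_range, Finset.mem_range] at he
      obtain ⟨i, j⟩ := e
      simp only at he ⊢
      obtain ⟨hi, hj⟩ := he
      obtain ⟨j', rfl⟩ : ∃ j', d = j + j' := ⟨d - j, by omega⟩
      obtain ⟨i', hi'⟩ : ∃ i', k - 1 = i + i' := ⟨k - 1 - i, by omega⟩
      have e1 : j + j' - j = j' := by omega
      have e2 : k - 1 - i = i' := by omega
      rw [e1, e2, hi', map_mul, aeval_C, map_pow, aeval_X]
      have e3 : algebraMap kk (LaurentSeries kk) (pb (i, j)) = HahnSeries.C (pb (i, j)) :=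
        algebraMap_laurentSeries_eq_single _ _
      rw [e3, div_pow]
      have e4 : t2 ^ (k * (j + j') + (i + i')) = t2 ^ (k * j + i) * (t2 ^ (k * j') * t2 ^ i') := by
        rw [← pow_add, ← pow_add]; congr 1; ring
      rw [e4]
      have ht : t2 ^ (k * j + i) ≠ 0 := pow_ne_zero _ ht2
      field_simp
      ring
    rcases mul_eq_zero.1 hM with h0 | h0
    · exact absurd h0 (mul_ne_zero (pow_ne_zero _ ht2) (pow_ne_zero _ hU))
    · exact h0
  by_contra hcon
  have hnr : t1 / t2 ∉ Set.range (algebraMap kk (LaurentSeries kk)) := by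
    rintro ⟨lam, hlam⟩
    apply hcon
    refine ⟨lam, ?_⟩
    have e3 : algebraMap kk (LaurentSeries kk) lam = HahnSeries.C lam :=
      algebraMap_laurentSeries_eq_single _ _
    rw [← e3, hlam, div_mul_cancel₀ _ ht2]
  exact Fermat.Agent.S24Lib.transcendental_of_not_mem_range hnr ⟨P, hP0, hroot⟩

theorem deg_field_id {S : Type*} [Field S] (y y' y2 y2' c : S) (hy' : y' ≠ 0) (hy2' : y2' ≠ 0)
    (k i i' j j' : ℕ) :
    c * ((y ^ k * y2) ^ j * (y' ^ k * y2') ^ j' * y ^ i * y' ^ i') =
      ((y' ^ k * y2') ^ (j + j') * y' ^ (i + i')) *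
        (c * ((y / y') ^ k * (y2 / y2')) ^ j * (y / y') ^ i) := by
  have hz : ((y / y') ^ k * (y2 / y2')) * (y' ^ k * y2') = y ^ k * y2 := by
    rw [div_pow]
    have := pow_ne_zero k hy'
    field_simp
  have hf : (y / y') * y' = y := div_mul_cancel₀ _ hy'
  have h1 : (y ^ k * y2) ^ j = ((y / y') ^ k * (y2 / y2')) ^ j * (y' ^ k * y2') ^ j := by
    rw [← mul_pow, hz]
  have h2 : y ^ i = (y / y') ^ i * y' ^ i := by rw [← mul_pow, hf]
  rw [h1, pow_add, pow_add]
  nth_rewrite 1 [h2]
  ring

theorem deg_clear {S : Type*} [Field S] [Algebra Kb S] (y y' y2 y2' : S) (hy' : y' ≠ 0)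
    (hy2' : y2' ≠ 0) (k d : ℕ) (a : ℕ → Kb[X]) (hd : ∀ i < k, (a i).natDegree < d + 1) :
    ∑ e ∈ Finset.range k ×ˢ Finset.range (d + 1), algebraMap Kb S ((a e.1).coeff e.2) *
      ((y ^ k * y2) ^ e.2 * (y' ^ k * y2') ^ (d - e.2) * y ^ e.1 * y' ^ (k - 1 - e.1)) =
    ((y' ^ k * y2') ^ d * y' ^ (k - 1)) * ∑ i ∈ Finset.range k,
      aeval ((y / y') ^ k * (y2 / y2')) (a i) * (y / y') ^ i := by
  rw [Finset.sum_product, Finset.mul_sum]
  refine Finset.sum_congr rfl fun i hi => ?_
  rw [Finset.mem_range] at hi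
  rw [aeval_eq_sum_range' (hd i hi), Finset.sum_mul, Finset.mul_sum]
  refine Finset.sum_congr rfl fun j hj => ?_
  rw [Finset.mem_range] at hj
  obtain ⟨j', hj'⟩ : ∃ j', d = j + j' := ⟨d - j, by omega⟩
  obtain ⟨i', hi'⟩ : ∃ i', k - 1 = i + i' := ⟨k - 1 - i, by omega⟩
  have e1 : d - j = j' := by omega
  have e2 : k - 1 - i = i' := by omega
  simp only [e1, e2]
  rw [hj', hi', Algebra.smul_def]
  exact deg_field_id y y' y2 y2' _ hy' hy2' k i i' j j'

/-- no nontrivial relation `∑_{i<k} a_i(z) f^i = 0` when `f = y/y'` has non-constant reduction and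
`z = f^k * (y2/y2')` with `y2`, `y2'` of equal nonzero reduction -/
theorem deg_no_rel (A : ValuationSubring Kb) (Y Y' Y2 Y2' : LaurentSeries A)
    (hY' : coeffMap (IsLocalRing.residue A) Y' ≠ 0)
    (h2 : coeffMap (IsLocalRing.residue A) Y2 = coeffMap (IsLocalRing.residue A) Y2')
    (h20 : coeffMap (IsLocalRing.residue A) Y2 ≠ 0)
    (hnc : ∀ lam : IsLocalRing.ResidueField A, coeffMap (IsLocalRing.residue A) Y ≠
      HahnSeries.C lam * coeffMap (IsLocalRing.residue A) Y')
    (k : ℕ) (a : ℕ → Kb[X]) (ha : ∃ i < k, a i ≠ 0) :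
    ∑ i ∈ Finset.range k,
      aeval ((coeffMap A.subtype Y / coeffMap A.subtype Y') ^ k *
        (coeffMap A.subtype Y2 / coeffMap A.subtype Y2')) (a i) *
        (coeffMap A.subtype Y / coeffMap A.subtype Y') ^ i ≠ 0 := by
  classical
  intro hrel
  have := deg_isAlgClosed A
  have hinj := deg_coeffMap_injective A.subtype Subtype.val_injective
  have hne : ∀ W : LaurentSeries A, coeffMap (IsLocalRing.residue A) W ≠ 0 →
      coeffMap A.subtype W ≠ 0 := by
    intro W hW h0
    apply hW
    have : W = 0 := hinj (by rw [h0, map_zero])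
    rw [this, map_zero]
  have hy'0 := hne Y' hY'
  have hy2'0 := hne Y2' (h2 ▸ h20)
  obtain ⟨i0, hi0, hai0⟩ := ha
  obtain ⟨d, hd⟩ : ∃ d : ℕ, ∀ i < k, (a i).natDegree < d + 1 :=
    ⟨(Finset.range k).sup fun i => (a i).natDegree, fun i hi =>
      Nat.lt_succ_of_le (Finset.le_sup (f := fun i => (a i).natDegree) (Finset.mem_range.2 hi))⟩
  have hclear := deg_clear (coeffMap A.subtype Y) _ (coeffMap A.subtype Y2) _ hy'0 hy2'0 k d a hd
  rw [hrel, mul_zero] at hclear
  obtain ⟨pb, hpb, hpbsum⟩ := deg_reduce_rel A (Finset.range k ×ˢ Finset.range (d + 1))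
    (fun e => (a e.1).coeff e.2)
    (fun e => (Y ^ k * Y2) ^ e.2 * (Y' ^ k * Y2') ^ (d - e.2) * Y ^ e.1 * Y' ^ (k - 1 - e.1))
    ⟨(i0, (a i0).natDegree), by
      rw [Finset.mem_product, Finset.mem_range, Finset.mem_range]
      exact ⟨hi0, hd i0 hi0⟩, by
      show (a i0).coeff (a i0).natDegree ≠ 0
      rwa [Polynomial.coeff_natDegree, Polynomial.leadingCoeff_ne_zero]⟩
    (by
      rw [← hclear]
      refine Finset.sum_congr rfl fun e _ => ?_
      rw [algebraMap_laurentSeries_eq_single]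
      simp only [map_mul, map_pow]
      rfl)
  obtain ⟨lam, hlam⟩ := deg_prop_of_rel (coeffMap (IsLocalRing.residue A) Y)
    (coeffMap (IsLocalRing.residue A) Y') (coeffMap (IsLocalRing.residue A) Y2) hY' h20 k d pb hpb
    (by
      rw [← hpbsum]
      refine Finset.sum_congr rfl fun e _ => ?_
      simp only [map_mul, map_pow, h2])
  exact hnc lam hlam

end Fermat.Agent.S37Lib
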