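import Fermat.Agent.S37.Deg

set_option autoImplicit false

/-!
# S37 : the degree inequality (L5), function field level
-/

namespace Fermat.Agent.S37Lib

open AlgebraicCurve ModularCurve Polynomial IntermediateField
open Fermat.Agent.S24Lib (Kb FN)
open scoped IntermediateField.algebraAdjoinAdjoin

section
variable {N : ℕ} (A : ValuationSubring Kb) (Y Y' Y2 Y2' : LaurentSeries A) (y y' y2 y2' : FN N)
  (hy : (y : LaurentSeries Kb) = coeffMap A.subtype Y)
  (hy' : (y' : LaurentSeries Kb) = coeffMap A.subtype Y')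
  (hy2 : (y2 : LaurentSeries Kb) = coeffMap A.subtype Y2)
  (hy2' : (y2' : LaurentSeries Kb) = coeffMap A.subtype Y2')
  (hY' : coeffMap (IsLocalRing.residue A) Y' ≠ 0)
  (h2 : coeffMap (IsLocalRing.residue A) Y2 = coeffMap (IsLocalRing.residue A) Y2')
  (h20 : coeffMap (IsLocalRing.residue A) Y2 ≠ 0)
  (hnc : ∀ lam : IsLocalRing.ResidueField A, coeffMap (IsLocalRing.residue A) Y ≠
      HahnSeries.C lam * coeffMap (IsLocalRing.residue A) Y')

include hy hy' hy2 hy2' hY' h2 h20 hnc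

theorem deg_no_rel_FN (k : ℕ) (a : ℕ → Kb[X]) (ha : ∃ i < k, a i ≠ 0) :
    ∑ i ∈ Finset.range k, aeval ((y / y') ^ k * (y2 / y2')) (a i) * (y / y') ^ i ≠ 0 := by
  intro h
  apply deg_no_rel A Y Y' Y2 Y2' hY' h2 h20 hnc k a ha
  have h1 := congrArg (modularFunctionFieldBar N).val h
  rw [map_zero, map_sum] at h1
  rw [← h1]
  refine Finset.sum_congr rfl fun i _ => ?_
  rw [map_mul, ← Polynomial.aeval_algHom_apply, map_mul, map_pow, map_pow, map_div₀, map_div₀]
  simp only [IntermediateField.coe_val, hy, hy', hy2, hy2']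

theorem deg_transcendental (k : ℕ) (hk : 0 < k) :
    Transcendental Kb ((y / y') ^ k * (y2 / y2')) := by
  rintro ⟨p, hp0, hp⟩
  apply deg_no_rel_FN A Y Y' Y2 Y2' y y' y2 y2' hy hy' hy2 hy2' hY' h2 h20 hnc k
    (fun i => if i = 0 then p else 0) ⟨0, hk, by simpa using hp0⟩
  rw [Finset.sum_eq_single 0]
  · simp [hp]
  · intro i _ hi
    simp [hi]
  · intro h
    exact absurd (Finset.mem_range.2 hk) h

theorem deg_linearIndependent (k : ℕ) :
    LinearIndependent Kb⟮(y / y') ^ k * (y2 / y2')⟯ (fun i : Fin k => (y / y') ^ (i : ℕ)) := by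
  classical
  set z := (y / y') ^ k * (y2 / y2') with hz
  have hli : LinearIndependent (Algebra.adjoin Kb {z}) (fun i : Fin k => (y / y') ^ (i : ℕ)) := by
    rw [Fintype.linearIndependent_iff]
    intro g hg
    by_contra hcon
    push Not at hcon
    obtain ⟨i0, hi0⟩ := hcon
    have hex : ∀ i : Fin k, ∃ p : Kb[X], aeval z p = (g i : FN N) := by
      intro i
      have h1 : ∀ x ∈ Algebra.adjoin Kb {z}, ∃ p : Kb[X], aeval z p = x := by
        intro x hx
        rw [Algebra.adjoin_singleton_eq_range_aeval] at hx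
        exact hx
      exact h1 _ (g i).2
    choose p hp using hex
    apply deg_no_rel_FN A Y Y' Y2 Y2' y y' y2 y2' hy hy' hy2 hy2' hY' h2 h20 hnc k
      (fun i => if h : i < k then p ⟨i, h⟩ else 0) ⟨i0, i0.2, by
        simp only [dif_pos i0.2]
        intro h0
        apply hi0
        apply Subtype.val_injective
        rw [← hp i0, h0, map_zero]
        rfl⟩
    rw [← hz, ← Fin.sum_univ_eq_sum_range
      (fun i => aeval z (if h : i < k then p ⟨i, h⟩ else 0) * (y / y') ^ i) k, ← hg]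
    refine Finset.sum_congr rfl fun i _ => ?_
    simp only [dif_pos i.2, Fin.eta, hp]
    rfl
  exact hli.localization Kb⟮z⟯ (nonZeroDivisors (Algebra.adjoin Kb {z}))

theorem deg_le_nrm [NeZero N] (k : ℕ) (hk : 0 < k) (c : Kb) (hc : c ≠ 0) (z : (FN N)ˣ)
    (hz : (z : FN N) = algebraMap Kb (FN N) c * ((y / y') ^ k * (y2 / y2')))
    (Dz : Divisor Kb (FN N)) (hD : Dv Dz z) : k ≤ nrm Dz := by
  classical
  have hFF := Fermat.Agent.S24Lib.isFF N
  have htr := deg_transcendental A Y Y' Y2 Y2' y y' y2 y2' hy hy' hy2 hy2' hY' h2 h20 hnc k hk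
  have hli := deg_linearIndependent A Y Y' Y2 Y2' y y' y2 y2' hy hy' hy2 hy2' hY' h2 h20 hnc k
  have hfin := Fermat.Agent.S24Lib.finiteDimensional_adjoin hFF htr
  have h1 := hli.fintype_card_le_finrank
  rw [Fintype.card_fin] at h1
  obtain ⟨T, hT, hsum⟩ := Fermat.Agent.S24Lib.exists_zeros_finset hFF htr
  have hz1 : (y / y') ^ k * (y2 / y2') ≠ 0 := by
    intro h0
    apply htr
    rw [h0]
    exact isAlgebraic_zero
  have hord : ∀ v : Place Kb (FN N), Dz v = v.ord ((y / y') ^ k * (y2 / y2')) := by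
    intro v
    rw [hD v, hz, Place.ord_mul v (by simpa using hc) hz1, Fermat.Agent.S24Lib.ord_algebraMap,
      zero_add]
  have hsub : T ⊆ Dz.support := by
    intro v hv
    rw [Finsupp.mem_support_iff, hord v]
    exact ((hT v).1 hv).ne'
  have h3 : (Module.finrank Kb⟮(y / y') ^ k * (y2 / y2')⟯ (FN N) : ℤ) ≤ (nrm Dz : ℤ) := by
    rw [← hsum, nrm_eq_sum Dz Dz.support subset_rfl]
    push_cast
    calc ∑ v ∈ T, v.ord ((y / y') ^ k * (y2 / y2')) ≤ ∑ v ∈ T, |Dz v| :=
          Finset.sum_le_sum fun v _ => by rw [hord v]; exact le_abs_self _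
      _ ≤ ∑ v ∈ Dz.support, |Dz v| :=
          Finset.sum_le_sum_of_subset_of_nonneg hsub fun v _ _ => abs_nonneg _
  have h4 : Module.finrank Kb⟮(y / y') ^ k * (y2 / y2')⟯ (FN N) ≤ nrm Dz := by exact_mod_cast h3
  exact h1.trans h4

end

end Fermat.Agent.S37Lib
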