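import Mathlib
import Fermat.Prelude.Def_AlgebraicCurve_Correspondence

set_option autoImplicit false

/-!
# S37 [L8, part] : the fundamental identity follows from the norm formula
-/

open AlgebraicCurve

namespace Fermat.Agent.S37Lib

section Abs

variable {K F F' : Type*} [Field K] [Field F] [Field F']
  [Algebra K F] [Algebra K F'] [Algebra F F'] [IsScalarTower K F F']
  [Algebra.IsIntegral F F'] [HasPrincipalDivisors K F'] [Module.Finite F F']

theorem fnf_sumRamificationInertia (H : Divisor.PushforwardNormFormula K F F') :
    SumRamificationInertia K F F' := by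
  classical
  refine ⟨fun v => ?_⟩
  obtain ⟨π, hπ⟩ := IsDiscreteValuationRing.exists_irreducible v.toValuationSubring
  have hπ1 : v.ord (π : F) = 1 := v.ord_coe_irreducible hπ
  have hπ0 : (π : F) ≠ 0 := by
    intro h
    rw [h] at hπ1
    simp at hπ1
  have hf0 : algebraMap F F' (π : F) ≠ 0 := by simpa using hπ0
  obtain ⟨D, hD, -⟩ := HasPrincipalDivisors.exists_divisor (K := K) (algebraMap F F' (π : F)) hf0
  have h1 := H _ hf0 D hD v
  rw [Algebra.norm_algebraMap, Divisor.pushforward_apply] at h1
  have h2 : v.ord ((π : F) ^ Module.finrank F F') = (Module.finrank F F' : ℤ) := by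
    rw [← zpow_natCast, v.ord_zpow, hπ1, mul_one]
  rw [h2] at h1
  rw [← h1, ← Finset.sum_filter]
  refine Finset.sum_congr ?_ ?_
  · ext w
    simp only [Place.mem_fiber, Finset.mem_filter, Finsupp.mem_support_iff]
    constructor
    · intro hw
      refine ⟨?_, hw⟩
      rw [hD w]
      exact w.ord_algebraMap_ne_zero_of_restrict_eq (by rw [hπ1]; exact one_ne_zero) hw
    · exact fun h => h.2
  · intro w hw
    have hw' : w.restrict F = v := (Finset.mem_filter.mp hw).2
    rw [hD w, w.ord_restrict, hw', hπ1, mul_one]

end Abs

section Along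

variable {K F F' : Type*} [Field K] [Field F] [Field F'] [Algebra K F] [Algebra K F']

theorem fnf_FI_of_NF (φ : F →ₐ[K] F') (hφ : φ.toRingHom.IsIntegral) [HasPrincipalDivisors K F']
    (hfin : FiniteAlong K φ) (hN : NormFormulaAlong K φ hfin) :
    FundamentalIdentityAlong K φ hφ := by
  letI := algebraAlong φ
  haveI := isScalarTower_along φ
  haveI := isIntegral_along φ hφ
  haveI : Module.Finite F F' := hfin
  haveI : SumRamificationInertia K F F' := fnf_sumRamificationInertia hN
  exact instFundamentalIdentityOfSumRamificationInertia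

end Along

end Fermat.Agent.S37Lib
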