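import Mathlib
import Fermat.Prelude.Def_ModularCurve_X0
import Fermat.Prelude.Def_ModularCurve_LaurentCoeff
import Fermat.Prelude.Thm_ModularCurve_coeffMap_qExpand

/-!
# S37: the Frobenius identity on Laurent series in characteristic `ℓ`
`W ^ ℓ = (Frob W)(q ^ ℓ)`.
-/

set_option autoImplicit false

namespace Fermat.Agent.S37Lib

open ModularCurve

variable {k : Type*} [CommRing k] (ℓ : ℕ) [NeZero ℓ]

theorem nf_qExpand_injective (R : Type*) [CommRing R] :
    Function.Injective (qExpand R ℓ) := by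
  intro x y h
  ext n
  rw [← qExpand_coeff_mul ℓ x n, ← qExpand_coeff_mul ℓ y n, h]

theorem nf_qExpand_ofPowerSeries (f : PowerSeries k) :
    qExpand k ℓ (HahnSeries.ofPowerSeries ℤ k f) =
      HahnSeries.ofPowerSeries ℤ k (PowerSeries.expand ℓ (NeZero.ne ℓ) f) := by
  ext n
  by_cases hn : (ℓ : ℤ) ∣ n
  · obtain ⟨m, rfl⟩ := hn
    rw [qExpand_coeff_mul]
    rcases lt_or_ge m 0 with hm | hm
    · have h1 : (ℓ : ℤ) * m < 0 :=
        mul_neg_of_pos_of_neg (by exact_mod_cast Nat.pos_of_ne_zero (NeZero.ne ℓ)) hm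
      rw [HahnSeries.ofPowerSeries_apply, HahnSeries.ofPowerSeries_apply,
        HahnSeries.embDomain_of_notMem_range, HahnSeries.embDomain_of_notMem_range]
      · rintro ⟨a, ha⟩
        have : (a : ℤ) = (ℓ : ℤ) * m := ha
        omega
      · rintro ⟨a, ha⟩
        have : (a : ℤ) = m := ha
        omega
    · obtain ⟨a, rfl⟩ := Int.eq_ofNat_of_zero_le hm
      rw [← Nat.cast_mul, HahnSeries.ofPowerSeries_apply_coeff,
        HahnSeries.ofPowerSeries_apply_coeff, PowerSeries.coeff_expand_mul]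
  · rw [qExpand_coeff_of_not_dvd _ _ hn]
    rcases lt_or_ge n 0 with hm | hm
    · rw [HahnSeries.ofPowerSeries_apply, HahnSeries.embDomain_of_notMem_range]
      rintro ⟨a, ha⟩
      have : (a : ℤ) = n := ha
      omega
    · obtain ⟨a, rfl⟩ := Int.eq_ofNat_of_zero_le hm
      rw [HahnSeries.ofPowerSeries_apply_coeff, PowerSeries.coeff_expand_of_not_dvd]
      intro h
      exact hn (by exact_mod_cast h)

theorem nf_coeffMap_ofPowerSeries {S : Type*} [CommRing S] (g : k →+* S) (f : PowerSeries k) :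
    coeffMap g (HahnSeries.ofPowerSeries ℤ k f) =
      HahnSeries.ofPowerSeries ℤ S (PowerSeries.map g f) := by
  ext n
  rw [coeffMap_coeff]
  rcases lt_or_ge n 0 with hm | hm
  · rw [HahnSeries.ofPowerSeries_apply, HahnSeries.ofPowerSeries_apply,
      HahnSeries.embDomain_of_notMem_range, HahnSeries.embDomain_of_notMem_range, map_zero]
    · rintro ⟨a, ha⟩
      have : (a : ℤ) = n := ha
      omega
    · rintro ⟨a, ha⟩
      have : (a : ℤ) = n := ha
      omega
  · obtain ⟨a, rfl⟩ := Int.eq_ofNat_of_zero_le hm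
    rw [HahnSeries.ofPowerSeries_apply_coeff, HahnSeries.ofPowerSeries_apply_coeff,
      PowerSeries.coeff_map]

theorem nf_ps_frob [ExpChar k ℓ] (f : PowerSeries k) :
    PowerSeries.map (frobenius k ℓ) (PowerSeries.expand ℓ (NeZero.ne ℓ) f) = f ^ ℓ :=
  MvPowerSeries.map_frobenius_expand ℓ (NeZero.ne ℓ)

/-- **Frobenius identity**: `W ^ ℓ = (Frob W)(q ^ ℓ)`. -/
theorem nf_frob [ExpChar k ℓ] (W : LaurentSeries k) :
    W ^ ℓ = qExpand k ℓ (coeffMap (frobenius k ℓ) W) := by
  have hW := LaurentSeries.single_order_mul_powerSeriesPart W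
  set f := W.powerSeriesPart
  set o := W.order
  rw [← hW, mul_pow, map_mul, map_mul, HahnSeries.single_pow, one_pow, ← map_pow,
    ← nf_ps_frob ℓ f, nf_coeffMap_ofPowerSeries, nf_qExpand_ofPowerSeries, PowerSeries.map_expand]
  congr 1
  have h1 : coeffMap (frobenius k ℓ) (HahnSeries.single o (1 : k)) = HahnSeries.single o 1 := by
    ext n
    rw [coeffMap_coeff]
    by_cases h : n = o
    · subst h
      simp
    · rw [HahnSeries.coeff_single_of_ne h, map_zero]
  rw [h1, qExpand_single]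
  congr 1

end Fermat.Agent.S37Lib
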