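import Mathlib

set_option autoImplicit false

/-!
# S37 [L8, part] : multiplicity of a prime in the relative norm of an ideal
-/

namespace Fermat.Agent.S37Lib

open Ideal

section

variable {R S : Type*} [CommRing R] [IsDedekindDomain R] [CommRing S] [IsDedekindDomain S]
  [Algebra R S] [Module.Finite R S] [Module.IsTorsionFree R S]

theorem hmu_mult_prime {T : Type*} [CommRing T] [IsDedekindDomain T] (P Q : Ideal T)
    [P.IsMaximal] [Q.IsMaximal] : multiplicity P Q = if P = Q then 1 else 0 := by
  split_ifs with h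
  · subst h
    exact multiplicity_self
  · rw [multiplicity_eq_zero, Ideal.dvd_iff_le]
    intro hle
    exact h ((Ideal.IsMaximal.eq_of_le inferInstance (Ideal.IsMaximal.ne_top inferInstance) hle).symm)

theorem hmu_main [CharZero R]
    (hin : ∀ P : Ideal S, P.IsMaximal → P.inertiaDeg R = 1)
    (p : Ideal R) [p.IsMaximal] (hp0 : p ≠ ⊥) (I : Ideal S) (hI : I ≠ ⊥) :
    multiplicity p (Ideal.relNorm R I) =
      ∑ P ∈ IsDedekindDomain.primesOverFinset p S, multiplicity P I := by
  classical
  have : CharZero (FractionRing R) :=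
    charZero_of_injective_algebraMap (IsFractionRing.injective R (FractionRing R))
  have hpp : Prime p := Ideal.prime_of_isPrime hp0 inferInstance
  have hmem : ∀ P ∈ IsDedekindDomain.primesOverFinset p S, P.IsPrime ∧ P.LiesOver p := fun P hP =>
    (IsDedekindDomain.mem_primesOverFinset_iff hp0 S).1 hP
  have hne : ∀ P ∈ IsDedekindDomain.primesOverFinset p S, P ≠ ⊥ := fun P hP h => by
    have := (hmem P hP).2
    subst h
    exact hp0 (by rw [this.over]; exact Ideal.under_bot R S)
  revert hI
  induction I using UniqueFactorizationMonoid.induction_on_prime with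
  | h₁ => intro h; exact absurd rfl h
  | h₂ J hJ =>
    intro _
    have hJ1 : J = 1 := by
      rw [Ideal.isUnit_iff] at hJ
      rw [hJ, Ideal.one_eq_top]
    subst hJ1
    rw [map_one, multiplicity_eq_zero.2 (fun h => hpp.not_isUnit (isUnit_of_dvd_one h))]
    symm
    apply Finset.sum_eq_zero
    intro P hP
    have hP' : Prime P := Ideal.prime_of_isPrime (hne P hP) (hmem P hP).1
    exact multiplicity_eq_zero.2 (fun h => hP'.not_isUnit (isUnit_of_dvd_one h))
  | h₃ J Q hJ hQ ih =>
    intro _
    have hJ' : J ≠ ⊥ := hJ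
    have hQ0 : Q ≠ ⊥ := hQ.ne_zero
    have hQp : Q.IsPrime := Ideal.isPrime_of_prime hQ
    have hQm : Q.IsMaximal := Ring.DimensionLEOne.maximalOfPrime hQ0 hQp
    have hqm : (Q.under R).IsMaximal := Ideal.IsMaximal.under R Q
    have hrel : Ideal.relNorm R Q = Q.under R := by
      rw [Ideal.relNorm_eq_pow_of_isMaximal Q (Q.under R), hin Q hQm, pow_one]
    rw [map_mul, multiplicity_mul hpp, ih hJ', hrel]
    · have h1 : ∀ P ∈ IsDedekindDomain.primesOverFinset p S,
          multiplicity P (Q * J) = multiplicity P Q + multiplicity P J := by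
        intro P hP
        have hP' : Prime P := Ideal.prime_of_isPrime (hne P hP) (hmem P hP).1
        exact multiplicity_mul hP' (FiniteMultiplicity.of_not_isUnit hP'.not_isUnit
          (mul_ne_zero hQ0 hJ'))
      rw [Finset.sum_congr rfl h1, Finset.sum_add_distrib]
      congr 1
      have h2 : ∀ P ∈ IsDedekindDomain.primesOverFinset p S,
          multiplicity P Q = if P = Q then 1 else 0 := by
        intro P hP
        have : P.IsMaximal := Ring.DimensionLEOne.maximalOfPrime (hne P hP) (hmem P hP).1
        exact hmu_mult_prime P Q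
      rw [Finset.sum_congr rfl h2, hmu_mult_prime, Finset.sum_ite_eq']
      by_cases hpq : p = Q.under R
      · rw [if_pos hpq, if_pos]
        exact (IsDedekindDomain.mem_primesOverFinset_iff hp0 S).2 ⟨hQp, ⟨hpq⟩⟩
      · rw [if_neg hpq, if_neg]
        intro hmemQ
        exact hpq (hmem Q hmemQ).2.over
    · apply FiniteMultiplicity.of_not_isUnit hpp.not_isUnit
      rw [← map_mul]
      intro h
      exact mul_ne_zero hQ0 hJ' (Ideal.relNorm_eq_bot_iff.1 h)

/-- the same with the hypothesis stated for `Ideal.inertiaDeg'` -/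
theorem hmu_main' [CharZero R]
    (hin : ∀ (p : Ideal R) (P : Ideal S), p.IsMaximal → P.IsMaximal → P.LiesOver p →
      p.inertiaDeg' P = 1)
    (p : Ideal R) [p.IsMaximal] (hp0 : p ≠ ⊥) (I : Ideal S) (hI : I ≠ ⊥) :
    multiplicity p (Ideal.relNorm R I) =
      ∑ P ∈ IsDedekindDomain.primesOverFinset p S, multiplicity P I := by
  refine hmu_main (fun P hP => ?_) p hp0 I hI
  have hqm : (P.under R).IsMaximal := Ideal.IsMaximal.under R P
  rw [← Ideal.inertiaDeg'_eq_inertiaDeg (P.under R) P]
  exact hin _ _ hqm hP ⟨rfl⟩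

end

end Fermat.Agent.S37Lib
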