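import Fermat.Agent.S37.HinDed
import Fermat.Agent.S37.HinMult

set_option autoImplicit false
set_option linter.deprecated false
set_option linter.style.haveILetI false
set_option linter.unusedSectionVars false

open AlgebraicCurve IntermediateField IsDedekindDomain

namespace Fermat.Agent.S37Lib

open Fermat.Agent.S24Lib

section One

variable {K F : Type*} [Field K] [Field F] [Algebra K F]
variable {B : Type*} [CommRing B] [IsDedekindDomain B] [Algebra B F] [IsFractionRing B F]
  [Algebra K B] [IsScalarTower K B F]

theorem hin_ord_eq_multiplicity (P : HeightOneSpectrum B) {b : B} (hb : b ≠ 0) :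
    (Place.ofHeightOneSpectrum (K := K) (F := F) P).ord (algebraMap B F b) =
      (multiplicity P.asIdeal (Ideal.span {b}) : ℤ) := by
  have hnn := ord_ofHeightOneSpectrum_nonneg (K := K) (F := F) P b
  obtain ⟨n, hn⟩ := Int.eq_ofNat_of_zero_le hnn
  rw [hn]
  congr 1
  symm
  apply multiplicity_eq_of_dvd_of_not_dvd
  · rw [Ideal.dvd_span_singleton, ← le_ord_ofHeightOneSpectrum_iff (K := K) (F := F) P hb, hn]
  · rw [Ideal.dvd_span_singleton, ← le_ord_ofHeightOneSpectrum_iff (K := K) (F := F) P hb, hn]
    push_cast
    omega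

end One

section Ded

variable {K F F' : Type*} [Field K] [IsAlgClosed K] [CharZero K] [Field F] [Field F']
  [Algebra K F] [Algebra K F'] [Algebra F F'] [IsScalarTower K F F'] [Algebra.IsIntegral F F']
variable {R S : Type*} [CommRing R] [IsDedekindDomain R] [Algebra R F] [IsFractionRing R F]
    [Algebra R F'] [IsScalarTower R F F']
    [CommRing S] [IsDedekindDomain S] [Algebra R S] [Algebra S F'] [IsScalarTower R S F']
    [IsFractionRing S F'] [Module.Finite R S] [Module.IsTorsionFree R S]
    [Algebra K S] [IsScalarTower K S F'] [Algebra K R] [IsScalarTower K R S] [IsScalarTower K R F]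

theorem hin_inertiaDeg_place (hFF : IsFF K F) (hFF' : IsFF K F') (w : Place K F') :
    w.inertiaDeg F = 1 := by
  have h := w.deg_restrict_mul_inertiaDeg (F := F)
  rw [deg_eq_one hFF, deg_eq_one hFF', one_mul] at h
  exact h

theorem hin_inertiaDeg_ideal (hFF' : IsFF K F') (hRnf : ¬ IsField R) (P : Ideal S)
    (hP : P.IsMaximal) : P.inertiaDeg R = 1 := by
  haveI := hP
  haveI hpm : (P.under R).IsMaximal := Ideal.IsMaximal.under R P
  have hp0 : P.under R ≠ ⊥ := Ring.ne_bot_of_isMaximal_of_not_isField hpm hRnf
  have hP0 : P ≠ ⊥ := Ideal.ne_bot_of_liesOver_of_ne_bot hp0 P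
  let Ph : HeightOneSpectrum S := ⟨P, hP.isPrime, hP0⟩
  rw [Ideal.inertiaDeg_eq_of_isMaximal (P.under R) P]
  have hsurj : Function.Surjective (algebraMap (R ⧸ P.under R) (S ⧸ P)) := by
    intro x
    obtain ⟨b, rfl⟩ := Ideal.Quotient.mk_surjective x
    obtain ⟨c, hc⟩ := exists_sub_algebraMap_ord_pos hFF'
      (Place.ofHeightOneSpectrum (K := K) (F := F') Ph)
      (ord_ofHeightOneSpectrum_nonneg (K := K) (F := F') Ph b)
    refine ⟨Ideal.Quotient.mk _ (algebraMap K R c), ?_⟩
    rw [Ideal.Quotient.algebraMap_mk_of_liesOver, ← IsScalarTower.algebraMap_apply K R S,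
      eq_comm, Ideal.Quotient.eq]
    have hcF : algebraMap K F' c = algebraMap S F' (algebraMap K S c) :=
      IsScalarTower.algebraMap_apply K S F' c
    rcases hc with hc | hc
    · rw [hcF] at hc
      have := IsFractionRing.injective S F' hc
      rw [this, sub_self]
      exact zero_mem _
    · rw [hcF, ← map_sub] at hc
      by_cases h0 : b - algebraMap K S c = 0
      · rw [h0]
        exact zero_mem _
      exact (ord_ofHeightOneSpectrum_pos_iff (K := K) (F := F') Ph h0).1 hc
  have hbij : Function.Bijective (algebraMap (R ⧸ P.under R) (S ⧸ P)) :=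
    ⟨FaithfulSMul.algebraMap_injective _ _, hsurj⟩
  rw [← Module.finrank_self (R ⧸ P.under R)]
  exact ((AlgEquiv.ofBijective (Algebra.ofId (R ⧸ P.under R) (S ⧸ P)) hbij).toLinearEquiv.finrank_eq).symm

theorem hin_mem_primes (p : HeightOneSpectrum R) (P : Ideal S) :
    P ∈ IsDedekindDomain.primesOverFinset p.asIdeal S ↔ P.IsPrime ∧ P.LiesOver p.asIdeal :=
  haveI := p.isMaximal
  IsDedekindDomain.mem_primesOverFinset_iff p.ne_bot S

noncomputable def hinHos (p : HeightOneSpectrum R)
    (P : IsDedekindDomain.primesOverFinset p.asIdeal S) : HeightOneSpectrum S :=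
  ⟨P.1, ((hin_mem_primes p P.1).1 P.2).1,
    haveI := ((hin_mem_primes p P.1).1 P.2).2
    Ideal.ne_bot_of_liesOver_of_ne_bot p.ne_bot P.1⟩

theorem hinHos_liesOver (p : HeightOneSpectrum R)
    (P : IsDedekindDomain.primesOverFinset p.asIdeal S) :
    (hinHos p P).asIdeal.LiesOver p.asIdeal := ((hin_mem_primes p P.1).1 P.2).2

theorem hinHos_injective (p : HeightOneSpectrum R) :
    Function.Injective (hinHos (S := S) p) := by
  intro P Q h
  apply Subtype.ext
  exact congrArg HeightOneSpectrum.asIdeal h

theorem hin_pushforward_eq (hFF : IsFF K F) (hFF' : IsFF K F') (p : HeightOneSpectrum R)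
    (D : Divisor K F') :
    Divisor.pushforward F D (Place.ofHeightOneSpectrum (K := K) (F := F) p) =
      ∑ P ∈ (IsDedekindDomain.primesOverFinset p.asIdeal S).attach,
        D (Place.ofHeightOneSpectrum (K := K) (F := F') (hinHos p P)) := by
  classical
  rw [Divisor.pushforward_apply]
  simp only [hin_inertiaDeg_place hFF hFF', Nat.cast_one, mul_one]
  rw [← Finset.sum_filter]
  have h1 : ∑ P ∈ (IsDedekindDomain.primesOverFinset p.asIdeal S).attach,
        D (Place.ofHeightOneSpectrum (K := K) (F := F') (hinHos p P)) =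
      ∑ w ∈ (IsDedekindDomain.primesOverFinset p.asIdeal S).attach.image
        (fun P => Place.ofHeightOneSpectrum (K := K) (F := F') (hinHos p P)), D w :=
    (Finset.sum_image
      (fun P _ Q _ h => hinHos_injective p (ofHeightOneSpectrum_injective h))).symm
  rw [h1]
  apply Finset.sum_subset
  · intro w hw
    rw [Finset.mem_filter] at hw
    obtain ⟨P, hPl, rfl⟩ := hin_exists_prime (S := S) p w hw.2
    exact Finset.mem_image.2 ⟨⟨P.asIdeal, (hin_mem_primes p _).2 ⟨P.isPrime, hPl⟩⟩,
      Finset.mem_attach _ _, rfl⟩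
  · intro w hw hnot
    obtain ⟨P, -, rfl⟩ := Finset.mem_image.1 hw
    by_contra h
    apply hnot
    rw [Finset.mem_filter]
    haveI := hinHos_liesOver p P
    exact ⟨Finsupp.mem_support_iff.2 h, hin_restrict p (hinHos p P)⟩

theorem hin_norm_int [Module.Finite F F'] (hFF' : IsFF K F') (p : HeightOneSpectrum R)
    (b : S) (hb : b ≠ 0) :
    ∑ P ∈ (IsDedekindDomain.primesOverFinset p.asIdeal S).attach,
        (Place.ofHeightOneSpectrum (K := K) (F := F') (hinHos p P)).ord (algebraMap S F' b) =
      (Place.ofHeightOneSpectrum (K := K) (F := F) p).ord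
        (Algebra.norm F (algebraMap S F' b)) := by
  haveI : IsIntegralClosure S R F' := IsIntegralClosure.of_isIntegrallyClosed S R F'
  haveI : CharZero R := charZero_of_injective_algebraMap (algebraMap K R).injective
  haveI := p.isMaximal
  have hRnf : ¬ IsField R := Ring.not_isField_iff_exists_prime.2 ⟨p.asIdeal, p.ne_bot, p.isPrime⟩
  have hnorm := Algebra.algebraMap_intNorm (A := R) (K := F) (L := F') (B := S) b
  have hb' : algebraMap S F' b ≠ 0 := by
    rwa [Ne, map_eq_zero_iff _ (IsFractionRing.injective S F')]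
  have hr : Algebra.intNorm R S b ≠ 0 := by
    intro h0
    rw [h0, map_zero] at hnorm
    exact hb' (Algebra.norm_eq_zero_iff.1 hnorm.symm)
  rw [← hnorm, hin_ord_eq_multiplicity p hr, ← Ideal.relNorm_singleton,
    hmu_main (hin_inertiaDeg_ideal (K := K) (F' := F') hFF' hRnf) p.asIdeal p.ne_bot _
      (by simpa using hb)]
  push_cast
  rw [← Finset.sum_attach (IsDedekindDomain.primesOverFinset p.asIdeal S)
    (fun x => (multiplicity x (Ideal.span {b}) : ℤ))]
  apply Finset.sum_congr rfl
  intro P _
  exact hin_ord_eq_multiplicity (hinHos p P) hb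

variable (S) in
include S in
theorem hin_norm_ded [Module.Finite F F'] (hFF : IsFF K F) (hFF' : IsFF K F')
    (p : HeightOneSpectrum R) (f : F') (hf : f ≠ 0) (D : Divisor K F')
    (hD : ∀ w, D w = w.ord f) :
    Divisor.pushforward F D (Place.ofHeightOneSpectrum (K := K) (F := F) p) =
      (Place.ofHeightOneSpectrum (K := K) (F := F) p).ord (Algebra.norm F f) := by
  rw [hin_pushforward_eq (S := S) hFF hFF' p D]
  simp only [hD]
  obtain ⟨b1, b2, hb2, rfl⟩ := IsFractionRing.div_surjective (A := S) f
  have hb2' : b2 ≠ 0 := nonZeroDivisors.ne_zero hb2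
  have hb1' : b1 ≠ 0 := by
    rintro rfl
    simp at hf
  have h1 : algebraMap S F' b1 ≠ 0 := by
    rwa [Ne, map_eq_zero_iff _ (IsFractionRing.injective S F')]
  have h2 : algebraMap S F' b2 ≠ 0 := by
    rwa [Ne, map_eq_zero_iff _ (IsFractionRing.injective S F')]
  have hn1 : Algebra.norm F (algebraMap S F' b1) ≠ 0 := fun h => h1 (Algebra.norm_eq_zero_iff.1 h)
  have hn2 : Algebra.norm F (algebraMap S F' b2) ≠ 0 := fun h => h2 (Algebra.norm_eq_zero_iff.1 h)
  have hinv : Algebra.norm F (algebraMap S F' b2)⁻¹ = (Algebra.norm F (algebraMap S F' b2))⁻¹ :=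
    eq_inv_of_mul_eq_one_left (by rw [← map_mul, inv_mul_cancel₀ h2, map_one])
  rw [div_eq_mul_inv, map_mul, hinv, Place.ord_mul _ hn1 (inv_ne_zero hn2), Place.ord_inv,
    ← hin_norm_int hFF' p b1 hb1', ← hin_norm_int hFF' p b2 hb2', ← Finset.sum_neg_distrib,
    ← Finset.sum_add_distrib]
  apply Finset.sum_congr rfl
  intro P _
  rw [Place.ord_mul _ h1 (inv_ne_zero h2), Place.ord_inv]

end Ded

section Top

variable {K F F' : Type*} [Field K] [IsAlgClosed K] [CharZero K] [Field F] [Field F']
  [Algebra K F] [Algebra K F'] [Algebra F F'] [IsScalarTower K F F']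

theorem hin_pushforwardNormFormula [Module.Finite F F'] (hFF : IsFF K F) (hFF' : IsFF K F') :
    Divisor.PushforwardNormFormula K F F' := by
  intro f hf D hD v
  letI : Algebra v.toValuationSubring F' :=
    ((algebraMap F F').comp (algebraMap v.toValuationSubring F)).toAlgebra
  haveI : IsScalarTower v.toValuationSubring F F' := IsScalarTower.of_algebraMap_eq (fun _ => rfl)
  haveI : CharZero F := charZero_of_injective_algebraMap (algebraMap K F).injective
  haveI : IsDedekindDomain (integralClosure v.toValuationSubring F') :=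
    integralClosure.isDedekindDomain v.toValuationSubring F F'
  haveI : IsFractionRing (integralClosure v.toValuationSubring F') F' :=
    integralClosure.isFractionRing_of_finite_extension F F'
  haveI : Module.Finite v.toValuationSubring (integralClosure v.toValuationSubring F') :=
    IsIntegralClosure.finite v.toValuationSubring F F' _
  haveI : Module.IsTorsionFree v.toValuationSubring (integralClosure v.toValuationSubring F') := by
    rw [Module.isTorsionFree_iff_algebraMap_injective]
    intro a b hab
    have h1 : algebraMap v.toValuationSubring F' a = algebraMap v.toValuationSubring F' b :=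
      congrArg Subtype.val hab
    exact Subtype.ext ((algebraMap F F').injective h1)
  letI : Algebra K (integralClosure v.toValuationSubring F') :=
    ((algebraMap v.toValuationSubring (integralClosure v.toValuationSubring F')).comp
      (algebraMap K v.toValuationSubring)).toAlgebra
  haveI : IsScalarTower K v.toValuationSubring (integralClosure v.toValuationSubring F') :=
    IsScalarTower.of_algebraMap_eq (fun _ => rfl)
  haveI : IsScalarTower K (integralClosure v.toValuationSubring F') F' :=
    IsScalarTower.of_algebraMap_eq (fun k => by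
      rw [IsScalarTower.algebraMap_apply K F F']
      rfl)
  obtain ⟨p, hp⟩ := exists_eq_ofHeightOneSpectrum (B := v.toValuationSubring) v (fun b => b.2)
  rw [← hp]
  exact hin_norm_ded (integralClosure v.toValuationSubring F') hFF hFF' p f hf D hD

end Top
end Fermat.Agent.S37Lib
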