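import Fermat.Agent.S24.Final
import Fermat.Agent.S37.HinNorm
import Fermat.Agent.S37.FIofNF
import Fermat.Prelude.Def_ModularCurve_HeckeOperatorTotal

set_option autoImplicit false

/-!
# S37 [L8] : `HeckeInputsAlong ℚ̄ N ℓ`
-/

open AlgebraicCurve IntermediateField IsDedekindDomain

namespace Fermat.Agent.S37Lib

open Fermat.Agent.S24Lib

section Abs

variable {K F F' : Type*} [Field K] [IsAlgClosed K] [CharZero K] [Field F] [Field F']
  [Algebra K F] [Algebra K F']

theorem hin_hasPrincipalDivisors (hFF : IsFF K F) : HasPrincipalDivisors K F :=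
  ⟨fun _ hg => exists_principal_divisor hFF hg⟩

theorem hin_finiteAlong (hFF : IsFF K F) (hFF' : IsFF K F') (φ : F →ₐ[K] F') :
    FiniteAlong K φ := by
  obtain ⟨s, hs, -⟩ := hFF
  have hs' : Transcendental K (φ s) := by
    intro h
    exact hs ((isAlgebraic_algHom_iff φ φ.injective).1 h)
  have hfin := finiteDimensional_adjoin hFF' hs'
  have hrange : ∀ c : K⟮φ s⟯, ∃ c' : F, φ c' = c := by
    intro c
    have hle : K⟮φ s⟯ ≤ φ.fieldRange := adjoin_simple_le_iff.2 ⟨s, rfl⟩
    exact hle c.2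
  obtain ⟨S, hS⟩ := hfin
  letI := algebraAlong φ
  refine ⟨S, ?_⟩
  rw [eq_top_iff]
  intro x hx0
  clear hx0
  have hx : x ∈ Submodule.span K⟮φ s⟯ (S : Set F') := by rw [hS]; trivial
  induction hx using Submodule.span_induction with
  | mem y hy => exact Submodule.subset_span hy
  | zero => exact zero_mem _
  | add y z _ _ hy hz => exact add_mem hy hz
  | smul c y _ ih =>
    obtain ⟨c', hc'⟩ := hrange c
    have : c • y = c' • y := by
      rw [Algebra.smul_def, Algebra.smul_def]
      show (c : F') * y = φ c' * y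
      rw [hc']
    rw [this]
    exact Submodule.smul_mem _ _ ih

theorem hin_isIntegral (hFF : IsFF K F) (hFF' : IsFF K F') (φ : F →ₐ[K] F') :
    φ.toRingHom.IsIntegral := by
  have h := hin_finiteAlong hFF hFF' φ
  letI := algebraAlong φ
  haveI : Module.Finite F F' := h
  intro x
  exact Algebra.IsIntegral.isIntegral (R := F) x

theorem hin_normFormulaAlong (hFF : IsFF K F) (hFF' : IsFF K F') (φ : F →ₐ[K] F')
    (hfin : FiniteAlong K φ) : NormFormulaAlong K φ hfin := by
  letI := algebraAlong φ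
  haveI := isScalarTower_along φ
  haveI : Module.Finite F F' := hfin
  exact hin_pushforwardNormFormula hFF hFF'

theorem hin_fundamentalIdentityAlong (hFF : IsFF K F) (hFF' : IsFF K F') (φ : F →ₐ[K] F')
    (hφ : φ.toRingHom.IsIntegral) [HasPrincipalDivisors K F'] :
    FundamentalIdentityAlong K φ hφ :=
  fnf_FI_of_NF φ hφ (hin_finiteAlong hFF hFF' φ)
    (hin_normFormulaAlong hFF hFF' φ (hin_finiteAlong hFF hFF' φ))

end Abs

open ModularCurve

instance hin_instHPD (N : ℕ) [NeZero N] :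
    HasPrincipalDivisors Kb (laurentBaseChange Kb (modularFunctionFieldFull N)) :=
  hin_hasPrincipalDivisors (isFF N)

variable (N ℓ : ℕ) [NeZero N] [NeZero ℓ]

theorem hin_alpha_integral : HeckeAlphaBarIntegral Kb N ℓ :=
  hin_isIntegral (isFF N) (isFF (N * ℓ)) _

theorem hin_beta_integral : HeckeBetaBarIntegral Kb N ℓ :=
  hin_isIntegral (isFF N) (isFF (N * ℓ)) _

theorem hin_alpha_finite : FiniteAlong Kb (heckeAlphaBar Kb N ℓ) :=
  hin_finiteAlong (isFF N) (isFF (N * ℓ)) _

theorem hin_beta_finite : FiniteAlong Kb (heckeBetaBar Kb N ℓ) :=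
  hin_finiteAlong (isFF N) (isFF (N * ℓ)) _

theorem hin_beta_FI :
    FundamentalIdentityAlong Kb (heckeBetaBar Kb N ℓ) (hin_beta_integral N ℓ) :=
  hin_fundamentalIdentityAlong (isFF N) (isFF (N * ℓ)) _ _

theorem hin_alpha_norm : NormFormulaAlong Kb (heckeAlphaBar Kb N ℓ) (hin_alpha_finite N ℓ) :=
  hin_normFormulaAlong (isFF N) (isFF (N * ℓ)) _ _

theorem hin_main : HeckeInputsAlong Kb N ℓ :=
  heckeInputsAlong_intro (hin_alpha_integral N ℓ) (hin_beta_integral N ℓ) (hin_beta_FI N ℓ)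
    (hin_alpha_finite N ℓ) (hin_alpha_norm N ℓ)

theorem hin_heckeOperatorAlong_eq :
    heckeOperatorAlong Kb N ℓ = heckePic0Bar (hin_alpha_integral N ℓ) (hin_beta_integral N ℓ)
      (hin_beta_FI N ℓ) (hin_alpha_finite N ℓ) (hin_alpha_norm N ℓ) :=
  heckeOperatorAlong_eq _ _ _ _ _

end Fermat.Agent.S37Lib
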