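import Fermat.Agent.S24.Final
import Fermat.Prelude.Def_ModularCurve_HeckeOperatorTotal

set_option autoImplicit false
set_option linter.deprecated false
set_option linter.style.haveILetI false
set_option linter.unusedSectionVars false

open AlgebraicCurve IntermediateField IsDedekindDomain

namespace Fermat.Agent.S37Lib

open Fermat.Agent.S24Lib

section Ded

variable {K F F' : Type*} [Field K] [IsAlgClosed K] [CharZero K] [Field F] [Field F']
  [Algebra K F] [Algebra K F'] [Algebra F F'] [IsScalarTower K F F'] [Algebra.IsIntegral F F']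
variable {R S : Type*} [CommRing R] [IsDedekindDomain R] [Algebra R F] [IsFractionRing R F]
    [Algebra R F'] [IsScalarTower R F F']
    [CommRing S] [IsDedekindDomain S] [Algebra R S] [Algebra S F'] [IsScalarTower R S F']
    [IsFractionRing S F'] [Module.Finite R S] [Module.IsTorsionFree R S]
    [Algebra K S] [IsScalarTower K S F'] [Algebra K R] [IsScalarTower K R S] [IsScalarTower K R F]

theorem hin_ord_liesOver (p : HeightOneSpectrum R) (P : HeightOneSpectrum S)
    [P.asIdeal.LiesOver p.asIdeal] (f : F) :
    (Place.ofHeightOneSpectrum (K := K) (F := F') P).ord (algebraMap F F' f) =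
      (p.asIdeal.ramificationIdx' P.asIdeal : ℤ) *
        (Place.ofHeightOneSpectrum (K := K) (F := F) p).ord f := by
  rw [ord_ofHeightOneSpectrum, ord_ofHeightOneSpectrum,
    ← HeightOneSpectrum.valuation_liesOver F' p P f, WithZero.log_pow]
  simp

theorem hin_ram_pos (p : HeightOneSpectrum R) (P : HeightOneSpectrum S)
    [P.asIdeal.LiesOver p.asIdeal] : 0 < p.asIdeal.ramificationIdx' P.asIdeal :=
  Nat.pos_of_ne_zero (Ideal.IsDedekindDomain.ramificationIdx'_ne_zero_of_liesOver P.asIdeal p.ne_bot)

theorem hin_restrict (p : HeightOneSpectrum R) (P : HeightOneSpectrum S)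
    [P.asIdeal.LiesOver p.asIdeal] :
    (Place.ofHeightOneSpectrum (K := K) (F := F') P).restrict F =
      Place.ofHeightOneSpectrum (K := K) (F := F) p := by
  apply place_ext_of_ord
  intro f hf
  have h1 := (Place.ofHeightOneSpectrum (K := K) (F := F') P).ord_restrict (F := F) f
  rw [hin_ord_liesOver p P f] at h1
  have h2 := hin_ram_pos p P
  have h3 : 0 ≤ (p.asIdeal.ramificationIdx' P.asIdeal : ℤ) *
      (Place.ofHeightOneSpectrum (K := K) (F := F) p).ord f := by
    rw [h1]
    positivity
  by_contra hneg
  push Not at hneg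
  have : (p.asIdeal.ramificationIdx' P.asIdeal : ℤ) *
      (Place.ofHeightOneSpectrum (K := K) (F := F) p).ord f < 0 :=
    mul_neg_of_pos_of_neg (by exact_mod_cast h2) hneg
  omega

theorem hin_exists_ord_pos (p : HeightOneSpectrum R) :
    ∃ f : F, 0 < (Place.ofHeightOneSpectrum (K := K) (F := F) p).ord f := by
  obtain ⟨r, hr, hr0⟩ := Submodule.exists_mem_ne_zero_of_ne_bot p.ne_bot
  exact ⟨algebraMap R F r, (ord_ofHeightOneSpectrum_pos_iff p hr0).2 hr⟩

theorem hin_ramificationIndex (p : HeightOneSpectrum R) (P : HeightOneSpectrum S)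
    [P.asIdeal.LiesOver p.asIdeal] :
    (Place.ofHeightOneSpectrum (K := K) (F := F') P).ramificationIndex F =
      p.asIdeal.ramificationIdx' P.asIdeal := by
  obtain ⟨f, hf⟩ := hin_exists_ord_pos (K := K) (F := F) p
  have h1 := (Place.ofHeightOneSpectrum (K := K) (F := F') P).ord_restrict (F := F) f
  rw [hin_ord_liesOver p P f, hin_restrict p P] at h1
  have := mul_right_cancel₀ hf.ne' h1
  exact_mod_cast this.symm

theorem hin_exists_prime (p : HeightOneSpectrum R) (w : Place K F')
    (hw : w.restrict F = Place.ofHeightOneSpectrum (K := K) (F := F) p) :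
    ∃ P : HeightOneSpectrum S, P.asIdeal.LiesOver p.asIdeal ∧
      Place.ofHeightOneSpectrum (K := K) (F := F') P = w := by
  have hR : ∀ a : R, algebraMap R F' a ∈ w.toValuationSubring := by
    intro a
    rw [IsScalarTower.algebraMap_apply R F F', ← Place.mem_restrict_iff, hw]
    exact mem_toValuationSubring_of_ord_nonneg _ (ord_ofHeightOneSpectrum_nonneg p a)
  have hS : ∀ b : S, algebraMap S F' b ∈ w.toValuationSubring := by
    intro b
    exact mem_of_isIntegral w hR ((Algebra.IsIntegral.isIntegral (R := R) b).algebraMap)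
  obtain ⟨P, hP⟩ := exists_eq_ofHeightOneSpectrum (B := S) w hS
  refine ⟨P, ⟨?_⟩, hP⟩
  ext r
  rw [Ideal.mem_comap]
  by_cases hr : r = 0
  · simp [hr]
  have hr' : algebraMap R S r ≠ 0 := by
    rwa [Ne, map_eq_zero_iff _ (FaithfulSMul.algebraMap_injective R S)]
  rw [← ord_ofHeightOneSpectrum_pos_iff (K := K) (F := F) p hr,
    ← ord_ofHeightOneSpectrum_pos_iff (K := K) (F := F') P hr', hP,
    ← IsScalarTower.algebraMap_apply R S F', IsScalarTower.algebraMap_apply R F F',
    w.ord_restrict (F := F), hw]
  have := w.ramificationIndex_pos (F := F)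
  constructor
  · intro h
    positivity
  · intro h
    by_contra hneg
    push Not at hneg
    have : (w.ramificationIndex F : ℤ) *
        (Place.ofHeightOneSpectrum (K := K) (F := F) p).ord (algebraMap R F r) ≤ 0 :=
      mul_nonpos_of_nonneg_of_nonpos (by positivity) hneg
    omega

end Ded
end Fermat.Agent.S37Lib
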