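import Fermat.Agent.S24.Final
import Fermat.Prelude.Def_ModularCurve_HeckeOperatorTotal

set_option autoImplicit false
set_option linter.style.haveILetI false
set_option linter.unusedSectionVars false

/-!
# S37 [L8, part] : Dedekind models at a place of the base field of a finite extension
-/

open AlgebraicCurve IntermediateField IsDedekindDomain

namespace Fermat.Agent.S37Lib

open Fermat.Agent.S24Lib

universe u1 u2 u3

section Abs

variable {K : Type u1} {F : Type u2} {F' : Type u3} [Field K] [CharZero K] [Field F] [Field F']
  [Algebra K F] [Algebra K F']

theorem hnt_place_eq (v : Place K F) :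
    Place.ofHeightOneSpectrum (K := K) (F := F) v.heightOneSpectrum = v := by
  obtain ⟨P, hP⟩ := exists_eq_ofHeightOneSpectrum (B := v.toValuationSubring) v (fun b => b.2)
  have : P = v.heightOneSpectrum := by
    ext1
    rw [Place.heightOneSpectrum_asIdeal]
    exact (IsLocalRing.eq_maximalIdeal (P.isMaximal))
  rw [← this, hP]

/-- Every place `v` of `F` comes from a height one prime of a Dedekind domain `R` with fraction
field `F` whose integral closure `S` in `F'` is a finite `R`-module (eliminator form). -/
theorem hnt_reduce [Algebra F F'] [IsScalarTower K F F'] [Module.Finite F F'] (v : Place K F)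
    (motive : Prop)
    (H : ∀ (R : Type u2) (S : Type u3) [CommRing R] [IsDedekindDomain R] [Algebra R F]
      [IsFractionRing R F] [Algebra R F'] [IsScalarTower R F F'] [CommRing S] [IsDedekindDomain S]
      [Algebra R S] [Algebra S F'] [IsScalarTower R S F'] [IsFractionRing S F'] [Module.Finite R S]
      [Module.IsTorsionFree R S] [Algebra K S] [IsScalarTower K S F'] [Algebra K R]
      [IsScalarTower K R S] [IsScalarTower K R F] (p : HeightOneSpectrum R),
      Place.ofHeightOneSpectrum (K := K) (F := F) p = v → motive) : motive := by
  haveI : CharZero F := charZero_of_injective_algebraMap (algebraMap K F).injective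
  haveI : Algebra.IsIntegral F F' := Algebra.IsIntegral.of_finite F F'
  haveI : Algebra.IsSeparable F F' := inferInstance
  let R := v.toValuationSubring
  letI : Algebra R F' := ((algebraMap F F').comp (algebraMap R F)).toAlgebra
  haveI : IsScalarTower R F F' := IsScalarTower.of_algebraMap_eq fun _ => rfl
  let S := integralClosure R F'
  haveI : IsDedekindDomain S := integralClosure.isDedekindDomain R F F'
  haveI : IsFractionRing S F' := integralClosure.isFractionRing_of_finite_extension F F'
  haveI : Module.Finite R S := IsIntegralClosure.finite R F F' S
  haveI : Module.IsTorsionFree R F' := .trans_faithfulSMul R F F'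
  haveI : Module.IsTorsionFree R S := IsIntegralClosure.isTorsionFree R F'
  letI : Algebra K S := ((algebraMap R S).comp (algebraMap K R)).toAlgebra
  haveI : IsScalarTower K R S := IsScalarTower.of_algebraMap_eq fun _ => rfl
  haveI : IsScalarTower K S F' := IsScalarTower.of_algebraMap_eq fun a => by
    rw [IsScalarTower.algebraMap_apply K F F']
    rfl
  exact H R S v.heightOneSpectrum (hnt_place_eq v)

end Abs

end Fermat.Agent.S37Lib
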