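import Fermat.Agent.S24.Final
import Fermat.Prelude.Def_AlgebraicCurve_Correspondence

set_option autoImplicit false

/-!
# S37 [L8, norm formula] : `PushforwardNormFormula` for function fields over an
algebraically closed field of characteristic zero
-/

open AlgebraicCurve IntermediateField IsDedekindDomain

namespace Fermat.Agent.S37Lib

open Fermat.Agent.S24Lib

theorem nmf_relNorm
    (R B : Type*) [CommRing R] [IsDomain R] [IsDiscreteValuationRing R]
    [CommRing B] [IsDedekindDomain B] [Algebra R B] [Module.Finite R B] [Module.IsTorsionFree R B]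
    [PerfectField (FractionRing R)]
    (hsurj : ∀ P : Ideal B, P.IsMaximal → ∀ b : B, ∃ r : R, b - algebraMap R B r ∈ P)
    (b : B) (hb : b ≠ 0) :
    Ideal.span {Algebra.intNorm R B b}
      = IsLocalRing.maximalIdeal R ^
        (UniqueFactorizationMonoid.normalizedFactors (Ideal.span {b})).card := by
  have hI : Ideal.span {b} ≠ ⊥ := by simpa using hb
  rw [← Ideal.relNorm_singleton]
  conv_lhs => rw [← Ideal.prod_normalizedFactors_eq_self hI]
  rw [map_multiset_prod]
  rw [Multiset.eq_replicate_of_mem (a := IsLocalRing.maximalIdeal R)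
    (s := Multiset.map (Ideal.relNorm R)
      (UniqueFactorizationMonoid.normalizedFactors (Ideal.span {b}))) ?_,
    Multiset.prod_replicate, Multiset.card_map]
  intro J hJ
  rw [Multiset.mem_map] at hJ
  obtain ⟨P, hP, rfl⟩ := hJ
  have hPprime : Prime P := UniqueFactorizationMonoid.prime_of_normalized_factor P hP
  have hP0 : P ≠ ⊥ := hPprime.ne_zero
  have hPp : P.IsPrime := Ideal.isPrime_of_prime hPprime
  have hPmax : P.IsMaximal := hPp.isMaximal hP0
  have hint : Algebra.IsIntegral R B := Algebra.IsIntegral.of_finite R B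
  have hmax' : (P.under R).IsMaximal := Ideal.isMaximal_comap_of_isIntegral_of_isMaximal P
  have hlo : P.LiesOver (IsLocalRing.maximalIdeal R) :=
    ⟨(IsLocalRing.eq_maximalIdeal hmax').symm⟩
  rw [Ideal.relNorm_eq_pow_of_isMaximal P (IsLocalRing.maximalIdeal R),
    Ideal.inertiaDeg_eq_of_isMaximal (IsLocalRing.maximalIdeal R) P]
  have hs : Function.Surjective (algebraMap (R ⧸ IsLocalRing.maximalIdeal R) (B ⧸ P)) := by
    intro x
    obtain ⟨b, rfl⟩ := Ideal.Quotient.mk_surjective x
    obtain ⟨r, hr⟩ := hsurj P hPmax b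
    refine ⟨Ideal.Quotient.mk _ r, ?_⟩
    rw [Ideal.Quotient.algebraMap_mk_of_liesOver, eq_comm, Ideal.Quotient.eq]
    exact hr
  have hbij : Function.Bijective (algebraMap (R ⧸ IsLocalRing.maximalIdeal R) (B ⧸ P)) :=
    ⟨FaithfulSMul.algebraMap_injective _ _, hs⟩
  have h1 : Module.finrank (R ⧸ IsLocalRing.maximalIdeal R) (B ⧸ P) = 1 := by
    rw [← Module.finrank_self (R ⧸ IsLocalRing.maximalIdeal R)]
    exact ((AlgEquiv.ofBijective (Algebra.ofId (R ⧸ IsLocalRing.maximalIdeal R) (B ⧸ P))
      hbij).toLinearEquiv.finrank_eq).symm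
  rw [h1, pow_one]

theorem nmf_count {K F' : Type*} [Field K] [Field F'] [Algebra K F']
    {B : Type*} [CommRing B] [IsDedekindDomain B] [Algebra B F'] [IsFractionRing B F']
    [Algebra K B] [IsScalarTower K B F'] [DecidableEq (Ideal B)]
    (P : HeightOneSpectrum B) (b : B) (hb : b ≠ 0) :
    (Place.ofHeightOneSpectrum (K := K) (F := F') P).ord (algebraMap B F' b)
      = ((UniqueFactorizationMonoid.normalizedFactors (Ideal.span {b})).count P.asIdeal : ℤ) := by
  have hnn := ord_ofHeightOneSpectrum_nonneg (K := K) (F := F') P b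
  have h := UniqueFactorizationMonoid.count_normalizedFactors_eq (p := P.asIdeal)
    (x := Ideal.span {b})
    (n := ((Place.ofHeightOneSpectrum (K := K) (F := F') P).ord (algebraMap B F' b)).toNat)
    P.irreducible (normalize_eq _) ?_ ?_
  · rw [h]
    omega
  · rw [Ideal.dvd_iff_le, Ideal.span_singleton_le_iff_mem]
    refine (le_ord_ofHeightOneSpectrum_iff (K := K) (F := F') P hb _).1 ?_
    omega
  · rw [Ideal.dvd_iff_le, Ideal.span_singleton_le_iff_mem]
    intro hmem
    have := (le_ord_ofHeightOneSpectrum_iff (K := K) (F := F') P hb _).2 hmem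
    push_cast at this
    omega

theorem nmf_aux {K F' : Type*} [Field K] [IsAlgClosed K] [Field F'] [Algebra K F']
    (hFF' : IsFF K F')
    (R B : Type*) [CommRing R] [IsDomain R] [IsDiscreteValuationRing R]
    [CommRing B] [IsDedekindDomain B] [Algebra R B] [Algebra B F']
    [IsFractionRing B F'] [Module.Finite R B] [Module.IsTorsionFree R B]
    [Algebra K B] [IsScalarTower K B F'] [Algebra K R] [IsScalarTower K R B]
    [PerfectField (FractionRing R)] :
    ∃ T : Finset (Place K F'),
      (∀ w, w ∈ T ↔ ∀ b : B, algebraMap B F' b ∈ w.toValuationSubring) ∧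
      ∀ b : B, b ≠ 0 → ∃ n : ℕ, (n : ℤ) = ∑ w ∈ T, w.ord (algebraMap B F' b) ∧
        Ideal.span {Algebra.intNorm R B b} = IsLocalRing.maximalIdeal R ^ n := by
  classical
  obtain ⟨p, hp⟩ : ∃ p : Ideal R, p = IsLocalRing.maximalIdeal R := ⟨_, rfl⟩
  have hp0 : p ≠ ⊥ := by
    rw [hp]
    exact IsDiscreteValuationRing.not_a_field R
  have hpmax : p.IsMaximal := by
    rw [hp]
    infer_instance
  have hint : Algebra.IsIntegral R B := Algebra.IsIntegral.of_finite R B
  have hlies : ∀ P : Ideal B, P.IsMaximal → P.LiesOver p := by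
    intro P hP
    have hmax' : (P.under R).IsMaximal := Ideal.isMaximal_comap_of_isIntegral_of_isMaximal P
    exact ⟨by rw [hp]; exact (IsLocalRing.eq_maximalIdeal hmax').symm⟩
  have hS : ∀ P : Ideal B, P ∈ IsDedekindDomain.primesOverFinset p B ↔ P.IsPrime ∧ P.LiesOver p :=
    fun P => IsDedekindDomain.mem_primesOverFinset_iff hp0 B
  let hos : (IsDedekindDomain.primesOverFinset p B) → HeightOneSpectrum B := fun P =>
    ⟨P.1, ((hS P.1).1 P.2).1,
      haveI := ((hS P.1).1 P.2).2
      Ideal.ne_bot_of_liesOver_of_ne_bot hp0 P.1⟩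
  have hosinj : Function.Injective hos := by
    intro P Q h
    apply Subtype.ext
    exact congrArg HeightOneSpectrum.asIdeal h
  refine ⟨(IsDedekindDomain.primesOverFinset p B).attach.image
    (fun P => Place.ofHeightOneSpectrum (K := K) (F := F') (hos P)), ?_, ?_⟩
  · intro w
    simp only [Finset.mem_image, Finset.mem_attach, true_and]
    constructor
    · rintro ⟨P, rfl⟩ b
      exact mem_toValuationSubring_of_ord_nonneg _
        (ord_ofHeightOneSpectrum_nonneg (K := K) (F := F') (hos P) b)
    · intro hw
      obtain ⟨P, rfl⟩ := exists_eq_ofHeightOneSpectrum (B := B) w hw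
      exact ⟨⟨P.asIdeal, (hS _).2 ⟨P.isPrime, hlies _ P.isMaximal⟩⟩, rfl⟩
  · intro b hb
    refine ⟨_, ?_, nmf_relNorm R B ?_ b hb⟩
    · rw [Finset.sum_image (fun P _ Q _ h => hosinj (ofHeightOneSpectrum_injective h))]
      have h1 : ∀ P ∈ (IsDedekindDomain.primesOverFinset p B).attach,
          (Place.ofHeightOneSpectrum (K := K) (F := F') (hos P)).ord (algebraMap B F' b)
          = ((UniqueFactorizationMonoid.normalizedFactors (Ideal.span {b})).count P.1 : ℤ) :=
        fun P _ => nmf_count (hos P) b hb
      rw [Finset.sum_congr rfl h1,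
        Finset.sum_attach (IsDedekindDomain.primesOverFinset p B)
          (fun P => ((UniqueFactorizationMonoid.normalizedFactors (Ideal.span {b})).count P : ℤ)),
        ← Nat.cast_sum, Multiset.sum_count_eq_card]
      intro P hP
      have hPprime : Prime P := UniqueFactorizationMonoid.prime_of_normalized_factor P hP
      have hPp : P.IsPrime := Ideal.isPrime_of_prime hPprime
      exact (hS P).2 ⟨hPp, hlies P (hPp.isMaximal hPprime.ne_zero)⟩
    · intro P hP b
      have hP0 : P ≠ ⊥ := by
        have := hlies P hP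
        exact Ideal.ne_bot_of_liesOver_of_ne_bot hp0 P
      let P' : HeightOneSpectrum B := ⟨P, hP.isPrime, hP0⟩
      obtain ⟨c, hc⟩ := exists_sub_algebraMap_ord_pos hFF'
        (Place.ofHeightOneSpectrum (K := K) (F := F') P')
        (ord_ofHeightOneSpectrum_nonneg (K := K) (F := F') P' b)
      refine ⟨algebraMap K R c, ?_⟩
      rw [← IsScalarTower.algebraMap_apply K R B]
      have hcF : algebraMap K F' c = algebraMap B F' (algebraMap K B c) :=
        IsScalarTower.algebraMap_apply K B F' c
      rcases hc with hc | hc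
      · rw [hcF] at hc
        have := IsFractionRing.injective B F' hc
        rw [this, sub_self]
        exact zero_mem _
      · rw [hcF, ← map_sub] at hc
        by_cases h0 : b - algebraMap K B c = 0
        · rw [h0]
          exact zero_mem _
        exact (ord_ofHeightOneSpectrum_pos_iff (K := K) (F := F') P' h0).1 hc

theorem nmf_mid {K F F' : Type*} [Field K] [IsAlgClosed K] [CharZero K] [Field F] [Field F']
    [Algebra K F] [Algebra K F'] [Algebra F F'] [IsScalarTower K F F'] [Module.Finite F F']
    (hFF' : IsFF K F')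
    (R : Type*) [CommRing R] [IsDomain R] [IsDiscreteValuationRing R] [Algebra R F]
    [IsFractionRing R F] [Algebra R F'] [IsScalarTower R F F'] [Algebra K R]
    [IsScalarTower K R F'] :
    ∃ T : Finset (Place K F'),
      (∀ w, w ∈ T ↔ ∀ r : R, algebraMap R F' r ∈ w.toValuationSubring) ∧
      ∀ f : F', f ≠ 0 → ∃ (r s : R) (n m : ℕ),
        Ideal.span {r} = IsLocalRing.maximalIdeal R ^ n ∧
        Ideal.span {s} = IsLocalRing.maximalIdeal R ^ m ∧
        Algebra.norm F f * algebraMap R F s = algebraMap R F r ∧
        ∑ w ∈ T, w.ord f = (n : ℤ) - m := by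
  have hcF : CharZero F := charZero_of_injective_algebraMap (algebraMap K F).injective
  have hcR : CharZero R := charZero_of_injective_algebraMap (algebraMap K R).injective
  have hcFr : CharZero (FractionRing R) :=
    charZero_of_injective_algebraMap (IsFractionRing.injective R (FractionRing R))
  have hinj : Function.Injective (algebraMap R F') := by
    rw [IsScalarTower.algebraMap_eq R F F']
    exact (algebraMap F F').injective.comp (IsFractionRing.injective R F)
  have hTF : Module.IsTorsionFree R F' := Module.isTorsionFree_iff_algebraMap_injective.mpr hinj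
  have hD : IsDedekindDomain (integralClosure R F') := integralClosure.isDedekindDomain R F F'
  have hFr : IsFractionRing (integralClosure R F') F' :=
    integralClosure.isFractionRing_of_finite_extension F F'
  have hMF : Module.Finite R (integralClosure R F') := IsIntegralClosure.finite R F F' _
  obtain ⟨T, hT, hN⟩ := nmf_aux hFF' R (integralClosure R F')
  refine ⟨T, ?_, ?_⟩
  · intro w
    rw [hT]
    constructor
    · intro h r
      exact h (algebraMap R (integralClosure R F') r)
    · intro h b
      exact mem_of_isIntegral w h b.2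
  · intro f hf
    obtain ⟨a, c, hc, rfl⟩ := IsFractionRing.div_surjective (A := integralClosure R F') f
    have hc0 : c ≠ 0 := nonZeroDivisors.ne_zero hc
    have ha0 : a ≠ 0 := by
      rintro rfl
      simp at hf
    have hcF0 : algebraMap (integralClosure R F') F' c ≠ 0 := by
      rwa [Ne, map_eq_zero_iff _ (IsFractionRing.injective (integralClosure R F') F')]
    have haF0 : algebraMap (integralClosure R F') F' a ≠ 0 := by
      rwa [Ne, map_eq_zero_iff _ (IsFractionRing.injective (integralClosure R F') F')]
    obtain ⟨n, hn, hn'⟩ := hN a ha0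
    obtain ⟨m, hm, hm'⟩ := hN c hc0
    refine ⟨_, _, n, m, hn', hm', ?_, ?_⟩
    · rw [Algebra.algebraMap_intNorm (K := F) (L := F') a,
        Algebra.algebraMap_intNorm (K := F) (L := F') c, ← map_mul,
        div_mul_cancel₀ _ hcF0]
    · rw [hn, hm, ← Finset.sum_sub_distrib]
      apply Finset.sum_congr rfl
      intro w _
      rw [div_eq_mul_inv, Place.ord_mul w haF0 (inv_ne_zero hcF0), Place.ord_inv]
      ring

theorem nmf_ord_of_span {K F : Type*} [Field K] [Field F] [Algebra K F] (v : Place K F)
    (r : v.toValuationSubring) (n : ℕ)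
    (h : Ideal.span {r} = IsLocalRing.maximalIdeal v.toValuationSubring ^ n) :
    (r : F) ≠ 0 ∧ v.ord (r : F) = n := by
  obtain ⟨π, hπ⟩ := IsDiscreteValuationRing.exists_irreducible v.toValuationSubring
  rw [hπ.maximalIdeal_eq, Ideal.span_singleton_pow, Ideal.span_singleton_eq_span_singleton] at h
  obtain ⟨u, hu⟩ := h.symm
  have h1 : (r : F) = ((u : v.toValuationSubring) : F) * (π : F) ^ (n : ℤ) := by
    rw [← hu, zpow_natCast, mul_comm]
    rfl
  constructor
  · rw [← hu]
    have h2 : π ^ n * (u : v.toValuationSubring) ≠ 0 :=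
      mul_ne_zero (pow_ne_zero _ hπ.ne_zero) u.ne_zero
    exact fun h0 => h2 (Subtype.ext h0)
  · rw [h1, v.ord_unit_smul_zpow u hπ]

theorem nmf_main {K F F' : Type*} [Field K] [IsAlgClosed K] [CharZero K] [Field F] [Field F']
    [Algebra K F] [Algebra K F'] [Algebra F F'] [IsScalarTower K F F'] [Module.Finite F F']
    (hFF : IsFF K F) (hFF' : IsFF K F') : Divisor.PushforwardNormFormula K F F' := by
  classical
  intro f hf D hD v
  let _ : Algebra v.toValuationSubring F' :=
    ((algebraMap F F').comp v.toValuationSubring.subtype).toAlgebra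
  have : IsScalarTower v.toValuationSubring F F' := IsScalarTower.of_algebraMap_eq (fun _ => rfl)
  have : IsScalarTower K v.toValuationSubring F' :=
    IsScalarTower.of_algebraMap_eq (fun a => IsScalarTower.algebraMap_apply K F F' a)
  obtain ⟨T, hT, hN⟩ := nmf_mid (F := F) hFF' v.toValuationSubring
  obtain ⟨r, s, n, m, hr, hs, hnorm, hsum⟩ := hN f hf
  have hTv : ∀ w, w ∈ T ↔ w.restrict F = v := by
    intro w
    rw [hT]
    constructor
    · intro h
      refine (place_ext_of_ord v (w.restrict F) fun g hg => ?_).symm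
      apply ord_nonneg_of_mem
      rw [Place.mem_restrict_iff]
      exact h ⟨g, mem_toValuationSubring_of_ord_nonneg v hg⟩
    · rintro rfl r
      exact (Place.mem_restrict_iff w).mp r.2
  obtain ⟨hr0, hrn⟩ := nmf_ord_of_span v r n hr
  obtain ⟨hs0, hsm⟩ := nmf_ord_of_span v s m hs
  have hnf : Algebra.norm F f ≠ 0 := Algebra.norm_ne_zero_iff.mpr hf
  have hR : v.ord (Algebra.norm F f) = (n : ℤ) - m := by
    have h1 : Algebra.norm F f * (s : F) = (r : F) := hnorm
    have h2 := Place.ord_mul v hnf hs0
    rw [h1, hrn, hsm] at h2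
    omega
  rw [hR, ← hsum, Divisor.pushforward_apply, ← Finset.sum_filter]
  have hi : ∀ w : Place K F', w.inertiaDeg F = 1 := by
    intro w
    have h := w.deg_restrict_mul_inertiaDeg (F := F)
    rw [deg_eq_one hFF, deg_eq_one hFF', one_mul] at h
    exact h
  rw [← Finset.sum_subset (s₁ := D.support.filter (fun w => w.restrict F = v)) (s₂ := T)]
  · apply Finset.sum_congr rfl
    intro w _
    rw [hi, hD]
    simp
  · intro w hw
    rw [Finset.mem_filter] at hw
    exact (hTv w).2 hw.2
  · intro w hw hw'
    rw [Finset.mem_filter, not_and] at hw'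
    by_contra h0
    apply hw' _ ((hTv w).1 hw)
    rw [Finsupp.mem_support_iff, hD]
    exact h0

/-- the norm formula along an embedding of function fields (leaf of `HeckeInputsAlong`). -/
theorem nmf_along {K F F' : Type*} [Field K] [IsAlgClosed K] [CharZero K] [Field F] [Field F']
    [Algebra K F] [Algebra K F'] (hFF : IsFF K F) (hFF' : IsFF K F') (φ : F →ₐ[K] F')
    (hfin : FiniteAlong K φ) : NormFormulaAlong K φ hfin := by
  letI := algebraAlong φ
  haveI := isScalarTower_along φ
  haveI : Module.Finite F F' := hfin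
  exact nmf_main hFF hFF'

end Fermat.Agent.S37Lib
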