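import Fermat.Agent.S14.NormVal

/-!
# S37 : valuation of a norm, for a finite extension of Dedekind domains
(generalisation of `S14/NormVal.lean`)
-/

set_option autoImplicit false
set_option linter.style.haveILetI false
set_option linter.unusedSectionVars false

open IsDedekindDomain nonZeroDivisors

namespace Fermat.Agent.S37Lib

open Fermat.Agent.S14Lib (intValuation_eq_exp_neg_count exp_finset_sum)

variable {R S K L : Type*} [CommRing R] [IsDedekindDomain R] [CommRing S] [IsDedekindDomain S]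
  [Algebra R S] [Module.Finite R S] [Module.IsTorsionFree R S]
  [Field K] [Field L] [Algebra R K] [IsFractionRing R K] [Algebra S L] [IsFractionRing S L]
  [Algebra K L] [Algebra R L] [IsScalarTower R K L] [IsScalarTower R S L]
  [PerfectField (FractionRing R)]

open UniqueFactorizationMonoid in
theorem nv_count_relNorm (v : HeightOneSpectrum R) (s : Finset (HeightOneSpectrum S))
    (hs : ∀ w, w ∈ s ↔ w.asIdeal.LiesOver v.asIdeal) (I : Ideal S) (hI : I ≠ ⊥) :
    FractionalIdeal.count K v ((Ideal.relNorm R I : Ideal R) : FractionalIdeal R⁰ K) =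
      ∑ w ∈ s, (v.asIdeal.inertiaDeg' w.asIdeal : ℤ) *
        FractionalIdeal.count L w (I : FractionalIdeal S⁰ L) := by
  classical
  rw [← Ideal.prod_normalizedFactors_eq_self hI]
  refine (Multiset.prod_induction (fun I : Ideal S => I ≠ ⊥ ∧
    FractionalIdeal.count K v ((Ideal.relNorm R I : Ideal R) : FractionalIdeal R⁰ K) =
      ∑ w ∈ s, (v.asIdeal.inertiaDeg' w.asIdeal : ℤ) *
        FractionalIdeal.count L w (I : FractionalIdeal S⁰ L)) _ ?_ ?_ ?_).2
  · rintro I J ⟨hI0, hI⟩ ⟨hJ0, hJ⟩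
    refine ⟨mul_ne_zero hI0 hJ0, ?_⟩
    have h1 : (Ideal.relNorm R I : Ideal R) ≠ ⊥ := by rwa [Ne, Ideal.relNorm_eq_bot_iff]
    have h2 : (Ideal.relNorm R J : Ideal R) ≠ ⊥ := by rwa [Ne, Ideal.relNorm_eq_bot_iff]
    rw [map_mul, FractionalIdeal.coeIdeal_mul, FractionalIdeal.count_mul K v
      (FractionalIdeal.coeIdeal_ne_zero.mpr h1) (FractionalIdeal.coeIdeal_ne_zero.mpr h2), hI, hJ,
      ← Finset.sum_add_distrib]
    apply Finset.sum_congr rfl
    intro w _
    rw [FractionalIdeal.coeIdeal_mul, FractionalIdeal.count_mul L w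
      (FractionalIdeal.coeIdeal_ne_zero.mpr hI0) (FractionalIdeal.coeIdeal_ne_zero.mpr hJ0), mul_add]
  · refine ⟨one_ne_zero, ?_⟩
    simp [FractionalIdeal.count_one]
  · intro Q hQ
    have hQ' : Q ≠ ⊥ := ne_zero_of_mem_normalizedFactors hQ
    refine ⟨hQ', ?_⟩
    rw [Ideal.mem_normalizedFactors_iff hI] at hQ
    haveI hQp : Q.IsPrime := hQ.1
    haveI : Q.IsMaximal := Ring.DimensionLEOne.maximalOfPrime hQ' hQ.1
    set P := Ideal.under R Q with hP
    have hP0 : P ≠ ⊥ := Ideal.IsIntegral.comap_ne_bot R hQ'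
    haveI hPp : P.IsPrime := Ideal.IsPrime.under R Q
    haveI : P.IsMaximal := Ring.DimensionLEOne.maximalOfPrime hP0 hPp
    let wQ : HeightOneSpectrum S := ⟨Q, hQp, hQ'⟩
    let vP : HeightOneSpectrum R := ⟨P, hPp, hP0⟩
    have hcQ : ∀ w : HeightOneSpectrum S,
        FractionalIdeal.count L w (Q : FractionalIdeal S⁰ L) = if wQ = w then 1 else 0 :=
      fun w => FractionalIdeal.count_maximal L w wQ
    have hcP : FractionalIdeal.count K v (P : FractionalIdeal R⁰ K) = if vP = v then 1 else 0 :=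
      FractionalIdeal.count_maximal K v vP
    rw [Ideal.relNorm_eq_pow_of_isMaximal Q P, FractionalIdeal.coeIdeal_pow,
      FractionalIdeal.count_pow, hcP]
    simp only [hcQ, mul_ite, mul_one, mul_zero, Finset.sum_ite_eq]
    by_cases hv : vP = v
    · have hmem : wQ ∈ s := by
        rw [hs, ← hv]
        exact ⟨rfl⟩
      rw [if_pos hv, if_pos hmem, ← hv]
      haveI : wQ.asIdeal.LiesOver vP.asIdeal := ⟨rfl⟩
      haveI : vP.asIdeal.IsMaximal := ‹P.IsMaximal›
      haveI : wQ.asIdeal.IsMaximal := ‹Q.IsMaximal›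
      rw [Ideal.inertiaDeg'_eq_inertiaDeg vP.asIdeal wQ.asIdeal]
    · have hmem : wQ ∉ s := by
        rw [hs]
        intro h
        apply hv
        ext1
        exact h.over.symm
      rw [if_neg hv, if_neg hmem]

theorem nv_val_norm_int [FiniteDimensional K L] (v : HeightOneSpectrum R)
    (s : Finset (HeightOneSpectrum S))
    (hs : ∀ w, w ∈ s ↔ w.asIdeal.LiesOver v.asIdeal) (a : S) (ha : a ≠ 0) :
    v.valuation K (Algebra.norm K (algebraMap S L a)) =
      ∏ w ∈ s, (w.valuation L (algebraMap S L a)) ^ (v.asIdeal.inertiaDeg' w.asIdeal) := by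
  have h1 : Algebra.norm K (algebraMap S L a) = algebraMap R K (Algebra.intNorm R S a) :=
    (Algebra.algebraMap_intNorm (A := R) (K := K) (L := L) (B := S) a).symm
  have hn0 : Algebra.intNorm R S a ≠ 0 := by
    rwa [Ne, Algebra.intNorm_eq_zero]
  have hI : Ideal.span {a} ≠ ⊥ := by rwa [Ne, Ideal.span_singleton_eq_bot]
  rw [h1, v.valuation_of_algebraMap, intValuation_eq_exp_neg_count (K := K) v hn0,
    ← Ideal.relNorm_singleton, nv_count_relNorm (L := L) v s hs _ hI, ← Finset.sum_neg_distrib,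
    exp_finset_sum]
  apply Finset.prod_congr rfl
  intro w _
  have h2 : w.valuation L (algebraMap S L a) = w.intValuation a := w.valuation_of_algebraMap a
  rw [h2, intValuation_eq_exp_neg_count (K := L) w ha, ← WithZero.exp_nsmul]
  congr 1
  simp

theorem nv_val_norm [FiniteDimensional K L] (v : HeightOneSpectrum R)
    (s : Finset (HeightOneSpectrum S))
    (hs : ∀ w, w ∈ s ↔ w.asIdeal.LiesOver v.asIdeal) (β : L) (hβ : β ≠ 0) :
    v.valuation K (Algebra.norm K β) =
      ∏ w ∈ s, (w.valuation L β) ^ (v.asIdeal.inertiaDeg' w.asIdeal) := by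
  obtain ⟨a, b, hb, rfl⟩ := IsFractionRing.div_surjective (A := S) β
  have hb0 : b ≠ 0 := nonZeroDivisors.ne_zero hb
  have ha0 : a ≠ 0 := by
    rintro rfl
    simp at hβ
  have hb0' : algebraMap S L b ≠ 0 := by
    rwa [Ne, FaithfulSMul.algebraMap_eq_zero_iff]
  have hdiv : Algebra.norm K (algebraMap S L a / algebraMap S L b) =
      Algebra.norm K (algebraMap S L a) / Algebra.norm K (algebraMap S L b) := by
    rw [eq_div_iff (Algebra.norm_ne_zero_iff.mpr hb0'), ← map_mul, div_mul_cancel₀ _ hb0']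
  rw [hdiv, map_div₀]
  have h1 := nv_val_norm_int (K := K) (L := L) v s hs a ha0
  have h2 := nv_val_norm_int (K := K) (L := L) v s hs b hb0
  rw [h1, h2, ← Finset.prod_div_distrib]
  apply Finset.prod_congr rfl
  intro w _
  rw [map_div₀, div_pow]

end Fermat.Agent.S37Lib
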