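import Fermat.Agent.S24.Principal
import Fermat.Prelude.Def_AlgebraicCurve_Repartitions

set_option autoImplicit false

/-!
# S37 [L3] : Riemann's inequality for a function field over an algebraically closed field

`rr_main`    : there is `g` such that every divisor of degree `≥ g` has a nonzero section;
`rr_bounded` : every divisor of degree `0` is `E - g P₀ - div h`, `E ≥ 0` of degree `g`.
-/

namespace Fermat.Agent.S37Lib

open AlgebraicCurve IntermediateField Fermat.Agent.S24Lib

variable {K F : Type*} [Field K] [IsAlgClosed K] [CharZero K] [Field F] [Algebra K F]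

omit [CharZero K] in
/-- one linear condition at one place -/
theorem rr_step (hFF : IsFF K F) (P : Place K F) (n : ℤ) (V : Submodule K F)
    [FiniteDimensional K V] (hV : ∀ f ∈ V, f ≠ 0 → n ≤ P.ord f) :
    ∃ V' : Submodule K F, V' ≤ V ∧ (∀ f ∈ V', f ≠ 0 → n + 1 ≤ P.ord f) ∧
      Module.finrank K V ≤ Module.finrank K V' + 1 := by
  obtain ⟨π, hπ⟩ := IsDiscreteValuationRing.exists_irreducible P.toValuationSubring
  have hπ0 : (π : F) ≠ 0 := by simpa using hπ.ne_zero
  have hord : P.ord (π : F) = 1 := P.ord_coe_irreducible hπ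
  have hmem : ∀ f ∈ V, (π : F) ^ (-n) * f ∈ P.toValuationSubring := by
    intro f hf
    rcases eq_or_ne f 0 with rfl | h0
    · simp [zero_mem]
    apply mem_toValuationSubring_of_ord_nonneg
    rw [P.ord_mul (zpow_ne_zero _ hπ0) h0, P.ord_zpow, hord]
    have := hV f hf h0
    omega
  let φ : V →ₗ[K] P.ResidueField :=
    { toFun := fun f => IsLocalRing.residue P.toValuationSubring ⟨(π : F) ^ (-n) * f, hmem f f.2⟩
      map_add' := by
        intro f g
        rw [← map_add]
        congr 1
        ext
        simp [mul_add]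
      map_smul' := by
        intro c f
        rw [Algebra.smul_def, IsScalarTower.algebraMap_apply K P.toValuationSubring P.ResidueField]
        show _ = IsLocalRing.residue _ _ * IsLocalRing.residue _ _
        rw [← map_mul]
        congr 1
        ext
        simp [Algebra.smul_def]
        ring }
  have hdeg : Module.finrank K P.ResidueField = 1 := deg_eq_one hFF P
  have hfin : Module.Finite K P.ResidueField := Module.finite_of_finrank_pos (by omega)
  refine ⟨(LinearMap.ker φ).map V.subtype, ?_, ?_, ?_⟩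
  · rintro _ ⟨f, -, rfl⟩
    exact f.2
  · rintro _ ⟨f, hf, rfl⟩ h0
    have h1 : IsLocalRing.residue P.toValuationSubring ⟨(π : F) ^ (-n) * f, hmem f f.2⟩ = 0 := hf
    rw [IsLocalRing.residue_eq_zero_iff, mem_maximalIdeal_iff] at h1
    have h0' : ((f : V) : F) ≠ 0 := h0
    rcases h1 with h1 | h1
    · exfalso
      have := congrArg Subtype.val h1
      simp only [ZeroMemClass.coe_zero, mul_eq_zero] at this
      rcases this with h | h
      · exact zpow_ne_zero _ hπ0 h
      · exact h0' h
    · simp only at h1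
      rw [P.ord_mul (zpow_ne_zero _ hπ0) h0', P.ord_zpow, hord] at h1
      show n + 1 ≤ P.ord (f : F)
      omega
  · have h1 := LinearMap.finrank_range_add_finrank_ker φ
    have h2 : Module.finrank K (LinearMap.range φ) ≤ 1 := hdeg ▸ Submodule.finrank_le _
    have h3 : Module.finrank K ((LinearMap.ker φ).map V.subtype) = Module.finrank K (LinearMap.ker φ) :=
      LinearEquiv.finrank_eq (Submodule.equivMapOfInjective _ V.injective_subtype _).symm
    omega

omit [CharZero K] in
/-- `k` linear conditions at one place -/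
theorem rr_steps (hFF : IsFF K F) (P : Place K F) (n : ℤ) (k : ℕ) (V : Submodule K F)
    [FiniteDimensional K V] (hV : ∀ f ∈ V, f ≠ 0 → n ≤ P.ord f) :
    ∃ V' : Submodule K F, V' ≤ V ∧ (∀ f ∈ V', f ≠ 0 → n + k ≤ P.ord f) ∧
      Module.finrank K V ≤ Module.finrank K V' + k := by
  induction k with
  | zero => exact ⟨V, le_rfl, by simpa using hV, by simp⟩
  | succ k ih =>
    obtain ⟨V1, h1, h2, h3⟩ := ih
    have : FiniteDimensional K V1 := Submodule.finiteDimensional_of_le h1
    obtain ⟨V2, g1, g2, g3⟩ := rr_step hFF P (n + k) V1 h2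
    refine ⟨V2, g1.trans h1, ?_, by omega⟩
    intro f hf h0
    have := g2 f hf h0
    push_cast
    omega

omit [CharZero K] in
/-- codimension lemma -/
theorem rr_cut (hFF : IsFF K F) (B : Divisor K F) (E : Divisor K F) :
    0 ≤ E → ∀ (V : Submodule K F) [FiniteDimensional K V], V ≤ riemannRochSpace B →
    ∃ V' : Submodule K F, V' ≤ V ∧ V' ≤ riemannRochSpace (B - E) ∧
      (Module.finrank K V : ℤ) ≤ Module.finrank K V' + Divisor.degree E := by
  induction E using Finsupp.induction with
  | zero =>
    intro _ V _ hV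
    exact ⟨V, le_rfl, by simpa using hV, by simp⟩
  | single_add a b f ha hb ih =>
    intro hE V _ hV
    have hfa : f a = 0 := by simpa using ha
    have hb0 : 0 ≤ b := by
      have := hE a
      simpa [hfa] using this
    have hf0 : 0 ≤ f := by
      intro v
      by_cases hv : v = a
      · subst hv; simp [hfa]
      · have := hE v
        simpa [Finsupp.single_apply, Ne.symm hv] using this
    obtain ⟨V1, h1, h2, h3⟩ := ih hf0 V hV
    have : FiniteDimensional K V1 := Submodule.finiteDimensional_of_le h1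
    obtain ⟨V2, g1, g2, g3⟩ := rr_steps hFF a (-(B a)) b.toNat V1 (by
      intro x hx h0
      have := (mem_riemannRochSpace_iff.1 (h2 hx) a).resolve_left h0
      simpa [hfa] using this)
    refine ⟨V2, g1.trans h1, ?_, ?_⟩
    · intro x hx
      rw [mem_riemannRochSpace_iff]
      intro v
      rcases eq_or_ne x 0 with h0 | h0
      · exact Or.inl h0
      right
      by_cases hv : v = a
      · subst hv
        have := g2 x hx h0
        rw [Int.toNat_of_nonneg hb0] at this
        simp only [Finsupp.coe_sub, Finsupp.coe_add, Pi.sub_apply, Pi.add_apply,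
          Finsupp.single_eq_same, hfa]
        omega
      · have := (mem_riemannRochSpace_iff.1 (h2 (g1 hx)) v).resolve_left h0
        simpa [Finsupp.single_apply, Ne.symm hv] using this
    · rw [map_add, Divisor.degree_single, deg_eq_one hFF a]
      have : ((b.toNat : ℕ) : ℤ) = b := Int.toNat_of_nonneg hb0
      push_cast
      omega

omit [IsAlgClosed K] [CharZero K] in
theorem rr_linInd_pow {S : Type*} [CommRing S] [Algebra K S] {x : S} (hx : Transcendental K x) (m : ℕ) :
    LinearIndependent K (fun i : Fin m => x ^ (i : ℕ)) := by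
  have h1 : LinearIndependent K (fun i : ℕ => (Polynomial.monomial i (1 : K))) := by
    have := (Polynomial.basisMonomials K).linearIndependent
    rwa [Polynomial.coe_basisMonomials] at this
  have h2 := h1.comp (fun i : Fin m => (i : ℕ)) Fin.val_injective
  have h3 := h2.map' (Polynomial.aeval x).toLinearMap
    (LinearMap.ker_eq_bot.2 (transcendental_iff_injective.1 hx))
  have h4 : (fun i : Fin m => x ^ (i : ℕ)) = (⇑(Polynomial.aeval x).toLinearMap ∘
      (fun i : ℕ => (Polynomial.monomial i (1 : K))) ∘ fun i : Fin m => (i : ℕ)) := by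
    ext i
    simp [Polynomial.aeval_monomial]
  rw [h4]
  exact h3

/-- the big spaces -/
theorem rr_big (hFF : IsFF K F) :
    ∃ (n : ℕ) (B C : Divisor K F), 0 < n ∧ 0 ≤ B ∧ 0 ≤ C ∧ Divisor.degree B = n ∧
      ∀ m : ℕ, ∃ V : Submodule K F, FiniteDimensional K V ∧ Module.finrank K V = (m + 1) * n ∧
        V ≤ riemannRochSpace (m • B + C) := by
  classical
  obtain ⟨s, hs, hfin⟩ := id hFF
  have hs0 : s ≠ 0 := by
    rintro rfl
    exact hs isAlgebraic_zero
  set n := Module.finrank K⟮s⟯ F with hn
  have hnpos : 0 < n := Module.finrank_pos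
  let u := Module.finBasis K⟮s⟯ F
  have hu0 : ∀ j, u j ≠ 0 := fun j => u.ne_zero j
  -- pole divisor of `s`
  obtain ⟨T, hT, hsum⟩ := exists_zeros_finset hFF (transcendental_inv_aux hs)
  rw [adjoin_inv_eq_aux] at hsum
  let B : Divisor K F := Finsupp.onFinset T (fun v => max 0 (v.ord s⁻¹)) (by
    intro v hv
    rw [hT]
    by_contra h
    exact hv (max_eq_left (not_lt.1 h)))
  have hB : ∀ v, B v = max 0 (v.ord s⁻¹) := fun v => rfl
  have hB0 : 0 ≤ B := fun v => by rw [hB]; exact le_max_left _ _
  have hdegB : Divisor.degree B = n := by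
    have hdeg : ∀ D : Divisor K F, Divisor.degree D = D.sum (fun v n => n * (v.deg : ℤ)) := by
      intro D
      simp [Divisor.degree, Finsupp.liftAddHom_apply]
    rw [hdeg, Finsupp.onFinset_sum _ (by simp), ← hsum]
    apply Finset.sum_congr rfl
    intro v hv
    rw [deg_eq_one hFF v, max_eq_right ((hT v).1 hv).le]
    simp
  -- pole bound for the basis
  choose Dj hDj _ using fun j => exists_principal_divisor hFF (hu0 j)
  let C : Divisor K F := ∑ j, (Dj j).mapRange (fun z => max 0 (-z)) (by simp)
  have hC : ∀ v, C v = ∑ j, max 0 (-(v.ord (u j))) := by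
    intro v
    simp only [C, Finsupp.finsetSum_apply, Finsupp.mapRange_apply, hDj]
  have hC0 : 0 ≤ C := fun v => by
    rw [hC]
    exact Finset.sum_nonneg fun j _ => le_max_left _ _
  have hCj : ∀ v j, -(v.ord (u j)) ≤ C v := by
    intro v j
    rw [hC]
    exact (le_max_right 0 _).trans
      (Finset.single_le_sum (f := fun j => max 0 (-(v.ord (u j)))) (fun j _ => le_max_left _ _)
        (Finset.mem_univ j))
  refine ⟨n, B, C, hnpos, hB0, hC0, hdegB, fun m => ?_⟩
  have hgen : Transcendental K (AdjoinSimple.gen K s) := by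
    intro h
    apply hs
    have := h.algebraMap (A := F)
    rwa [AdjoinSimple.algebraMap_gen] at this
  have hli : LinearIndependent K
      (fun p : Fin (m + 1) × Fin n => (AdjoinSimple.gen K s) ^ (p.1 : ℕ) • u p.2) :=
    linearIndependent_smul (rr_linInd_pow hgen (m + 1)) u.linearIndependent
  refine ⟨Submodule.span K (Set.range
    (fun p : Fin (m + 1) × Fin n => (AdjoinSimple.gen K s) ^ (p.1 : ℕ) • u p.2)),
    FiniteDimensional.span_of_finite K (Set.finite_range _), ?_, ?_⟩
  · rw [finrank_span_eq_card hli]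
    simp
  · rw [Submodule.span_le]
    rintro _ ⟨p, rfl⟩
    show _ ∈ riemannRochSpace _
    rw [mem_riemannRochSpace_iff]
    intro v
    right
    have h1 : (AdjoinSimple.gen K s) ^ (p.1 : ℕ) • u p.2 = s ^ (p.1 : ℕ) * u p.2 := by
      rw [Algebra.smul_def, map_pow, AdjoinSimple.algebraMap_gen]
    show -(m • B + C) v ≤ v.ord ((AdjoinSimple.gen K s) ^ (p.1 : ℕ) • u p.2)
    rw [h1, v.ord_mul (pow_ne_zero _ hs0) (hu0 _), ord_pow]
    have h2 := hCj v p.2
    have h3 : -(v.ord s) ≤ B v := by
      rw [hB, v.ord_inv]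
      exact le_max_right _ _
    have h4 : 0 ≤ B v := hB0 v
    have h5 : ((p.1 : ℕ) : ℤ) ≤ m := by
      have := p.1.2
      omega
    have h6 : (m • B + C) v = m * B v + C v := by simp
    rw [h6]
    have h7 : -(m * B v) ≤ ((p.1 : ℕ) : ℤ) * v.ord s := by
      have h8 : -(((p.1 : ℕ) : ℤ) * B v) ≤ ((p.1 : ℕ) : ℤ) * v.ord s := by
        have : 0 ≤ ((p.1 : ℕ) : ℤ) * (v.ord s + B v) :=
          mul_nonneg (by positivity) (by omega)
        nlinarith
      have h9 : ((p.1 : ℕ) : ℤ) * B v ≤ m * B v := mul_le_mul_of_nonneg_right h5 h4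
      omega
    omega

omit [IsAlgClosed K] [CharZero K] in
theorem rr_exists_ne_zero (V : Submodule K F) (h : 0 < Module.finrank K V) :
    ∃ z ∈ V, z ≠ 0 := by
  have : V ≠ ⊥ := by
    rintro rfl
    simp at h
  exact Submodule.exists_mem_ne_zero_of_ne_bot this

/-- **Riemann's inequality** (existence form). -/
theorem rr_main (hFF : IsFF K F) :
    ∃ g : ℕ, ∀ D : Divisor K F, (g : ℤ) ≤ Divisor.degree D →
      ∃ h : F, h ≠ 0 ∧ ∀ v : Place K F, - D v ≤ v.ord h := by
  obtain ⟨n, B, C, hn, hB0, hC0, hdegB, hV⟩ := rr_big hFF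
  refine ⟨(Divisor.degree C).toNat + 1, fun D hD => ?_⟩
  have hg : Divisor.degree C + 1 ≤ Divisor.degree D := by
    have := Int.self_le_toNat (Divisor.degree C)
    push_cast at hD
    omega
  let A1 : Divisor K F := D.mapRange (fun z => max 0 z) (by simp)
  have hA1 : ∀ v, A1 v = max 0 (D v) := fun v => by simp [A1]
  have hA10 : 0 ≤ A1 := fun v => by rw [hA1]; exact le_max_left _ _
  obtain ⟨V, hVfin, hVrank, hVle⟩ := hV (Divisor.degree C + Divisor.degree A1).toNat
  set m := (Divisor.degree C + Divisor.degree A1).toNat with hm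
  have hm1 : Divisor.degree C + Divisor.degree A1 ≤ m := Int.self_le_toNat _
  -- the denominator `z`
  obtain ⟨V1, h1, h2, h3⟩ := rr_cut hFF (m • B + C) (C + A1) (add_nonneg hC0 hA10) V hVle
  have hpos1 : 0 < Module.finrank K V1 := by
    rw [hVrank, map_add] at h3
    have : ((m : ℤ) + 1) * 1 ≤ ((m : ℤ) + 1) * n :=
      mul_le_mul_of_nonneg_left (by omega) (by omega)
    push_cast at h3
    omega
  obtain ⟨z, hz, hz0⟩ := rr_exists_ne_zero V1 hpos1
  have hzord : ∀ v, A1 v - m * B v ≤ v.ord z := by
    intro v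
    have := (mem_riemannRochSpace_iff.1 (h2 hz) v).resolve_left hz0
    simp only [Finsupp.sub_apply, Finsupp.add_apply, Finsupp.smul_apply, nsmul_eq_mul] at this
    omega
  obtain ⟨Z, hZ, hZdeg⟩ := exists_principal_divisor hFF hz0
  -- the numerator `w`
  have hE2 : 0 ≤ Z - D + m • B + C := by
    intro v
    have h4 := hzord v
    have h5 : D v ≤ A1 v := by rw [hA1]; exact le_max_right _ _
    have h6 : 0 ≤ C v := hC0 v
    simp only [Finsupp.zero_apply, Finsupp.sub_apply, Finsupp.add_apply, Finsupp.smul_apply,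
      nsmul_eq_mul, hZ]
    omega
  obtain ⟨V2, g1, g2, g3⟩ := rr_cut hFF (m • B + C) (Z - D + m • B + C) hE2 V hVle
  have hpos2 : 0 < Module.finrank K V2 := by
    rw [hVrank, map_add, map_add, map_sub, map_nsmul, hZdeg, hdegB] at g3
    push_cast at g3
    simp only [nsmul_eq_mul] at g3
    have : (0 : ℤ) < n := by omega
    nlinarith
  obtain ⟨w, hw, hw0⟩ := rr_exists_ne_zero V2 hpos2
  refine ⟨w / z, div_ne_zero hw0 hz0, fun v => ?_⟩
  have := (mem_riemannRochSpace_iff.1 (g2 hw) v).resolve_left hw0
  simp only [Finsupp.sub_apply, Finsupp.add_apply, Finsupp.smul_apply, nsmul_eq_mul, hZ] at this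
  rw [div_eq_mul_inv, v.ord_mul hw0 (inv_ne_zero hz0), v.ord_inv]
  omega

/-- every degree-zero divisor is `E - g P₀ - div h` with `E ≥ 0` of degree `g`. -/
theorem rr_bounded (hFF : IsFF K F) (P0 : Place K F) :
    ∃ g : ℕ, ∀ D : Divisor K F, Divisor.degree D = 0 →
      ∃ (E : Divisor K F) (h : F), h ≠ 0 ∧ 0 ≤ E ∧ Divisor.degree E = g ∧
        ∀ v, D v = E v - Finsupp.single P0 (g : ℤ) v - v.ord h := by
  obtain ⟨g, hg⟩ := rr_main hFF
  refine ⟨g, fun D hD => ?_⟩
  obtain ⟨h, h0, hh⟩ := hg (D + Finsupp.single P0 (g : ℤ)) (by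
    rw [map_add, hD, Divisor.degree_single, deg_eq_one hFF P0]
    simp)
  obtain ⟨H, hH, hHdeg⟩ := exists_principal_divisor hFF h0
  refine ⟨D + Finsupp.single P0 (g : ℤ) + H, h, h0, ?_, ?_, ?_⟩
  · intro v
    have := hh v
    simp only [Finsupp.coe_add, Pi.add_apply] at this
    simp only [Finsupp.coe_zero, Pi.zero_apply, Finsupp.coe_add, Pi.add_apply, hH]
    omega
  · rw [map_add, map_add, hD, hHdeg, Divisor.degree_single, deg_eq_one hFF P0]
    simp
  · intro v
    simp only [Finsupp.coe_add, Pi.add_apply, hH]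
    omega

end Fermat.Agent.S37Lib
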