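import Fermat.Agent.S24.Principal
import Fermat.Agent.S37.Count

set_option autoImplicit false

/-!
# S37 [L3, abstract half] : bounded representatives from a family of large spaces
-/

open AlgebraicCurve

namespace Fermat.Agent.S37Lib

open Fermat.Agent.S24Lib

variable {K F : Type*} [Field K] [IsAlgClosed K] [Field F] [Algebra K F]

/-- the subspace of `V` of the functions vanishing to order `≥ n` at `P` -/
def rraSub (V : Submodule K F) (P : Place K F) (n : ℤ) : Submodule K F where
  carrier := {f | f ∈ V ∧ (f = 0 ∨ n ≤ P.ord f)}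
  zero_mem' := ⟨V.zero_mem, Or.inl rfl⟩
  add_mem' := by
    rintro f g ⟨hf, hf'⟩ ⟨hg, hg'⟩
    refine ⟨V.add_mem hf hg, ?_⟩
    by_cases h0 : f + g = 0
    · exact Or.inl h0
    right
    rcases hf' with rfl | hf'
    · rcases hg' with rfl | hg'
      · simp at h0
      · simpa using hg'
    rcases hg' with rfl | hg'
    · simpa using hf'
    exact (le_min hf' hg').trans (le_ord_add P h0)
  smul_mem' := by
    rintro c f ⟨hf, hf'⟩
    refine ⟨V.smul_mem c hf, ?_⟩
    rcases hf' with rfl | hf'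
    · left; simp
    by_cases hc : c = 0
    · left; simp [hc]
    by_cases hf0 : f = 0
    · left; simp [hf0]
    right
    rw [Algebra.smul_def, P.ord_mul (by simpa using hc) hf0, ord_algebraMap, zero_add]
    exact hf'

omit [IsAlgClosed K] in
theorem rraSub_le (V : Submodule K F) (P : Place K F) (n : ℤ) : rraSub V P n ≤ V :=
  fun _ hf => hf.1

theorem rra_step (hFF : IsFF K F) (V : Submodule K F) [FiniteDimensional K V] (P : Place K F)
    (n : ℤ) (hV : ∀ f ∈ V, f ≠ 0 → n ≤ P.ord f) :
    Module.finrank K V ≤ Module.finrank K (rraSub V P (n + 1)) + 1 := by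
  classical
  by_cases hall : V ≤ rraSub V P (n + 1)
  · have : V = rraSub V P (n + 1) := le_antisymm hall (rraSub_le V P _)
    rw [← this]
    omega
  obtain ⟨f₀, hf₀V, hf₀⟩ := SetLike.not_le_iff_exists.1 hall
  have hf₀0 : f₀ ≠ 0 := by
    rintro rfl
    exact hf₀ (Submodule.zero_mem _)
  have hord : P.ord f₀ = n := by
    have h1 := hV f₀ hf₀V hf₀0
    by_contra hne
    exact hf₀ ⟨hf₀V, Or.inr (by omega)⟩
  have hle : V ≤ rraSub V P (n + 1) ⊔ K ∙ f₀ := by
    intro f hf
    by_cases hf0 : f = 0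
    · rw [hf0]; exact Submodule.zero_mem _
    have h1 : 0 ≤ P.ord (f / f₀) := by
      rw [div_eq_mul_inv, P.ord_mul hf0 (inv_ne_zero hf₀0), P.ord_inv, hord]
      have := hV f hf hf0
      omega
    obtain ⟨c, hc⟩ := exists_sub_algebraMap_ord_pos hFF P h1
    have hdec : f = (f - c • f₀) + c • f₀ := by abel
    rw [hdec]
    refine Submodule.add_mem_sup ?_ (Submodule.smul_mem _ c (Submodule.mem_span_singleton_self f₀))
    refine ⟨V.sub_mem hf (V.smul_mem c hf₀V), ?_⟩
    have hfac : f - c • f₀ = (f / f₀ - algebraMap K F c) * f₀ := by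
      rw [Algebra.smul_def]
      field_simp
    rcases hc with hc | hc
    · left
      rw [hfac, hc, sub_self, zero_mul]
    · by_cases h0 : f / f₀ - algebraMap K F c = 0
      · left
        rw [hfac, h0, zero_mul]
      right
      rw [hfac, P.ord_mul h0 hf₀0, hord]
      omega
  haveI : FiniteDimensional K (rraSub V P (n + 1)) :=
    Submodule.finiteDimensional_of_le (rraSub_le V P _)
  calc Module.finrank K V ≤ Module.finrank K ↥(rraSub V P (n + 1) ⊔ K ∙ f₀) :=
        Submodule.finrank_mono hle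
    _ ≤ Module.finrank K (rraSub V P (n + 1)) + Module.finrank K (K ∙ f₀) :=
        Submodule.finrank_add_le_finrank_add_finrank _ _
    _ = Module.finrank K (rraSub V P (n + 1)) + 1 := by
        rw [finrank_span_singleton hf₀0]

theorem rra_degree_eq (hFF : IsFF K F) (A : Divisor K F) :
    Divisor.degree A = A.sum fun _ n => n := by
  induction A using Finsupp.induction with
  | zero => simp
  | single_add P n A hP hn ih =>
    rw [map_add, ih, Divisor.degree_single, deg_eq_one hFF,
      Finsupp.sum_add_index' (fun _ => rfl) (fun _ _ _ => rfl), Finsupp.sum_single_index rfl]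
    simp

theorem rra_nrm_eq (hFF : IsFF K F) (A : Divisor K F) (hA : ∀ P, 0 ≤ A P) :
    (nrm A : ℤ) = Divisor.degree A := by
  rw [rra_degree_eq hFF, nrm, Finsupp.sum, Finsupp.sum]
  push_cast
  exact Finset.sum_congr rfl fun P _ => abs_of_nonneg (hA P)

theorem rra_codim (hFF : IsFF K F) (d : ℕ) :
    ∀ (A : Divisor K F), (∀ P, 0 ≤ A P) → Divisor.degree A = d →
    ∀ (V : Submodule K F) [FiniteDimensional K V] (G : Divisor K F),
      (∀ f ∈ V, f ≠ 0 → ∀ P, -G P ≤ P.ord f) →
      ∃ W : Submodule K F, W ≤ V ∧ Module.finrank K V ≤ Module.finrank K W + d ∧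
        ∀ f ∈ W, f ≠ 0 → ∀ P, A P - G P ≤ P.ord f := by
  classical
  induction d with
  | zero =>
    intro A hA hd V _ G hV
    have hA0 : A = 0 := by
      have h1 := rra_nrm_eq hFF A hA
      rw [hd] at h1
      have h2 : nrm A = 0 := by exact_mod_cast h1
      rw [nrm, Finsupp.sum, Finset.sum_eq_zero_iff] at h2
      ext P
      by_cases hP : P ∈ A.support
      · simpa using h2 P hP
      · simpa using hP
    refine ⟨V, le_rfl, by omega, fun f hf hf0 P => ?_⟩
    rw [hA0]
    simpa using hV f hf hf0 P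
  | succ d ih =>
    intro A hA hd V _ G hV
    obtain ⟨P₀, hP₀⟩ : ∃ P₀, 0 < A P₀ := by
      by_contra hcon
      push Not at hcon
      have hA0 : A = 0 := by
        ext P
        exact le_antisymm (hcon P) (hA P)
      rw [hA0, map_zero] at hd
      push_cast at hd
      omega
    set A' : Divisor K F := A - Finsupp.single P₀ 1 with hA'
    have hA'nn : ∀ P, 0 ≤ A' P := by
      intro P
      rw [hA', Finsupp.sub_apply]
      by_cases hP : P = P₀
      · subst hP
        rw [Finsupp.single_eq_same]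
        omega
      · rw [Finsupp.single_eq_of_ne hP]
        simpa using hA P
    have hA'd : Divisor.degree A' = d := by
      rw [hA', map_sub, hd, Divisor.degree_single, deg_eq_one hFF]
      push_cast
      ring
    obtain ⟨W', hW'V, hW'r, hW'⟩ := ih A' hA'nn hA'd V G hV
    haveI : FiniteDimensional K W' := Submodule.finiteDimensional_of_le hW'V
    have hstep := rra_step hFF W' P₀ (A' P₀ - G P₀) (fun f hf hf0 => hW' f hf hf0 P₀)
    refine ⟨rraSub W' P₀ (A' P₀ - G P₀ + 1), (rraSub_le _ _ _).trans hW'V, by omega, ?_⟩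
    rintro f ⟨hfW, hf⟩ hf0 P
    by_cases hP : P = P₀
    · subst hP
      have h1 := hf.resolve_left hf0
      rw [hA', Finsupp.sub_apply, Finsupp.single_eq_same] at h1
      omega
    · have h1 := hW' f hfW hf0 P
      rw [hA', Finsupp.sub_apply, Finsupp.single_eq_of_ne hP] at h1
      simpa using h1

/-- (A) the codimension lemma -/
theorem rra_exists (hFF : IsFF K F) (V : Submodule K F) [FiniteDimensional K V]
    (G A : Divisor K F) (hV : ∀ f ∈ V, f ≠ 0 → ∀ P, -G P ≤ P.ord f) (hA : ∀ P, 0 ≤ A P)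
    (hlt : Divisor.degree A < Module.finrank K V) :
    ∃ z ∈ V, z ≠ 0 ∧ ∀ P, A P - G P ≤ P.ord z := by
  have hd0 : 0 ≤ Divisor.degree A := by
    rw [← rra_nrm_eq hFF A hA]
    positivity
  obtain ⟨d, hd⟩ := Int.eq_ofNat_of_zero_le hd0
  obtain ⟨W, hWV, hWr, hW⟩ := rra_codim hFF d A hA hd V G hV
  have hpos : 0 < Module.finrank K W := by
    rw [hd] at hlt
    have : d < Module.finrank K V := by exact_mod_cast hlt
    omega
  haveI : FiniteDimensional K W := Submodule.finiteDimensional_of_le hWV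
  haveI : Nontrivial W := Module.finrank_pos_iff.1 hpos
  obtain ⟨z, hz⟩ := exists_ne (0 : W)
  exact ⟨z, hWV z.2, by simpa using hz, hW z z.2 (by simpa using hz)⟩

/-- the hypothesis on the existence of a family of large spaces -/
def RRFam (K F : Type*) [Field K] [Field F] [Algebra K F] : Prop :=
  ∃ (n c : ℕ), 0 < n ∧ ∀ m : ℕ, ∃ (V : Submodule K F) (G : Divisor K F),
    FiniteDimensional K V ∧ n * (m + 1) ≤ Module.finrank K V ∧
      Divisor.degree G = (n * m + c : ℕ) ∧ ∀ f ∈ V, f ≠ 0 → ∀ P, -G P ≤ P.ord f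

/-- (B) assembly -/
theorem rra_main [CharZero K] (hFF : IsFF K F) (hfam : RRFam K F) : HasBddRep K F := by
  classical
  obtain ⟨n, c, hn, hfam⟩ := hfam
  refine ⟨2 * c, fun D hD => ?_⟩
  set Dp : Divisor K F := D.mapRange (fun a => max a 0) (by simp) with hDp
  set Dm : Divisor K F := D.mapRange (fun a => max (-a) 0) (by simp) with hDm
  have hDpm : D = Dp - Dm := by
    ext P
    rw [Finsupp.sub_apply, hDp, hDm, Finsupp.mapRange_apply, Finsupp.mapRange_apply]
    rcases le_total (D P) 0 with h | h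
    · rw [max_eq_right h, max_eq_left (by omega)]; omega
    · rw [max_eq_left h, max_eq_right (by omega)]; omega
  have hDp0 : ∀ P, 0 ≤ Dp P := fun P => by
    rw [hDp, Finsupp.mapRange_apply]; exact le_max_right _ _
  have hDm0 : ∀ P, 0 ≤ Dm P := fun P => by
    rw [hDm, Finsupp.mapRange_apply]; exact le_max_right _ _
  have hdeg : Divisor.degree Dp = Divisor.degree Dm := by
    have := hD
    rw [hDpm, map_sub] at this
    omega
  have hd0 : 0 ≤ Divisor.degree Dp := by
    rw [← rra_nrm_eq hFF Dp hDp0]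
    positivity
  obtain ⟨d, hd⟩ := Int.eq_ofNat_of_zero_le hd0
  obtain ⟨V, G, hVfin, hVr, hG, hV⟩ := hfam (d / n)
  have hlt : d < n * (d / n + 1) := Nat.lt_mul_div_succ d hn
  have hle : n * (d / n) ≤ d := Nat.mul_div_le d n
  have hlt' : (d : ℤ) < Module.finrank K V := by exact_mod_cast lt_of_lt_of_le hlt hVr
  obtain ⟨z, -, hz0, hz⟩ := rra_exists hFF V G Dp hV hDp0 (by rw [hd]; exact hlt')
  obtain ⟨w, -, hw0, hw⟩ := rra_exists hFF V G Dm hV hDm0 (by rw [← hdeg, hd]; exact hlt')
  obtain ⟨Z, hZ, hZd⟩ := exists_principal_divisor hFF hz0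
  obtain ⟨W, hW, hWd⟩ := exists_principal_divisor hFF hw0
  set E₁ : Divisor K F := Z - Dp + G with hE₁
  set E₂ : Divisor K F := W - Dm + G with hE₂
  have hE₁0 : ∀ P, 0 ≤ E₁ P := fun P => by
    rw [hE₁, Finsupp.add_apply, Finsupp.sub_apply, hZ P]
    have := hz P
    omega
  have hE₂0 : ∀ P, 0 ≤ E₂ P := fun P => by
    rw [hE₂, Finsupp.add_apply, Finsupp.sub_apply, hW P]
    have := hw P
    omega
  have hE₁d : nrm E₁ ≤ c := by
    have h1 := rra_nrm_eq hFF E₁ hE₁0
    rw [hE₁, map_add, map_sub, hZd, hd, hG] at h1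
    push_cast at h1
    have h2 : ((n * (d / n) : ℕ) : ℤ) ≤ d := by exact_mod_cast hle
    push_cast at h2
    have : (nrm (Z - Dp + G) : ℤ) ≤ c := by omega
    exact_mod_cast this
  have hE₂d : nrm E₂ ≤ c := by
    have h1 := rra_nrm_eq hFF E₂ hE₂0
    rw [hE₂, map_add, map_sub, hWd, ← hdeg, hd, hG] at h1
    push_cast at h1
    have h2 : ((n * (d / n) : ℕ) : ℤ) ≤ d := by exact_mod_cast hle
    push_cast at h2
    have : (nrm (W - Dm + G) : ℤ) ≤ c := by omega
    exact_mod_cast this
  refine ⟨E₂ - E₁, Units.mk0 z hz0 / Units.mk0 w hw0, ?_, ?_⟩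
  · have h1 : Dv Z (Units.mk0 z hz0) := hZ
    have h2 : Dv W (Units.mk0 w hw0) := hW
    have h3 := h1.div h2
    have : D - (E₂ - E₁) = Z - W := by
      rw [hE₁, hE₂]
      conv_lhs => rw [hDpm]
      abel
    rw [this]
    exact h3
  · calc nrm (E₂ - E₁) ≤ nrm E₂ + nrm E₁ := nrm_sub_le _ _
      _ ≤ 2 * c := by omega

end Fermat.Agent.S37Lib
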