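import Mathlib
import Fermat.Prelude.Def_ModularCurve_X0ModL

set_option autoImplicit false
set_option linter.unusedSectionVars false

/-!
# S37 : reduction of the Eichler–Shimura product (pure Laurent series part)
-/

open ModularCurve

namespace Fermat.Agent.S37Lib

section Basic

variable {R S : Type*} [CommRing R] [CommRing S]

theorem red_ofPowerSeries_coeff_nat (P : PowerSeries R) (n : ℕ) :
    (HahnSeries.ofPowerSeries ℤ R P).coeff (n : ℤ) = PowerSeries.coeff n P := by
  rw [HahnSeries.ofPowerSeries_apply_coeff]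

theorem red_ofPowerSeries_coeff_neg (P : PowerSeries R) {n : ℤ} (hn : n < 0) :
    (HahnSeries.ofPowerSeries ℤ R P).coeff n = 0 := by
  rw [HahnSeries.ofPowerSeries_apply]
  apply HahnSeries.embDomain_notin_range
  rintro ⟨m, rfl⟩
  simp at hn
  omega

theorem red_coeffMap_ofPowerSeries (f : R →+* S) (P : PowerSeries R) :
    coeffMap f (HahnSeries.ofPowerSeries ℤ R P)
      = HahnSeries.ofPowerSeries ℤ S (PowerSeries.map f P) := by
  ext n
  rw [coeffMap_coeff]
  rcases lt_or_ge n 0 with hn | hn
  · rw [red_ofPowerSeries_coeff_neg _ hn, red_ofPowerSeries_coeff_neg _ hn, map_zero]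
  · lift n to ℕ using hn
    rw [red_ofPowerSeries_coeff_nat, red_ofPowerSeries_coeff_nat, PowerSeries.coeff_map]

theorem red_qExpand_ofPowerSeries (p : ℕ) [NeZero p] (P : PowerSeries R) :
    qExpand R p (HahnSeries.ofPowerSeries ℤ R P)
      = HahnSeries.ofPowerSeries ℤ R (PowerSeries.expand p (NeZero.ne p) P) := by
  ext n
  by_cases hn : (p : ℤ) ∣ n
  · obtain ⟨k, rfl⟩ := hn
    rw [qExpand_coeff_mul]
    rcases lt_or_ge k 0 with hk | hk
    · have hp : (0 : ℤ) < p := by exact_mod_cast Nat.pos_of_ne_zero (NeZero.ne p)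
      rw [red_ofPowerSeries_coeff_neg _ hk,
        red_ofPowerSeries_coeff_neg _ (mul_neg_of_pos_of_neg hp hk)]
    · lift k to ℕ using hk
      rw [← Nat.cast_mul, red_ofPowerSeries_coeff_nat, red_ofPowerSeries_coeff_nat,
        PowerSeries.coeff_expand_mul]
  · rw [qExpand_coeff_of_not_dvd _ _ hn]
    rcases lt_or_ge n 0 with hk | hk
    · rw [red_ofPowerSeries_coeff_neg _ hk]
    · lift n to ℕ using hk
      rw [red_ofPowerSeries_coeff_nat, PowerSeries.coeff_expand_of_not_dvd]
      exact fun h => hn (by exact_mod_cast h)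

theorem red_qExpand_injective (p : ℕ) [NeZero p] : Function.Injective (qExpand R p) := by
  intro x y h
  ext n
  rw [← qExpand_coeff_mul p x n, ← qExpand_coeff_mul p y n, h]

/-- **the characteristic `p` identity** `x ^ p = (Frob x)(q ^ p)`. -/
theorem red_pow_char (p : ℕ) [NeZero p] [ExpChar R p] (x : LaurentSeries R) :
    x ^ p = qExpand R p (coeffMap (frobenius R p) x) := by
  have hx := LaurentSeries.single_order_mul_powerSeriesPart x
  set f := x.powerSeriesPart with hf
  set n := x.order with hn
  have h1 : (HahnSeries.ofPowerSeries ℤ R f) ^ p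
      = qExpand R p (coeffMap (frobenius R p) (HahnSeries.ofPowerSeries ℤ R f)) := by
    rw [red_coeffMap_ofPowerSeries, red_qExpand_ofPowerSeries, ← map_pow,
      ← PowerSeries.map_expand]
    congr 1
    exact (MvPowerSeries.map_frobenius_expand p (NeZero.ne p) (f := f)).symm
  rw [← hx, mul_pow, map_mul, map_mul]
  congr 1
  rw [coeffMap_single, qExpand_single, HahnSeries.single_pow, map_one, one_pow, nsmul_eq_mul]

theorem red_coeffMap_injective {f : R →+* S} (hf : Function.Injective f) :
    Function.Injective (coeffMap f) := by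
  intro x y h
  ext n
  apply hf
  rw [← coeffMap_coeff, ← coeffMap_coeff, h]

/-- descent through `q ↦ q ^ p`. -/
theorem red_descend {f : R →+* S} (hf : Function.Injective f) (p : ℕ) [NeZero p]
    (P : LaurentSeries R) (n : LaurentSeries S) (h : coeffMap f P = qExpand S p n) :
    ∃ N : LaurentSeries R, qExpand R p N = P ∧ coeffMap f N = n := by
  have hc : ∀ k : ℤ, f (P.coeff ((p : ℤ) * k)) = n.coeff k := by
    intro k
    rw [← coeffMap_coeff, h, qExpand_coeff_mul]
  have hsupp : Function.support (fun k : ℤ => P.coeff ((p : ℤ) * k)) ⊆ n.support := by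
    intro k hk
    rw [HahnSeries.mem_support, ← hc k]
    intro h0
    apply hk
    apply hf
    rw [h0, map_zero]
  have hN : coeffMap f (⟨fun k : ℤ => P.coeff ((p : ℤ) * k), n.isPWO_support.mono hsupp⟩ :
      LaurentSeries R) = n := by
    ext k
    rw [coeffMap_coeff]
    exact hc k
  refine ⟨⟨fun k : ℤ => P.coeff ((p : ℤ) * k), n.isPWO_support.mono hsupp⟩, ?_, hN⟩
  apply red_coeffMap_injective hf
  rw [coeffMap_qExpand, hN, h]

/-- **Reduction of the Eichler–Shimura product** (abstract rotations `ρ b`). -/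
theorem red_main {k : Type*} [CommRing k] {f : R →+* S} (hf : Function.Injective f) (π : R →+* k)
    (p : ℕ) [NeZero p] [ExpChar k p] (ρ : ℕ → LaurentSeries R →+* LaurentSeries R)
    (hρ : ∀ b x, coeffMap π (ρ b x) = coeffMap π x)
    (Z : LaurentSeries R) (n : LaurentSeries S)
    (h : qExpand S p n = qExpand S p (qExpand S p (coeffMap f Z)) *
      ∏ b ∈ Finset.range p, coeffMap f (ρ b Z)) :
    ∃ N : LaurentSeries R, coeffMap f N = n ∧
      coeffMap π N = qExpand k p (coeffMap π Z) * coeffMap (frobenius k p) (coeffMap π Z) := by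
  obtain ⟨N, hN1, hN2⟩ := red_descend hf p
    (qExpand R p (qExpand R p Z) * ∏ b ∈ Finset.range p, ρ b Z) n (by
      rw [h, map_mul, map_prod, coeffMap_qExpand, coeffMap_qExpand])
  refine ⟨N, hN2, ?_⟩
  apply red_qExpand_injective p
  rw [← coeffMap_qExpand, hN1, map_mul, map_prod, map_mul, ← red_pow_char, coeffMap_qExpand,
    coeffMap_qExpand]
  congr 1
  rw [Finset.prod_congr rfl (fun b _ => hρ b Z), Finset.prod_const, Finset.card_range]

end Basic

end Fermat.Agent.S37Lib
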