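import Fermat.Agent.S37.Red
import Fermat.Prelude.Def_EllipticCurve_FrobeniusTrace
import Fermat.Prelude.Def_FLTPrelim_Ramification

set_option autoImplicit false
set_option linter.unusedSectionVars false
set_option linter.style.haveILetI false

/-!
# S37 : reduction of the Eichler–Shimura product: facts about a valuation ring over `ℓ`
-/

open ModularCurve IsLocalRing

namespace Fermat.Agent.S37Lib

section

variable {K L : Type*} [Field K] [Field L] [Algebra K L] (A : ValuationSubring L)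

theorem redA_natCast_residue {ℓ : ℕ} (hA : A.LiesOverPrime ℓ) : (ℓ : ResidueField A) = 0 := by
  have h1 : ((ℓ : A) : L) = (ℓ : L) := by push_cast; rfl
  have h2 : (ℓ : A) ∈ maximalIdeal A := by
    rw [mem_maximalIdeal, mem_nonunits_iff]
    intro hu
    have h3 : (ℓ : L) ∈ A.nonunits := hA
    rw [ValuationSubring.mem_nonunits_iff_exists_mem_maximalIdeal] at h3
    obtain ⟨ha, h4⟩ := h3
    rw [mem_maximalIdeal, mem_nonunits_iff] at h4
    apply h4
    have : (⟨(ℓ : L), ha⟩ : A) = (ℓ : A) := Subtype.ext h1.symm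
    rw [this]
    exact hu
  have h5 := (residue_eq_zero_iff _).2 h2
  rwa [map_natCast] at h5

theorem redA_charP {ℓ : ℕ} (hℓ : ℓ.Prime) (hA : A.LiesOverPrime ℓ) :
    CharP (ResidueField A) ℓ :=
  ringChar.of_eq (CharP.ringChar_of_prime_eq_zero hℓ (redA_natCast_residue A hA))

theorem redA_expChar {ℓ : ℕ} (hℓ : ℓ.Prime) (hA : A.LiesOverPrime ℓ) :
    ExpChar (ResidueField A) ℓ :=
  haveI := redA_charP A hℓ hA
  ExpChar.prime hℓ

/-- an `ℓ`-th root of unity is a unit of `A` with residue `1`. -/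
theorem redA_root {ℓ : ℕ} (hℓ : ℓ.Prime) (hA : A.LiesOverPrime ℓ) (ζ : L) (hζ : ζ ^ ℓ = 1) :
    ∃ u : Aˣ, ((u : A) : L) = ζ ∧ residue A (u : A) = 1 := by
  have hmem : ∀ x : L, x ^ ℓ = 1 → x ∈ A := by
    intro x hx
    have hint : IsIntegral A x := by
      refine ⟨Polynomial.X ^ ℓ - 1, Polynomial.monic_X_pow_sub_C 1 hℓ.ne_zero, ?_⟩
      simp [hx]
    obtain ⟨y, hy⟩ := (IsIntegrallyClosed.isIntegral_iff (R := A) (K := L)).mp hint
    rw [← hy]
    exact y.2
  have hζ0 : ζ ≠ 0 := by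
    rintro rfl
    rw [zero_pow hℓ.ne_zero] at hζ
    exact zero_ne_one hζ
  have hinv : (ζ⁻¹) ^ ℓ = 1 := by rw [inv_pow, hζ, inv_one]
  let u : Aˣ := ⟨⟨ζ, hmem ζ hζ⟩, ⟨ζ⁻¹, hmem _ hinv⟩, Subtype.ext (mul_inv_cancel₀ hζ0),
    Subtype.ext (inv_mul_cancel₀ hζ0)⟩
  refine ⟨u, rfl, ?_⟩
  haveI := redA_charP A hℓ hA
  haveI : Fact ℓ.Prime := ⟨hℓ⟩
  have h1 : (residue A (u : A)) ^ ℓ = 1 := by
    rw [← map_pow]
    have : (u : A) ^ ℓ = 1 := Subtype.ext hζ
    rw [this, map_one]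
  have h2 : (residue A (u : A) - 1) ^ ℓ = 0 := by
    rw [sub_pow_char, h1, one_pow, sub_self]
  exact sub_eq_zero.1 (pow_eq_zero_iff hℓ.ne_zero |>.1 h2)

/-- the ring endomorphism of `A` induced by an element of the decomposition group. -/
noncomputable def redAHom (σ : L ≃ₐ[K] L) (hσ : σ ∈ A.decompositionSubgroup K) : A →+* A :=
  MulSemiringAction.toRingHom (A.decompositionSubgroup K) A ⟨σ, hσ⟩

theorem redAHom_coe (σ : L ≃ₐ[K] L) (hσ : σ ∈ A.decompositionSubgroup K) (a : A) :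
    ((redAHom A σ hσ a : A) : L) = σ (a : L) := rfl

theorem redA_coeffMap_subtype (σ : L ≃ₐ[K] L) (hσ : σ ∈ A.decompositionSubgroup K)
    (Y : LaurentSeries A) :
    coeffMap A.subtype (coeffMap (redAHom A σ hσ) Y)
      = coeffMap (σ : L →+* L) (coeffMap A.subtype Y) := by
  rw [coeffMap_coeffMap, coeffMap_coeffMap]
  exact coeffMap_congr (RingHom.ext fun a => rfl) Y

/-- a Frobenius element acts on residues of series as the coefficientwise Frobenius. -/
theorem redA_frob {ℓ : ℕ} (hℓ : ℓ.Prime) (hA : A.LiesOverPrime ℓ) (φ : L ≃ₐ[K] L)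
    (hφ : A.IsFrobeniusAt φ ℓ) (Y : LaurentSeries A) :
    haveI := redA_expChar A hℓ hA
    coeffMap (residue A) (coeffMap (redAHom A φ hφ.mem_decompositionSubgroup) Y)
      = coeffMap (frobenius (ResidueField A) ℓ) (coeffMap (residue A) Y) := by
  haveI := redA_expChar A hℓ hA
  rw [coeffMap_coeffMap, coeffMap_coeffMap]
  refine coeffMap_congr (RingHom.ext fun a => ?_) Y
  exact hφ.smul_residue_eq (residue A a)

end

end Fermat.Agent.S37Lib
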