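import Fermat.Agent.S37.RedA
import Fermat.Agent.S37.Rot

set_option autoImplicit false
set_option linter.unusedSectionVars false
set_option linter.style.haveILetI false

/-!
# S37 : (F2) function level Eichler–Shimura: `φ² h · h ^ ℓ / N_α(β(φ h))` is residually constant
(abstract version: `F` any field of Laurent series, `nm` any multiplicative map satisfying the
product formula)
-/

open ModularCurve IsLocalRing

namespace Fermat.Agent.S37Lib

theorem red_rot_one {R : Type*} [CommRing R] (x : LaurentSeries R) : rot (1 : Rˣ) x = x := by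
  ext n
  rw [rot_coeff, one_zpow, Units.val_one, one_mul]

section

variable {K L : Type*} [Field K] [Field L] [Algebra K L] (A : ValuationSubring L)
  {ℓ : ℕ} [NeZero ℓ] (hℓ : ℓ.Prime) (hA : A.LiesOverPrime ℓ)

include hℓ hA in
/-- integrality and residue of a series satisfying the product formula. -/
theorem red_nm (ζ : Lˣ) (hζ : ζ ^ ℓ = 1) (Z : LaurentSeries A) (n : LaurentSeries L)
    (h : qExpand L ℓ n = qExpand L ℓ (qExpand L ℓ (coeffMap A.subtype Z)) *
      ∏ b ∈ Finset.range ℓ, rot (ζ ^ b) (coeffMap A.subtype Z)) :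
    haveI := redA_expChar A hℓ hA
    ∃ N : LaurentSeries A, coeffMap A.subtype N = n ∧
      coeffMap (residue A) N = qExpand (ResidueField A) ℓ (coeffMap (residue A) Z) *
        coeffMap (frobenius (ResidueField A) ℓ) (coeffMap (residue A) Z) := by
  haveI := redA_expChar A hℓ hA
  obtain ⟨u, hu1, hu2⟩ := redA_root A hℓ hA (ζ : L) (by
    rw [← Units.val_pow_eq_pow_val, hζ, Units.val_one])
  refine red_main (f := A.subtype) Subtype.val_injective (residue A) ℓ
    (fun b => rot (u ^ b)) ?_ Z n ?_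
  · intro b x
    rw [coeffMap_rot]
    have : Units.map ((residue A : A →+* ResidueField A) : A →* ResidueField A) (u ^ b) = 1 := by
      apply Units.ext
      rw [map_pow, Units.val_pow_eq_pow_val, Units.coe_map, Units.val_one]
      show (residue A (u : A)) ^ b = 1
      rw [hu2, one_pow]
    rw [this, red_rot_one]
  · rw [h]
    congr 1
    refine Finset.prod_congr rfl fun b _ => ?_
    rw [coeffMap_rot]
    have : Units.map ((A.subtype : A →+* L) : A →* L) (u ^ b) = ζ ^ b := by
      apply Units.ext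
      rw [map_pow, Units.val_pow_eq_pow_val, Units.val_pow_eq_pow_val, Units.coe_map]
      show (((u : A) : L)) ^ b = _
      rw [hu1]
    rw [this]

end

theorem red_qExpand_algebraMap {L : Type*} [Field L] (p : ℕ) [NeZero p] (c : L) :
    qExpand L p (algebraMap L (LaurentSeries L) c) = algebraMap L (LaurentSeries L) c := by
  rw [algebraMap_laurentSeries_eq_single, qExpand_single, mul_zero]

section F2

variable {K L : Type*} [Field K] [Field L] [Algebra K L] (A : ValuationSubring L)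
  {ℓ : ℕ} [NeZero ℓ] (hℓ : ℓ.Prime) (hA : A.LiesOverPrime ℓ)
  {φ : L ≃ₐ[K] L} (hφ : A.IsFrobeniusAt φ ℓ)
  (F : IntermediateField L (LaurentSeries L)) (g : F →+* F)
  (hg : ∀ x : F, ((g x : F) : LaurentSeries L) = coeffMap (φ : L →+* L) (x : LaurentSeries L))
  (nm : F → F) (hmul : ∀ a b, nm (a * b) = nm a * nm b)
  (ζ : Lˣ) (hζ : ζ ^ ℓ = 1)
  (hpf : ∀ z : F, qExpand L ℓ ((nm z : F) : LaurentSeries L) =
    qExpand L ℓ (qExpand L ℓ (z : LaurentSeries L)) *
      ∏ b ∈ Finset.range ℓ, rot (ζ ^ b) (z : LaurentSeries L))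

include hpf in
theorem red_nm_ne_zero (z : F) (hz : z ≠ 0) : nm z ≠ 0 := by
  intro h0
  have h1 := hpf z
  rw [h0] at h1
  have hz' : (z : LaurentSeries L) ≠ 0 := fun h => hz (Subtype.ext h)
  have h2 : qExpand L ℓ (qExpand L ℓ (z : LaurentSeries L)) *
      ∏ b ∈ Finset.range ℓ, rot (ζ ^ b) (z : LaurentSeries L) ≠ 0 := by
    refine mul_ne_zero ?_ (Finset.prod_ne_zero_iff.2 fun b _ => ?_)
    · exact (map_ne_zero _).2 ((map_ne_zero _).2 hz')
    · exact (map_ne_zero _).2 hz'
  apply h2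
  rw [← h1]
  exact map_zero _

include hpf in
theorem red_nm_algebraMap (d : L) : nm (algebraMap L F d) = algebraMap L F (d ^ (ℓ + 1)) := by
  apply Subtype.ext
  apply red_qExpand_injective (R := L) ℓ
  rw [hpf]
  have h1 : ((algebraMap L F d : F) : LaurentSeries L) = algebraMap L (LaurentSeries L) d := rfl
  have h2 : ((algebraMap L F (d ^ (ℓ + 1)) : F) : LaurentSeries L)
      = algebraMap L (LaurentSeries L) (d ^ (ℓ + 1)) := rfl
  rw [h1, h2, red_qExpand_algebraMap, red_qExpand_algebraMap, red_qExpand_algebraMap,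
    Finset.prod_congr rfl (fun b _ => rot_algebraMap (ζ ^ b) d), Finset.prod_const,
    Finset.card_range, map_pow, pow_succ']

include hmul hpf in
theorem red_nm_div (a b : F) (hb : b ≠ 0) : nm (a / b) = nm a / nm b := by
  rw [eq_div_iff (red_nm_ne_zero F nm ζ hpf b hb), ← hmul, div_mul_cancel₀ _ hb]

include hg in
theorem red_g_algebraMap (d : L) : g (algebraMap L F d) = algebraMap L F (φ d) := by
  apply Subtype.ext
  rw [hg]
  exact coeffMap_algebraMap (φ : L →+* L) d

theorem red_ne_zero_of_residue (Y : LaurentSeries A) (y : F)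
    (hy : (y : LaurentSeries L) = coeffMap A.subtype Y)
    (hY : coeffMap (residue A) Y ≠ 0) : y ≠ 0 := by
  rintro rfl
  apply hY
  have h0 : coeffMap A.subtype Y = 0 := hy.symm
  have : Y = 0 := red_coeffMap_injective (f := A.subtype) Subtype.val_injective
    (by rw [h0, map_zero])
  rw [this, map_zero]

include hℓ hA hφ hg hmul hζ hpf in
/-- **(F2)**, abstract form. -/
theorem red_F2_abs (c : L) (hc : c ≠ 0) (Y Y' : LaurentSeries A) (y y' : F)
    (hy : (y : LaurentSeries L) = coeffMap A.subtype Y)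
    (hy' : (y' : LaurentSeries L) = coeffMap A.subtype Y')
    (hY : coeffMap (residue A) Y ≠ 0) (hY' : coeffMap (residue A) Y' ≠ 0) :
    ∃ (c₁ : L) (Y₁ Y₁' : LaurentSeries A) (y₁ y₁' : F), c₁ ≠ 0 ∧
      (y₁ : LaurentSeries L) = coeffMap A.subtype Y₁ ∧
      (y₁' : LaurentSeries L) = coeffMap A.subtype Y₁' ∧
      coeffMap (residue A) Y₁ = coeffMap (residue A) Y₁' ∧
      coeffMap (residue A) Y₁ ≠ 0 ∧
      g (g (algebraMap L F c * (y / y'))) * (algebraMap L F c * (y / y')) ^ ℓ /
          nm (g (algebraMap L F c * (y / y')))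
        = algebraMap L F c₁ * (y₁ / y₁') := by
  haveI := redA_expChar A hℓ hA
  set σA := redAHom A φ hφ.mem_decompositionSubgroup with hσA
  set Fr := coeffMap (frobenius (ResidueField A) ℓ) with hFr
  have hFrinj : Function.Injective Fr :=
    red_coeffMap_injective (frobenius (ResidueField A) ℓ).injective
  -- series of `g y`, `g (g y)`
  have hser : ∀ (W : LaurentSeries A) (w : F), (w : LaurentSeries L) = coeffMap A.subtype W →
      ((g w : F) : LaurentSeries L) = coeffMap A.subtype (coeffMap σA W) := by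
    intro W w hw
    rw [hg, hw, redA_coeffMap_subtype]
  have hres : ∀ W : LaurentSeries A, coeffMap (residue A) (coeffMap σA W)
      = Fr (coeffMap (residue A) W) := fun W => redA_frob A hℓ hA φ hφ W
  -- the norms
  have hnm : ∀ (W : LaurentSeries A) (w : F), (w : LaurentSeries L) = coeffMap A.subtype W →
      ∃ Nw : LaurentSeries A, ((nm (g w) : F) : LaurentSeries L) = coeffMap A.subtype Nw ∧
        coeffMap (residue A) Nw = (coeffMap (residue A) W) ^ ℓ *
          Fr (Fr (coeffMap (residue A) W)) := by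
    intro W w hw
    have h1 := hpf (g w)
    rw [hser W w hw] at h1
    obtain ⟨Nw, hN1, hN2⟩ := red_nm A hℓ hA ζ hζ (coeffMap σA W) _ h1
    refine ⟨Nw, hN1.symm, ?_⟩
    rw [hN2, hres, red_pow_char ℓ (coeffMap (residue A) W)]
  obtain ⟨Ny, hNy1, hNy2⟩ := hnm Y y hy
  obtain ⟨Ny', hNy'1, hNy'2⟩ := hnm Y' y' hy'
  have hy0 : y ≠ 0 := red_ne_zero_of_residue A F Y y hy hY
  have hy'0 : y' ≠ 0 := red_ne_zero_of_residue A F Y' y' hy' hY'
  have hgy0 : g y ≠ 0 := (map_ne_zero g).2 hy0
  have hgy'0 : g y' ≠ 0 := (map_ne_zero g).2 hy'0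
  have hggy0 : g (g y) ≠ 0 := (map_ne_zero g).2 hgy0
  have hggy'0 : g (g y') ≠ 0 := (map_ne_zero g).2 hgy'0
  have hn0 : nm (g y) ≠ 0 := red_nm_ne_zero F nm ζ hpf _ hgy0
  have hn'0 : nm (g y') ≠ 0 := red_nm_ne_zero F nm ζ hpf _ hgy'0
  have hφc : φ c ≠ 0 := (map_ne_zero φ).2 hc
  have hφφc : φ (φ c) ≠ 0 := (map_ne_zero φ).2 hφc
  refine ⟨φ (φ c) * c ^ ℓ / (φ c) ^ (ℓ + 1),
    coeffMap σA (coeffMap σA Y) * Y ^ ℓ * Ny', coeffMap σA (coeffMap σA Y') * Y' ^ ℓ * Ny,
    g (g y) * y ^ ℓ * nm (g y'), g (g y') * y' ^ ℓ * nm (g y),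
    div_ne_zero (mul_ne_zero hφφc (pow_ne_zero _ hc)) (pow_ne_zero _ hφc), ?_, ?_, ?_, ?_, ?_⟩
  · show ((g (g y) : F) : LaurentSeries L) * (y : LaurentSeries L) ^ ℓ *
      ((nm (g y') : F) : LaurentSeries L) = _
    rw [hser _ _ (hser Y y hy), hy, hNy'1, map_mul, map_mul, map_pow]
  · show ((g (g y') : F) : LaurentSeries L) * (y' : LaurentSeries L) ^ ℓ *
      ((nm (g y) : F) : LaurentSeries L) = _
    rw [hser _ _ (hser Y' y' hy'), hy', hNy1, map_mul, map_mul, map_pow]
  · rw [map_mul, map_mul, map_mul, map_mul, map_pow, map_pow, hres, hres, hres, hres, hNy2, hNy'2]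
    ring
  · rw [map_mul, map_mul, map_pow, hres, hres, hNy'2]
    have h1 : Fr (Fr (coeffMap (residue A) Y)) ≠ 0 := by
      intro h
      exact hY (hFrinj (hFrinj (by rw [h, map_zero, map_zero])))
    have h2 : Fr (Fr (coeffMap (residue A) Y')) ≠ 0 := by
      intro h
      exact hY' (hFrinj (hFrinj (by rw [h, map_zero, map_zero])))
    exact mul_ne_zero (mul_ne_zero h1 (pow_ne_zero _ hY)) (mul_ne_zero (pow_ne_zero _ hY') h2)
  · have e1 : g (algebraMap L F c * (y / y')) = algebraMap L F (φ c) * (g y / g y') := by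
      rw [map_mul, map_div₀, red_g_algebraMap F g hg]
    have e2 : g (algebraMap L F (φ c) * (g y / g y'))
        = algebraMap L F (φ (φ c)) * (g (g y) / g (g y')) := by
      rw [map_mul, map_div₀, red_g_algebraMap F g hg]
    have e3 : nm (algebraMap L F (φ c) * (g y / g y'))
        = algebraMap L F ((φ c) ^ (ℓ + 1)) * (nm (g y) / nm (g y')) := by
      rw [hmul, red_nm_algebraMap F nm ζ hpf, red_nm_div F nm hmul ζ hpf _ _ hgy'0]
    rw [e1, e2, e3, map_div₀, map_mul, map_pow, map_pow, mul_pow, div_pow]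
    have hC1 : algebraMap L F (φ c) ≠ 0 := (map_ne_zero _).2 hφc
    have hC2 : algebraMap L F c ≠ 0 := (map_ne_zero _).2 hc
    field_simp

end F2

end Fermat.Agent.S37Lib
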