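import Fermat.Agent.S37.RedTop
import Fermat.Agent.S37.RC

set_option autoImplicit false

/-!
# S37 : (F2) in the `RC` shape
-/

open ModularCurve AlgebraicCurve IsLocalRing Fermat.Agent.S24Lib

namespace Fermat.Agent.S37Lib

/-- **(F2)** : `φ² h · h ^ ℓ / N_α(β(φ h))` is residually constant, for every `h ≠ 0`. -/
theorem red_F2_RC (N ℓ : ℕ) [NeZero N] [NeZero ℓ] (hℓ : ℓ.Prime) (hℓN : ¬ ℓ ∣ N)
    (A : ValuationSubring Kb) (hA : A.LiesOverPrime ℓ) {φ : Kb ≃ₐ[ℚ] Kb}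
    (hφ : A.IsFrobeniusAt φ ℓ) (h : FN N) (h0 : h ≠ 0) :
    RC A (galF N φ (galF N φ h) * h ^ ℓ / hdNm N ℓ (galF N φ h)) := by
  obtain ⟨c, Y, Y', y, y', hc, hy, hy', hY, hY', rfl⟩ := rc_scale hℓ hA h h0
  exact red_F2 N ℓ hℓ hℓN A hA hφ c hc Y Y' y y' hy hy' hY hY'

/-- **(F2)**, on units. -/
theorem red_F2_RC_units (N ℓ : ℕ) [NeZero N] [NeZero ℓ] (hℓ : ℓ.Prime) (hℓN : ¬ ℓ ∣ N)
    (A : ValuationSubring Kb) (hA : A.LiesOverPrime ℓ) {φ : Kb ≃ₐ[ℚ] Kb}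
    (hφ : A.IsFrobeniusAt φ ℓ) (h : (FN N)ˣ) :
    RC A ((galU N φ (galU N φ h) * h ^ ℓ / hdNmU N ℓ (galU N φ h) : (FN N)ˣ) : FN N) := by
  have := red_F2_RC N ℓ hℓ hℓN A hA hφ (h : FN N) h.ne_zero
  simpa [Units.val_div_eq_div_val, galU_coe, hdNmU_val] using this

end Fermat.Agent.S37Lib
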