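import Mathlib
import Fermat.Agent.S37.Count

set_option autoImplicit false

/-!
# S37 : abstract assembly of the boundedness argument
-/

namespace Fermat.Agent.S37Lib

open AlgebraicCurve

variable {K F : Type*} [Field K] [Field F] [Algebra K F]

theorem ta_isPrincipal_iff (D : Divisor K F) :
    Divisor.IsPrincipal D ↔ ∃ h : Fˣ, Dv D h := by
  constructor
  · rintro ⟨f, hf, h⟩
    exact ⟨Units.mk0 f hf, h⟩
  · rintro ⟨h, hh⟩
    exact ⟨h, h.ne_zero, hh⟩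

theorem ta_mk_eq_zero_iff (D : Divisor.degZero (K := K) (F := F)) :
    Pic0.mk D = 0 ↔ Divisor.IsPrincipal (D : Divisor K F) := by
  unfold Pic0.mk
  rw [QuotientAddGroup.eq_zero_iff, AddSubgroup.mem_addSubgroupOf]
  rfl

theorem ta_mk_nsmul (n : ℕ) (D : Divisor.degZero (K := K) (F := F)) :
    Pic0.mk (n • D) = n • Pic0.mk D := rfl

theorem ta_mk_sub (D E : Divisor.degZero (K := K) (F := F)) :
    Pic0.mk (D - E) = Pic0.mk D - Pic0.mk E := rfl

theorem ta_mk_neg (D : Divisor.degZero (K := K) (F := F)) :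
    Pic0.mk (-D) = - Pic0.mk D := rfl

theorem ta_mk_sum {ι : Type*} (s : Finset ι) (D : ι → Divisor.degZero (K := K) (F := F)) :
    Pic0.mk (∑ i ∈ s, D i) = ∑ i ∈ s, Pic0.mk (D i) := by
  classical
  induction s using Finset.induction_on with
  | empty => simp
  | insert a s ha ih => rw [Finset.sum_insert ha, Finset.sum_insert ha, Pic0.mk_add, ih]

theorem Bdd.sum {RC : Subgroup Fˣ} {ι : Type*} (s : Finset ι) (E : ι → Divisor K F)
    (h : ∀ i ∈ s, Bdd RC (E i)) : Bdd RC (∑ i ∈ s, E i) := by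
  classical
  induction s using Finset.induction_on with
  | empty => simpa using Bdd.zero RC
  | insert a s ha ih =>
    rw [Finset.sum_insert ha]
    exact (h a (Finset.mem_insert_self a s)).add
      (ih fun i hi => h i (Finset.mem_insert_of_mem hi))

/-- **abstract content**: a bounded divisor with a principal multiple `m • E`, `m` good,
is principal. -/
theorem ta_main {RC : Subgroup Fˣ} (hDEG : DegProp (K := K) RC) {m : ℕ} (hm : m ≠ 0)
    (hpow : ∀ f : Fˣ, f ∈ RC → (∀ v : Place K F, (m : ℤ) ∣ v.ord (f : F)) → ∃ s : Fˣ, f = s ^ m)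
    {E : Divisor K F} (hE : Bdd RC E) (hprin : Divisor.IsPrincipal (m • E)) :
    Divisor.IsPrincipal E := by
  obtain ⟨f, hf⟩ := (ta_isPrincipal_iff _).1 hprin
  have hfRC : f ∈ RC := hE.mem_RC hDEG m f hf
  obtain ⟨s, rfl⟩ := hpow f hfRC (fun v => by
    rw [← hf v, Finsupp.smul_apply, nsmul_eq_mul]
    exact dvd_mul_right _ _)
  refine (ta_isPrincipal_iff _).2 ⟨s, fun v => ?_⟩
  have h1 := hf v
  rw [Finsupp.smul_apply, nsmul_eq_mul, Units.val_pow_eq_pow_val, ← zpow_natCast,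
    Place.ord_zpow] at h1
  exact mul_left_cancel₀ (by exact_mod_cast hm) h1

/-- **abstract content, on `Pic⁰`** -/
theorem ta_content {G : Type*} [Group G] [DistribMulAction G (Pic0 K F)]
    {RC : Subgroup Fˣ} (hRR : HasBddRep K F) (hDEG : DegProp (K := K) RC) {m : ℕ} (hm : m ≠ 0)
    (hpow : ∀ f : Fˣ, f ∈ RC → (∀ v : Place K F, (m : ℤ) ∣ v.ord (f : F)) → ∃ s : Fˣ, f = s ^ m)
    (gd : G → Divisor K F →+ Divisor K F)
    (hgd : ∀ σ (D : Divisor.degZero (K := K) (F := F)),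
      ∃ h : gd σ D ∈ Divisor.degZero (K := K) (F := F), σ • Pic0.mk D = Pic0.mk ⟨gd σ D, h⟩)
    (T : Divisor K F →+ Divisor K F) (TJ : Pic0 K F → Pic0 K F)
    (hT : ∀ D : Divisor.degZero (K := K) (F := F),
      ∃ h : T D ∈ Divisor.degZero (K := K) (F := F), TJ (Pic0.mk D) = Pic0.mk ⟨T D, h⟩)
    (φ : G) (ℓ : ℕ) (I : Set G) (hI : ∀ σ ∈ I, GoodOp RC (gd σ - AddMonoidHom.id _))
    (hΘ : GoodOp RC ((gd φ).comp (gd φ) - T.comp (gd φ) + ℓ • AddMonoidHom.id _))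
    (ι : Type) [Fintype ι] (s : ι → G) (x : ι → Pic0 K F) (y : Pic0 K F) (hs : ∀ i, s i ∈ I)
    (h : m • (∑ i, (s i • x i - x i) + (φ • φ • y - TJ (φ • y) + ℓ • y)) = 0) :
    ∑ i, (s i • x i - x i) + (φ • φ • y - TJ (φ • y) + ℓ • y) = 0 := by
  classical
  choose D hD using fun i => Pic0.mk_surjective (x i)
  obtain ⟨D0, rfl⟩ := Pic0.mk_surjective y
  obtain rfl : x = fun i => Pic0.mk (D i) := funext fun i => (hD i).symm
  choose g1 hg1 using fun i => hgd (s i) (D i)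
  obtain ⟨g2, hg2⟩ := hgd φ D0
  obtain ⟨g3, hg3⟩ := hgd φ ⟨gd φ D0, g2⟩
  obtain ⟨g4, hg4⟩ := hT ⟨gd φ D0, g2⟩
  have key : ∑ i, (s i • Pic0.mk (D i) - Pic0.mk (D i))
      + (φ • φ • Pic0.mk D0 - TJ (φ • Pic0.mk D0) + ℓ • Pic0.mk D0)
      = Pic0.mk (∑ i, (⟨gd (s i) (D i), g1 i⟩ - D i)
          + (⟨gd φ (gd φ D0), g3⟩ - ⟨T (gd φ D0), g4⟩ + ℓ • D0)) := by
    rw [Pic0.mk_add, ta_mk_sum, Pic0.mk_add, ta_mk_sub, ta_mk_nsmul, hg2, hg3, hg4]
    congr 1
    exact Finset.sum_congr rfl fun i _ => by rw [ta_mk_sub, hg1]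
  simp only [] at h ⊢
  rw [key] at h ⊢
  rw [← ta_mk_nsmul, ta_mk_eq_zero_iff] at h
  rw [ta_mk_eq_zero_iff]
  have hEE : ((∑ i, (⟨gd (s i) (D i), g1 i⟩ - D i)
          + (⟨gd φ (gd φ D0), g3⟩ - ⟨T (gd φ D0), g4⟩ + ℓ • D0) :
            Divisor.degZero (K := K) (F := F)) : Divisor K F)
      = ∑ i, (gd (s i) - AddMonoidHom.id _ : Divisor K F →+ Divisor K F) (D i : Divisor K F)
        + ((gd φ).comp (gd φ) - T.comp (gd φ) + ℓ • AddMonoidHom.id _ :
            Divisor K F →+ Divisor K F) (D0 : Divisor K F) := by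
    simp only [AddSubgroup.coe_add, AddSubgroup.coe_sub, AddSubgroup.coe_nsmul,
      AddSubgroup.val_finsetSum, AddMonoidHom.sub_apply, AddMonoidHom.add_apply,
      AddMonoidHom.comp_apply, AddMonoidHom.id_apply, AddMonoidHom.nsmul_apply]
  rw [AddSubgroup.coe_nsmul, hEE] at h
  rw [hEE]
  refine ta_main hDEG hm hpow ?_ h
  refine Bdd.add (Bdd.sum _ _ fun i _ => ?_) ?_
  · exact (hI (s i) (hs i)).bdd_apply hRR (D i).2
  · exact hΘ.bdd_apply hRR D0.2

end Fermat.Agent.S37Lib
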