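import Mathlib
import Fermat.Prelude.Def_ModularCurve_HeckeModule
import Fermat.Agent.S37.TopAbs
import Fermat.Agent.S37.Formal
import Fermat.Agent.Lib.Frobenius

set_option autoImplicit false

/-!
# S37 : top-level assembly
-/

namespace Fermat.Agent.S37Lib

open AlgebraicCurve ModularCurve

/-- `ℚ̄` -/
abbrev tpK : Type := AlgebraicClosure ℚ
/-- the absolute Galois group -/
abbrev tpG : Type := tpK ≃ₐ[ℚ] tpK
/-- the function field of `X₀(N)` over `ℚ̄` -/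
abbrev tpF (N : ℕ) : Type := ↥(modularFunctionFieldBar N)

/-- the Galois action on divisors, as an additive map -/
noncomputable def galDiv (N : ℕ) (σ : tpG) : Divisor tpK (tpF N) →+ Divisor tpK (tpF N) :=
  DistribSMul.toAddMonoidHom _ (arithmeticGalois (modularFunctionFieldFull N) σ)

theorem galDiv_apply (N : ℕ) (σ : tpG) (D : Divisor tpK (tpF N)) :
    galDiv N σ D = arithmeticGalois (modularFunctionFieldFull N) σ • D := rfl

theorem galDiv_degree (N : ℕ) (σ : tpG) (D : Divisor tpK (tpF N)) :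
    Divisor.degree (galDiv N σ D) = Divisor.degree D := by
  rw [galDiv_apply, SemilinearAut.degree_smul]

theorem tp_smul_mk (N : ℕ) (σ : tpG) (D : Divisor.degZero (K := tpK) (F := tpF N)) :
    σ • (Pic0.mk D : JZero N) =
      Pic0.mk ⟨galDiv N σ D, by
        rw [Divisor.mem_degZero, galDiv_degree]; exact D.2⟩ := rfl

theorem tp_fmTheta_def {K L : Type*} [Field K] [Field L] [Algebra K L] (J : Type)
    [AddCommGroup J] [Module HeckeAlg J] [DistribMulAction (L ≃ₐ[K] L) J]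
    [SMulCommClass (L ≃ₐ[K] L) HeckeAlg J] {ℓ : ℕ} (hℓ : ℓ.Prime) (φ : L ≃ₐ[K] L) (x : J) :
    fmTheta J hℓ φ x = φ • φ • x - heckeGen ⟨ℓ, hℓ⟩ • (φ • x) + ℓ • x := rfl

/-- the inputs of the assembly -/
structure TopInputs (N : ℕ) [NeZero N] {ℓ : ℕ} (hℓ : ℓ.Prime) (A : ValuationSubring tpK)
    (φ : tpG) (RC : Subgroup (tpF N)ˣ) (T : Divisor tpK (tpF N) →+ Divisor tpK (tpF N)) :
    Prop where
  deg : DegProp (K := tpK) RC
  pow : ∀ m : ℕ, ¬ ℓ ∣ m → ∀ f ∈ RC, (∀ v : Place tpK (tpF N), (m : ℤ) ∣ v.ord (f : tpF N)) →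
    ∃ s : (tpF N)ˣ, f = s ^ m
  inertia : ∀ σ ∈ A.inertiaSubgroupIn ℚ, GoodOp RC (galDiv N σ - AddMonoidHom.id _)
  theta : GoodOp RC
    ((galDiv N φ).comp (galDiv N φ) - T.comp (galDiv N φ) + ℓ • AddMonoidHom.id _)
  hecke : ∀ D : Divisor.degZero (K := tpK) (F := tpF N),
    ∃ h : T D ∈ Divisor.degZero (K := tpK) (F := tpF N),
      heckeOperatorBar N ⟨ℓ, hℓ⟩ (Pic0.mk D) = Pic0.mk ⟨T D, h⟩

theorem tp_content (N p : ℕ) [NeZero N] (hcomm : HeckeOperatorsCommuteBar N)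
    (hRR : HasBddRep tpK (tpF N)) {ℓ : ℕ} (hℓ : ℓ.Prime) (hℓNp : ¬ ℓ ∣ N * p)
    (A : ValuationSubring tpK) (φ : tpG) (RC : Subgroup (tpF N)ˣ)
    (T : Divisor tpK (tpF N) →+ Divisor tpK (tpF N)) (H : TopInputs N hℓ A φ RC T) :
    letI := heckeModuleBar N
    ∀ (_ : SMulCommClass tpG HeckeAlg (JZero N)),
    ∀ (ι : Type) (_ : Fintype ι) (s : ι → tpG) (x : ι → JZero N) (y : JZero N),
      (∀ i, s i ∈ A.inertiaSubgroupIn ℚ) →
      (∃ n : ℕ, p ^ n • (∑ i, (s i • x i - x i) + fmTheta (JZero N) hℓ φ y) = 0) →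
        ∑ i, (s i • x i - x i) + fmTheta (JZero N) hℓ φ y = 0 := by
  let _ := heckeModuleBar N
  intro _ ι _ s x y hs
  rintro ⟨n, hn⟩
  have h1 : (heckeGen (⟨ℓ, hℓ⟩ : Nat.Primes) • (φ • y) : JZero N)
      = heckeOperatorBar N ⟨ℓ, hℓ⟩ (φ • y) :=
    heckeModuleBar_heckeGen_smul hcomm ⟨ℓ, hℓ⟩ _
  rw [tp_fmTheta_def, h1] at hn ⊢
  have hp : ¬ ℓ ∣ p ^ n := fun h => hℓNp (Dvd.dvd.mul_left (hℓ.dvd_of_dvd_pow h) N)
  have hm : p ^ n ≠ 0 := fun h => hp (h ▸ dvd_zero ℓ)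
  exact ta_content hRR H.deg hm (H.pow _ hp) (galDiv N)
    (fun σ D => ⟨_, tp_smul_mk N σ D⟩) T (heckeOperatorBar N ⟨ℓ, hℓ⟩) H.hecke φ ℓ
    (A.inertiaSubgroupIn ℚ : Set tpG) H.inertia H.theta ι s x y hs hn

/-- **S37 from the leaf inputs.** -/
theorem tp_main (N p : ℕ) [NeZero N] (hcomm : HeckeOperatorsCommuteBar N)
    (hRR : HasBddRep tpK (tpF N))
    (H : ∀ (ℓ : ℕ) (hℓ : ℓ.Prime), ¬ ℓ ∣ N → ∀ A : ValuationSubring tpK, A.LiesOverPrime ℓ →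
      ∀ φ : tpG, A.IsFrobeniusAt φ ℓ →
        ∃ (RC : Subgroup (tpF N)ˣ) (T : Divisor tpK (tpF N) →+ Divisor tpK (tpF N)),
          TopInputs N hℓ A φ RC T) :
    letI := heckeModuleBar N
    ∀ (_ : SMulCommClass tpG HeckeAlg (JZero N)),
      SpecializationExists (K := ℚ) (L := tpK) N p (JZero N) := by
  let _ := heckeModuleBar N
  intro hSC ℓ hℓ hℓNp A hA
  obtain ⟨φ, hφ⟩ := Fermat.Agent.Lib.Frobenius.exists_isFrobeniusAt hℓ A hA
  obtain ⟨RC, T, HI⟩ := H ℓ hℓ (fun h => hℓNp (Dvd.dvd.mul_right h p)) A hA φ hφ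
  exact fm_main (J := JZero N) p A hℓ hφ (tp_content N p hcomm hRR hℓ hℓNp A φ RC T HI hSC)

end Fermat.Agent.S37Lib
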